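import Fermat.Agent.AlmostGoldbach.Singular

/-!
# The singular series for two primes and its part prime to `r`

For even `n` the series is at least half of `n / φ n`, and at least `r |c_r(n)| / φ(r) ^ 2` times its part
prime to `r`, whatever `r` is.
-/

set_option autoImplicit false

noncomputable section

open Finset ArithmeticFunction Filter
open FA.ThreePrimes (moebiusR ramanujan divPart telescope telescope_bounds)
open FA.AlmostGoldbach (pairTerm pairSeries pairConst)
open scoped Classical Topology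

namespace FA.MontgomeryVaughan

/-- `∏_{p ∣ n} p / (p - 1)`. -/
def ratio (n : ℕ) : ℝ := ∏ p ∈ n.primeFactors, (1 + 1 / ((p : ℝ) - 1))

theorem one_le_factor {p : ℕ} (hp : p.Prime) : 1 ≤ 1 + 1 / ((p : ℝ) - 1) := by
  have : (2 : ℝ) ≤ p := by exact_mod_cast hp.two_le
  have : 0 ≤ 1 / ((p : ℝ) - 1) := div_nonneg zero_le_one (by linarith)
  linarith

theorem one_le_prod_factor {s : Finset ℕ} (hs : ∀ p ∈ s, p.Prime) :
    1 ≤ ∏ p ∈ s, (1 + 1 / ((p : ℝ) - 1)) :=
  Finset.one_le_prod fun p hp => one_le_factor (hs p hp)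

theorem one_le_ratio (n : ℕ) : 1 ≤ ratio n := one_le_prod_factor fun _ => Nat.prime_of_mem_primeFactors

theorem ratio_eq {n : ℕ} (hn : 0 < n) : ratio n = n / n.totient := by
  have hφ : (0 : ℝ) < n.totient := Nat.cast_pos.2 (Nat.totient_pos.2 hn)
  rw [eq_div_iff hφ.ne', ratio]
  have h1 : ∀ p ∈ n.primeFactors, ((p : ℝ) - 1) ≠ 0 := fun p hp => by
    have : (2 : ℝ) ≤ p := by exact_mod_cast (Nat.prime_of_mem_primeFactors hp).two_le
    linarith
  have h2 := congrArg (Nat.cast (R := ℝ)) (Nat.totient_mul_prod_primeFactors n)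
  push_cast at h2
  rw [prod_congr rfl fun p hp => show (((p - 1 : ℕ) : ℕ) : ℝ) = (p : ℝ) - 1 by
    rw [Nat.cast_sub (Nat.prime_of_mem_primeFactors hp).one_le, Nat.cast_one]] at h2
  rw [prod_congr rfl fun (p : ℕ) (hp : p ∈ n.primeFactors) => show 1 + 1 / ((p : ℝ) - 1) = (p : ℝ) / ((p : ℝ) - 1) by
    have := h1 p hp; field_simp; ring, prod_div_distrib, div_mul_eq_mul_div,
    div_eq_iff (prod_ne_zero_iff.2 h1)]
  linarith

/-- The terms prime to `r`. -/
def coprimeTerm (n r : ℕ) : ArithmeticFunction ℝ :=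
  ⟨fun m => if m.Coprime r then pairTerm n m else 0, by simp⟩

theorem coprimeTerm_apply (n r m : ℕ) : coprimeTerm n r m = if m.Coprime r then pairTerm n m else 0 := rfl

theorem abs_coprimeTerm_le (n r m : ℕ) : |coprimeTerm n r m| ≤ |pairTerm n m| := by
  rw [coprimeTerm_apply]
  split_ifs <;> simp

theorem coprimeTerm_isMultiplicative (n r : ℕ) : (coprimeTerm n r).IsMultiplicative := by
  refine ⟨?_, fun {a b} h => ?_⟩
  · rw [coprimeTerm_apply, if_pos (Nat.coprime_one_left r)]
    exact (FA.AlmostGoldbach.pairTerm_isMultiplicative n).1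
  · simp only [coprimeTerm_apply, Nat.coprime_mul_iff_left]
    rw [(FA.AlmostGoldbach.pairTerm_isMultiplicative n).2 h]
    by_cases ha : a.Coprime r
    · by_cases hb : b.Coprime r
      · rw [if_pos ha, if_pos hb, if_pos ⟨ha, hb⟩]
      · rw [if_neg hb, if_neg fun h' => hb h'.2, mul_zero]
    · rw [if_neg ha, if_neg fun h' => ha h'.1, zero_mul]

theorem summable_coprimeTerm {n : ℕ} (hn : n ≠ 0) (r : ℕ) : Summable fun m => ‖coprimeTerm n r m‖ :=
  (FA.AlmostGoldbach.summable_pair hn).of_nonneg_of_le (fun _ => norm_nonneg _) fun m => abs_coprimeTerm_le n r m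

/-- The series prime to `r`. -/
def coprimeSeries (n r : ℕ) : ℝ := ∑' m, coprimeTerm n r m

theorem coprimeSeries_one (n : ℕ) : coprimeSeries n 1 = pairSeries n :=
  tsum_congr fun m => by rw [coprimeTerm_apply, if_pos (Nat.coprime_one_right m)]

/-- The tail. -/
theorem abs_coprimeSeries_sub_le {n : ℕ} (hn : n ≠ 0) (r P : ℕ) :
    |coprimeSeries n r - ∑ m ∈ Icc 1 P, coprimeTerm n r m| ≤
      pairConst * n.divisors.card * ((P + 1 : ℕ) : ℝ) ^ (-(1 / 4) : ℝ) := by
  have h0 : ∑ m ∈ Icc 1 P, coprimeTerm n r m = ∑ m ∈ range (P + 1), coprimeTerm n r m := by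
    refine sum_subset (fun m hm => ?_) fun m hm hm' => ?_
    · rw [mem_Icc] at hm
      rw [mem_range]
      omega
    · rw [mem_range] at hm
      rw [mem_Icc] at hm'
      obtain rfl : m = 0 := by omega
      simp
  rw [h0, coprimeSeries, ← Summable.sum_add_tsum_nat_add (P + 1) (summable_coprimeTerm hn r).of_norm,
    add_sub_cancel_left, ← Real.norm_eq_abs]
  refine (norm_tsum_le_tsum_norm ((summable_nat_add_iff (f := fun m => ‖coprimeTerm n r m‖) (P + 1)).2
    (summable_coprimeTerm hn r))).trans (Real.tsum_le_of_sum_range_le (fun i => norm_nonneg _) fun Q => ?_)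
  refine le_trans ?_ (FA.AlmostGoldbach.sum_abs_pairTerm_le hn P (P + Q))
  rw [show Ioc P (P + Q) = Ico (P + 1) (P + Q + 1) by ext; simp, sum_Ico_eq_sum_range,
    show P + Q + 1 - (P + 1) = Q by omega]
  refine sum_le_sum fun i _ => ?_
  rw [Real.norm_eq_abs, add_comm i]
  exact abs_coprimeTerm_le n r _

theorem tendsto_prod_coprimeTerm {n : ℕ} (hn : n ≠ 0) (r : ℕ) :
    Tendsto (fun k : ℕ => ∏ p ∈ k.primesBelow, (1 + coprimeTerm n r p)) atTop (𝓝 (coprimeSeries n r)) := by
  refine ((coprimeTerm_isMultiplicative n r).eulerProduct (summable_coprimeTerm hn r)).congr fun k => ?_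
  refine prod_congr rfl fun p hp => ?_
  rw [Nat.mem_primesBelow] at hp
  rw [tsum_eq_sum (s := range 2) fun e he => ?_]
  · simp [sum_range_succ, (coprimeTerm_isMultiplicative n r).1]
  · rw [mem_range] at he
    rw [coprimeTerm_apply, FA.AlmostGoldbach.pairTerm_apply, moebiusR, intCoe_apply,
      moebius_apply_prime_pow hp.2 (by omega), if_neg (show ¬ e = 1 by omega)]
    simp

theorem pairTerm_prime_dvd {n p : ℕ} (hp : p.Prime) (h : p ∣ n) : pairTerm n p = 1 / ((p : ℝ) - 1) := by
  have h2 : (2 : ℝ) ≤ p := by exact_mod_cast hp.two_le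
  rw [FA.AlmostGoldbach.pairTerm_apply, FA.ThreePrimes.ramanujan_prime n hp, if_pos h, moebiusR, intCoe_apply,
    moebius_apply_prime hp, Nat.totient_prime hp, Nat.cast_sub hp.one_le, Nat.cast_one]
  push_cast
  have : (p : ℝ) - 1 ≠ 0 := by linarith
  field_simp

theorem pairFactor_nonneg {n : ℕ} (hn : Even n) {p : ℕ} (hp : p.Prime) : 0 ≤ 1 + pairTerm n p :=
  (telescope_bounds p).1.le.trans (FA.AlmostGoldbach.telescope_le_pairFactor hn hp)

theorem coprimeSeries_nonneg {n : ℕ} (hn0 : n ≠ 0) (hn : Even n) (r : ℕ) : 0 ≤ coprimeSeries n r := by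
  refine ge_of_tendsto (tendsto_prod_coprimeTerm hn0 r) (Eventually.of_forall fun k => prod_nonneg fun p hp => ?_)
  rw [Nat.mem_primesBelow] at hp
  rw [coprimeTerm_apply]
  split_ifs
  · exact pairFactor_nonneg hn hp.2
  · norm_num

/-- The local factors at `r` put back. -/
theorem prod_mul_coprimeSeries {n r : ℕ} (hn : n ≠ 0) (hr : 0 < r) :
    (∏ p ∈ r.primeFactors, (1 + pairTerm n p)) * coprimeSeries n r = pairSeries n := by
  refine tendsto_nhds_unique ((tendsto_prod_coprimeTerm hn r).const_mul _) ?_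
  rw [← coprimeSeries_one]
  refine (tendsto_prod_coprimeTerm hn 1).congr' ((eventually_gt_atTop r).mono fun k hk => ?_)
  have hsub : r.primeFactors ⊆ k.primesBelow := fun p hp => Nat.mem_primesBelow.2
    ⟨lt_of_le_of_lt (Nat.le_of_mem_primeFactors hp) hk, Nat.prime_of_mem_primeFactors hp⟩
  dsimp only
  rw [← prod_sdiff hsub, ← prod_sdiff hsub (f := fun p => 1 + coprimeTerm n r p), mul_comm]
  have e1 : ∏ p ∈ r.primeFactors, (1 + coprimeTerm n r p) = 1 := prod_eq_one fun p hp => by
    rw [coprimeTerm_apply, if_neg fun hc => (Nat.prime_of_mem_primeFactors hp).coprime_iff_not_dvd.1 hc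
      (Nat.dvd_of_mem_primeFactors hp), add_zero]
  rw [e1, mul_one]
  congr 1
  · exact prod_congr rfl fun p _ => by rw [coprimeTerm_apply, if_pos (Nat.coprime_one_right p)]
  · refine prod_congr rfl fun p hp => ?_
    rw [Finset.mem_sdiff, Nat.mem_primesBelow] at hp
    rw [coprimeTerm_apply, coprimeTerm_apply, if_pos (Nat.coprime_one_right p), if_pos]
    exact hp.1.2.coprime_iff_not_dvd.2 fun h => hp.2 (Nat.mem_primeFactors.2 ⟨hp.1.2, h, hr.ne'⟩)

theorem ramanujan_isMultiplicative (n : ℕ) : (ramanujan n).IsMultiplicative :=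
  FA.ThreePrimes.moebiusR_isMultiplicative.mul (FA.ThreePrimes.divPart_isMultiplicative n)

theorem ramanujan_primePow_not_dvd {n p : ℕ} (hp : p.Prime) (h : ¬p ∣ n) (k : ℕ) :
    ramanujan n (p ^ k) = moebiusR (p ^ k) := by
  rw [ramanujan, mul_apply, Nat.sum_divisorsAntidiagonal' (fun x y => moebiusR x * divPart n y),
    sum_eq_single 1]
  · simp [FA.ThreePrimes.divPart_apply]
  · intro d hd hd1
    rw [FA.ThreePrimes.divPart_apply, if_neg, mul_zero]
    intro hdn
    obtain ⟨i, -, rfl⟩ := (Nat.dvd_prime_pow hp).1 (Nat.dvd_of_mem_divisors hd)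
    rcases Nat.eq_zero_or_pos i with rfl | hi
    · exact hd1 (pow_zero p)
    · exact h ((dvd_pow_self p hi.ne').trans hdn)
  · simp [hp.ne_zero]

/-- **The exceptional local factor is at most the true one.** -/
theorem exc_factor_le {n : ℕ} (hn : Even n) (r : ℕ) (hr : 0 < r) :
    (r : ℝ) * |ramanujan n r| / (r.totient : ℝ) ^ 2 ≤ ∏ p ∈ r.primeFactors, (1 + pairTerm n p) := by
  induction r using Nat.recOnPosPrimePosCoprime with
  | zero => omega
  | one => simp [(ramanujan_isMultiplicative n).1]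
  | coprime a b ha hb hab iha ihb =>
    rw [(ramanujan_isMultiplicative n).2 hab, Nat.totient_mul hab, hab.primeFactors_mul,
      prod_union hab.disjoint_primeFactors]
    push_cast
    rw [abs_mul, show (a : ℝ) * b * (|ramanujan n a| * |ramanujan n b|) / ((a.totient : ℝ) * b.totient) ^ 2 =
      ((a : ℝ) * |ramanujan n a| / (a.totient : ℝ) ^ 2) * ((b : ℝ) * |ramanujan n b| / (b.totient : ℝ) ^ 2) by
      ring]
    exact mul_le_mul (iha (by omega)) (ihb (by omega)) (by positivity)
      (prod_nonneg fun p hp => pairFactor_nonneg hn (Nat.prime_of_mem_primeFactors hp))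
  | prime_pow p k hp hk =>
    rw [Nat.primeFactors_prime_pow hk.ne' hp, prod_singleton]
    have h2 : (2 : ℝ) ≤ p := by exact_mod_cast hp.two_le
    by_cases hpn : p ∣ n
    · rw [pairTerm_prime_dvd hp hpn]
      have hφ : (0 : ℝ) < ((p ^ k).totient : ℝ) := Nat.cast_pos.2 (Nat.totient_pos.2 hr)
      refine (div_le_div_of_nonneg_right (mul_le_mul_of_nonneg_left (FA.ThreePrimes.abs_ramanujan_le n _)
        (Nat.cast_nonneg _)) (sq_nonneg _)).trans (le_of_eq ?_)
      obtain ⟨i, rfl⟩ : ∃ i, k = i + 1 := ⟨k - 1, by omega⟩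
      rw [Nat.totient_prime_pow_succ hp]
      push_cast [Nat.cast_sub hp.one_le]
      have : (p : ℝ) - 1 ≠ 0 := by linarith
      have : (p : ℝ) ^ i ≠ 0 := by positivity
      field_simp
      ring
    · rw [ramanujan_primePow_not_dvd hp hpn]
      rcases Nat.lt_or_ge k 2 with hk1 | hk2
      · obtain rfl : k = 1 := by omega
        have h3 : 3 ≤ p := by
          by_contra h
          exact hpn ((show p = 2 by have := hp.two_le; omega) ▸ even_iff_two_dvd.1 hn)
        have h3' : (3 : ℝ) ≤ p := by exact_mod_cast h3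
        rw [pow_one, FA.AlmostGoldbach.pairTerm_apply, FA.ThreePrimes.ramanujan_prime n hp, if_neg hpn,
          moebiusR, intCoe_apply, moebius_apply_prime hp, Nat.totient_prime hp, Nat.cast_sub hp.one_le]
        push_cast
        rw [abs_neg, abs_one, mul_one, neg_one_sq, one_mul, div_le_iff₀ (by nlinarith), add_mul, one_mul,
          div_mul_cancel₀ _ (by nlinarith)]
        nlinarith
      · rw [moebiusR, intCoe_apply, moebius_apply_prime_pow hp (by omega), if_neg (by omega)]
        simpa using pairFactor_nonneg hn hp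

/-- **The exceptional series is at most the singular series.** -/
theorem exc_series_le {n r : ℕ} (hn0 : n ≠ 0) (hn : Even n) (hr : 0 < r) :
    (r : ℝ) * |ramanujan n r| / (r.totient : ℝ) ^ 2 * coprimeSeries n r ≤ pairSeries n := by
  rw [← prod_mul_coprimeSeries hn0 hr]
  exact mul_le_mul_of_nonneg_right (exc_factor_le hn r hr) (coprimeSeries_nonneg hn0 hn r)

/-- **The series is at least half of `n / φ n`.** -/
theorem half_ratio_le_pairSeries {n : ℕ} (hn0 : n ≠ 0) (hn : Even n) : ratio n / 2 ≤ pairSeries n := by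
  rw [← coprimeSeries_one]
  refine ge_of_tendsto (tendsto_prod_coprimeTerm hn0 1) ((eventually_gt_atTop n).mono fun k hk => ?_)
  have hsub : n.primeFactors ⊆ k.primesBelow := fun p hp => Nat.mem_primesBelow.2
    ⟨lt_of_le_of_lt (Nat.le_of_mem_primeFactors hp) hk, Nat.prime_of_mem_primeFactors hp⟩
  rw [← prod_sdiff hsub, div_eq_mul_one_div, mul_comm]
  refine mul_le_mul ?_ (le_of_eq ?_) (zero_le_one.trans (one_le_ratio n)) ?_
  · refine (FA.ThreePrimes.half_le_prod_telescope k).trans ((prod_le_prod_of_subset_of_le_one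
      (s := k.primesBelow \ n.primeFactors)
      (fun p hp => mem_range.2 (Nat.mem_primesBelow.1 (Finset.mem_sdiff.1 hp).1).1)
      (fun m _ => (telescope_bounds m).1.le) fun m _ _ => (telescope_bounds m).2).trans ?_)
    refine prod_le_prod (fun m _ => (telescope_bounds m).1.le) fun p hp => ?_
    rw [Finset.mem_sdiff, Nat.mem_primesBelow] at hp
    rw [coprimeTerm_apply, if_pos (Nat.coprime_one_right p)]
    exact FA.AlmostGoldbach.telescope_le_pairFactor hn hp.1.2
  · refine prod_congr rfl fun p hp => ?_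
    rw [coprimeTerm_apply, if_pos (Nat.coprime_one_right p),
      pairTerm_prime_dvd (Nat.prime_of_mem_primeFactors hp) (Nat.dvd_of_mem_primeFactors hp)]
  · refine prod_nonneg fun p hp => ?_
    rw [Finset.mem_sdiff, Nat.mem_primesBelow] at hp
    rw [coprimeTerm_apply, if_pos (Nat.coprime_one_right p)]
    exact pairFactor_nonneg hn hp.1.2

end FA.MontgomeryVaughan

end
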