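import Fermat.Agent.MontgomeryVaughan.Gauss
import Fermat.Agent.MontgomeryVaughan.Series

/-!
# The singular sums of pairs of characters

For primitive characters of moduli `r₁`, `r₂` the sum over `q ≤ Q`, divisible by both, of
`τ τ / φ(q) ^ 2 ∑_a χ₁ χ₂(a) e(- a n / q)` is `O (n / φ n)`, uniformly. With `r₁ = 1` it is
`O (r₂ ^ (-1/4) n / φ n)`, and zero unless `n` is prime to `r₂`.
-/

set_option autoImplicit false
set_option linter.unusedSectionVars false

noncomputable section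

open Finset Complex ArithmeticFunction
open DirichletCharacter (changeLevel)
open FA.ThreePrimes (eAdd moebiusR ramanujan unitResidues)
open FA.AlmostGoldbach (pairTerm)
open scoped Real Classical

namespace FA.MontgomeryVaughan

/-- The Gauss sum of the conjugate, at level `q`. -/
def tauLift (u : Σ r : ℕ, DirichletCharacter ℂ r) (q : ℕ) : ℂ :=
  if h : u.1 ∣ q then gauss (changeLevel h u.2⁻¹) 1 else 0

/-- The value at level `q`. -/
def valLift (u : Σ r : ℕ, DirichletCharacter ℂ r) (q a : ℕ) : ℂ :=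
  if h : u.1 ∣ q then changeLevel h u.2 (a : ZMod q) else 0

/-- The coefficient of a character on the arc `a / q`. -/
def arcCoef (u : Σ r : ℕ, DirichletCharacter ℂ r) (q a : ℕ) : ℂ :=
  tauLift u q * valLift u q a / q.totient

/-- One modulus. -/
def pairArith (u v : Σ r : ℕ, DirichletCharacter ℂ r) (q n : ℕ) : ℂ :=
  ∑ a ∈ unitResidues q, arcCoef u q a * arcCoef v q a * eAdd (((-(n : ℤ) : ℤ) : ℝ) * a / q)

/-- **The singular sum of a pair.** -/
def pairCoef (u v : Σ r : ℕ, DirichletCharacter ℂ r) (Q n : ℕ) : ℂ := ∑ q ∈ Icc 1 Q, pairArith u v q n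

theorem pairArith_comm (u v : Σ r : ℕ, DirichletCharacter ℂ r) (q n : ℕ) :
    pairArith u v q n = pairArith v u q n :=
  sum_congr rfl fun a _ => by ring

theorem pairCoef_comm (u v : Σ r : ℕ, DirichletCharacter ℂ r) (Q n : ℕ) :
    pairCoef u v Q n = pairCoef v u Q n :=
  sum_congr rfl fun q _ => pairArith_comm u v q n

theorem pairArith_eq (u v : Σ r : ℕ, DirichletCharacter ℂ r) {q : ℕ} [NeZero q] (hu : u.1 ∣ q) (hv : v.1 ∣ q)
    (n : ℕ) : pairArith u v q n = gauss (changeLevel hu u.2⁻¹) 1 * gauss (changeLevel hv v.2⁻¹) 1 /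
      (q.totient : ℂ) ^ 2 * gauss (changeLevel hu u.2 * changeLevel hv v.2) (-(n : ℤ)) := by
  rw [pairArith, gauss.eq_def (changeLevel hu u.2 * changeLevel hv v.2), unitResidues, sum_filter, mul_sum]
  refine sum_congr rfl fun a _ => ?_
  by_cases ha : q.Coprime a
  · simp only [if_pos ha, arcCoef, tauLift, valLift, dif_pos hu, dif_pos hv, MulChar.mul_apply]
    ring
  · rw [if_neg ha, MulChar.map_nonunit _ fun h => ha ((ZMod.isUnit_iff_coprime a q).1 h).symm, zero_mul, mul_zero]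

theorem pairArith_eq_zero_of_not_dvd (u v : Σ r : ℕ, DirichletCharacter ℂ r) {q : ℕ}
    (h : ¬(u.1 ∣ q ∧ v.1 ∣ q)) (n : ℕ) : pairArith u v q n = 0 := by
  refine sum_eq_zero fun a _ => ?_
  rcases not_and_or.1 h with h | h <;> simp [arcCoef, tauLift, dif_neg h]

theorem gauss_changeLevel_dvd {r q : ℕ} [NeZero r] (χ : DirichletCharacter ℂ r) {m : ℕ} (hm : 0 < m)
    (hq : q = r * m) (h : r ∣ q) :
    gauss (changeLevel h χ) 1 = (moebiusR m : ℂ) * χ (m : ZMod r) * gauss χ 1 := by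
  subst hq
  exact gauss_changeLevel_one χ hm

/-- One term, over a common multiple built from the primes of the two moduli. -/
theorem pairArith_mul (u v : Σ r : ℕ, DirichletCharacter ℂ r) [NeZero u.1] [NeZero v.1] {r a b : ℕ} [NeZero r]
    (hra : r = u.1 * a) (hrb : r = v.1 * b) {m : ℕ} (hm : 0 < m) (n : ℕ) :
    pairArith u v (r * m) n =
      (moebiusR (a * m) : ℂ) * u.2⁻¹ ((a * m : ℕ) : ZMod u.1) * gauss u.2⁻¹ 1 *
        ((moebiusR (b * m) : ℂ) * v.2⁻¹ ((b * m : ℕ) : ZMod v.1) * gauss v.2⁻¹ 1) / ((r * m).totient : ℂ) ^ 2 *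
        gauss (changeLevel (Nat.dvd_mul_right r m)
          (changeLevel (hra ▸ Nat.dvd_mul_right u.1 a) u.2 * changeLevel (hrb ▸ Nat.dvd_mul_right v.1 b) v.2))
          (-(n : ℤ)) := by
  have : NeZero (r * m) := ⟨mul_ne_zero (NeZero.ne r) hm.ne'⟩
  have hu : u.1 ∣ r := hra ▸ Nat.dvd_mul_right u.1 a
  have hv : v.1 ∣ r := hrb ▸ Nat.dvd_mul_right v.1 b
  have ha : 0 < a := Nat.pos_of_ne_zero fun h => NeZero.ne r (by rw [hra, h, mul_zero])
  have hb : 0 < b := Nat.pos_of_ne_zero fun h => NeZero.ne r (by rw [hrb, h, mul_zero])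
  rw [pairArith_eq u v (hu.mul_right m) (hv.mul_right m),
    gauss_changeLevel_dvd u.2⁻¹ (m := a * m) (Nat.mul_pos ha hm) (by rw [hra, mul_assoc]) _,
    gauss_changeLevel_dvd v.2⁻¹ (m := b * m) (Nat.mul_pos hb hm) (by rw [hrb, mul_assoc]) _,
    map_mul (changeLevel _), ← DirichletCharacter.changeLevel_trans, ← DirichletCharacter.changeLevel_trans]

/-- **One term.** -/
theorem norm_pairArith_mul_le (u v : Σ r : ℕ, DirichletCharacter ℂ r) [NeZero u.1] [NeZero v.1] {r a b : ℕ}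
    [NeZero r] (hra : r = u.1 * a) (hrb : r = v.1 * b) (hr : ∀ p : ℕ, p.Prime → p ∣ r → p ∣ u.1 ∨ p ∣ v.1)
    {m : ℕ} (hm : 0 < m) (n : ℕ) :
    ‖pairArith u v (r * m) n‖ ≤ (if m.Coprime r ∧ Squarefree m then
      ‖gauss u.2⁻¹ 1‖ * ‖gauss v.2⁻¹ 1‖ / (r.totient : ℝ) ^ 2 * ‖gauss (changeLevel (hra ▸ Nat.dvd_mul_right u.1 a)
          u.2 * changeLevel (hrb ▸ Nat.dvd_mul_right v.1 b) v.2) (-(n : ℤ))‖ *
        (|ramanujan n m| / (m.totient : ℝ) ^ 2) else 0) := by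
  rw [pairArith_mul u v hra hrb hm]
  split_ifs with h
  · rw [gauss_changeLevel_coprime _ hm h.1, Nat.totient_mul h.1.symm]
    simp only [norm_mul, norm_div, norm_pow, Complex.norm_natCast, Complex.norm_real, Real.norm_eq_abs,
      Nat.cast_mul]
    have h1 : ∀ (z : ℂ) (c : ℝ) (N : ℝ), ‖z‖ ≤ 1 → |c| ≤ 1 → 0 ≤ N → |c| * ‖z‖ * N ≤ N := fun z c N h1 h2 h3 =>
      mul_le_of_le_one_left h3 (mul_le_one₀ h2 (norm_nonneg _) h1)
    refine (mul_le_mul (div_le_div_of_nonneg_right (mul_le_mul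
      (h1 _ _ _ (DirichletCharacter.norm_le_one _ _) (FA.ThreePrimes.abs_moebiusR_le _) (norm_nonneg _))
      (h1 _ _ _ (DirichletCharacter.norm_le_one _ _) (FA.ThreePrimes.abs_moebiusR_le _) (norm_nonneg _))
      (by positivity) (norm_nonneg _)) (by positivity))
      (mul_le_mul_of_nonneg_right (mul_le_of_le_one_left (abs_nonneg _) (DirichletCharacter.norm_le_one _ _))
        (norm_nonneg _)) (by positivity) (by positivity)).trans (le_of_eq ?_)
    rw [mul_pow]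
    ring
  · refine le_of_eq (norm_eq_zero.2 ?_)
    rcases not_and_or.1 h with h | h
    · obtain ⟨p, hp, hpm, hpr⟩ := Nat.Prime.not_coprime_iff_dvd.1 h
      rcases hr p hp hpr with hp' | hp'
      · have : u.2⁻¹ ((a * m : ℕ) : ZMod u.1) = 0 := MulChar.map_nonunit _ fun hu =>
          hp.coprime_iff_not_dvd.1 (Nat.Coprime.coprime_dvd_left (dvd_mul_of_dvd_right hpm a)
            ((ZMod.isUnit_iff_coprime _ _).1 hu)) hp'
        rw [this]; simp
      · have : v.2⁻¹ ((b * m : ℕ) : ZMod v.1) = 0 := MulChar.map_nonunit _ fun hu =>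
          hp.coprime_iff_not_dvd.1 (Nat.Coprime.coprime_dvd_left (dvd_mul_of_dvd_right hpm b)
            ((ZMod.isUnit_iff_coprime _ _).1 hu)) hp'
        rw [this]; simp
    · have : moebiusR (a * m) = 0 := by
        rw [moebiusR, intCoe_apply, moebius_eq_zero_of_not_squarefree fun hs => h hs.of_mul_right]
        simp
      simp [this]

/-- The constant of the free modulus. -/
def pairZ : ℝ := 1 + 4 * ∑' k : ℕ, (k : ℝ) ^ (-(3 / 2) : ℝ)

theorem one_le_pairZ : 1 ≤ pairZ :=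
  le_add_of_nonneg_right (mul_nonneg (by norm_num) (tsum_nonneg fun k => by positivity))

theorem abs_ramanujan_coprime_le {n k : ℕ} (hn : n ≠ 0) (h : k.Coprime n) : |ramanujan n k| ≤ 1 := by
  refine (FA.AlmostGoldbach.abs_ramanujan_le_sum hn k).trans (le_of_eq ?_)
  rw [sum_eq_single 1]
  · simp
  · intro d hd hd1
    rw [if_neg]
    exact fun hdk => hd1 (Nat.eq_one_of_dvd_coprimes h hdk (Nat.dvd_of_mem_divisors hd))
  · simp [hn]

/-- **The free modulus.** -/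
theorem sum_ramanujan_div_le {n : ℕ} (hn : n ≠ 0) (r : ℕ) (S : Finset ℕ)
    (hS : ∀ m ∈ S, m.Coprime r ∧ Squarefree m) :
    ∑ m ∈ S, |ramanujan n m| / (m.totient : ℝ) ^ 2 ≤
      pairZ * ∏ p ∈ n.primeFactors \ r.primeFactors, (1 + 1 / ((p : ℝ) - 1)) := by
  obtain ⟨B, hB⟩ : ∃ B, ∀ m ∈ S, m ≤ B := ⟨S.sup id, fun m hm => le_sup (f := id) hm⟩
  obtain ⟨f, hf⟩ : ∃ f : ℕ → Finset ℕ × ℕ, f = fun m => ((m.gcd n).primeFactors, m / m.gcd n) := ⟨_, rfl⟩
  have hform : ∀ m ∈ S, ∃ g k : ℕ, m = g * k ∧ g = m.gcd n ∧ f m = (g.primeFactors, k) ∧ g.Coprime k ∧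
      k.Coprime n ∧ Squarefree g ∧ 0 < k := fun m hm => by
    obtain ⟨-, hsq⟩ := hS m hm
    obtain ⟨k, hk⟩ := Nat.gcd_dvd_left m n
    have hg : 0 < m.gcd n := Nat.gcd_pos_of_pos_right m (Nat.pos_of_ne_zero hn)
    have hsq' : Squarefree (m.gcd n * k) := by rwa [← hk]
    obtain ⟨hcop, hsg, -⟩ := Nat.squarefree_mul_iff.1 hsq'
    refine ⟨m.gcd n, k, hk, rfl, ?_, hcop, ?_, hsg, Nat.pos_of_ne_zero fun h0 => hsq.ne_zero (by rw [hk, h0, mul_zero])⟩
    · rw [hf]
      refine Prod.ext rfl ?_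
      exact Nat.div_eq_of_eq_mul_right hg hk
    · refine Nat.coprime_of_dvd fun p hp hpk hpn => ?_
      exact hp.coprime_iff_not_dvd.1 (Nat.Coprime.coprime_dvd_left
        (Nat.dvd_gcd (hk ▸ dvd_mul_of_dvd_right hpk _) hpn) hcop) hpk
  obtain ⟨W, hW⟩ : ∃ W : Finset ℕ × ℕ → ℝ,
      W = fun (x : Finset ℕ × ℕ) => (∏ p ∈ (x.1 : Finset ℕ), 1 / (((p : ℕ) : ℝ) - 1)) *
        (4 * (x.2 : ℝ) ^ (-(3 / 2) : ℝ)) := ⟨_, rfl⟩
  have hprod : ∀ g : ℕ, Squarefree g →
      ∏ p ∈ g.primeFactors, 1 / (((p : ℕ) : ℝ) - 1) = 1 / (g.totient : ℝ) := fun g hg => by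
    have h1 := Nat.totient_mul_prod_primeFactors g
    rw [Nat.prod_primeFactors_of_squarefree hg, mul_comm g.totient] at h1
    have h2 := Nat.eq_of_mul_eq_mul_left (Nat.pos_of_ne_zero hg.ne_zero) h1
    rw [prod_div_distrib, prod_const_one, h2, Nat.cast_prod]
    congr 1
    exact prod_congr rfl fun p hp => by rw [Nat.cast_sub (Nat.prime_of_mem_primeFactors hp).one_le, Nat.cast_one]
  refine (sum_le_sum (g := fun m => W (f m)) fun m hm => ?_).trans ?_
  · obtain ⟨g, k, rfl, hg, hfm, hgk, hkn, hsg, hk⟩ := hform m hm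
    have hg0 : 0 < g := Nat.pos_of_ne_zero hsg.ne_zero
    rw [hW, hfm]
    dsimp only
    rw [hprod g hsg, (ramanujan_isMultiplicative n).2 hgk, Nat.totient_mul hgk, abs_mul]
    refine le_trans ?_ (mul_le_mul_of_nonneg_left (FA.ThreePrimes.inv_totient_sq_le hk) (by positivity))
    have hφ : (0 : ℝ) < g.totient := Nat.cast_pos.2 (Nat.totient_pos.2 hg0)
    have h1 : |ramanujan n g| = g.totient := by
      refine le_antisymm (FA.ThreePrimes.abs_ramanujan_le n g) (le_of_eq ?_)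
      rw [← Real.norm_eq_abs, ← Complex.norm_real, FA.ThreePrimes.ramanujan_eq hg0]
      rw [sum_congr rfl fun (a : ℕ) _ => show eAdd (((-(n : ℤ) : ℤ) : ℝ) * a / g) = 1 from ?_, sum_const,
        FA.ThreePrimes.card_unitResidues]
      · simp
      · obtain ⟨i, hi⟩ : g ∣ n := hg ▸ Nat.gcd_dvd_right _ n
        rw [← FA.ThreePrimes.eAdd_intCast (-(i * a : ℕ) : ℤ)]
        congr 1
        rw [hi]
        push_cast
        field_simp
    refine le_trans (le_of_eq ?_) (mul_le_mul_of_nonneg_left (div_le_div_of_nonneg_right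
      (abs_ramanujan_coprime_le hn hkn) (sq_nonneg _)) (by positivity))
    rw [h1]
    push_cast
    field_simp
  · rw [← sum_image (f := W) fun m hm m' hm' h => ?_]
    · refine (sum_le_sum_of_subset_of_nonneg (t := (n.primeFactors \ r.primeFactors).powerset ×ˢ range (B + 1))
        (image_subset_iff.2 fun m hm => ?_) fun x hx _ => ?_).trans ?_
      · obtain ⟨g, k, rfl, hg, hfm, -, -, hsg, -⟩ := hform m hm
        rw [hfm, mem_product, mem_powerset, mem_range]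
        refine ⟨fun p hp => mem_sdiff.2 ⟨Nat.mem_primeFactors.2 ⟨Nat.prime_of_mem_primeFactors hp,
          (Nat.dvd_of_mem_primeFactors hp).trans (hg ▸ Nat.gcd_dvd_right _ n), hn⟩, fun hpr => ?_⟩, ?_⟩
        · exact (Nat.prime_of_mem_primeFactors hp).coprime_iff_not_dvd.1 (Nat.Coprime.coprime_dvd_left
            ((Nat.dvd_of_mem_primeFactors hp).trans (dvd_mul_right g k)) (hS _ hm).1)
            (Nat.dvd_of_mem_primeFactors hpr)
        · have := hB _ hm
          have : k ≤ g * k := Nat.le_mul_of_pos_left k (Nat.pos_of_ne_zero hsg.ne_zero)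
          omega
      · rw [mem_product, mem_powerset] at hx
        rw [hW]
        refine mul_nonneg (prod_nonneg fun p hp => div_nonneg zero_le_one ?_) (by positivity)
        have : (2 : ℝ) ≤ p := by
          exact_mod_cast (Nat.prime_of_mem_primeFactors (mem_sdiff.1 (hx.1 hp)).1).two_le
        linarith
      · rw [sum_product]
        simp only [hW, ← mul_sum]
        rw [← sum_mul, ← prod_one_add, mul_comm]
        refine mul_le_mul_of_nonneg_right ?_ (le_trans zero_le_one (one_le_prod_factor fun p hp =>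
          Nat.prime_of_mem_primeFactors (mem_sdiff.1 hp).1))
        rw [pairZ]
        have := mul_le_mul_of_nonneg_left (Summable.sum_le_tsum (range (B + 1)) (fun i _ => by positivity)
          (Real.summable_nat_rpow.2 (show (-(3 / 2) : ℝ) < -1 by norm_num))) (show (0 : ℝ) ≤ 4 by norm_num)
        linarith
    · obtain ⟨g, k, rfl, -, hfm, -, -, hsg, -⟩ := hform m hm
      obtain ⟨g', k', rfl, -, hfm', -, -, hsg', -⟩ := hform m' hm'
      rw [hfm, hfm', Prod.mk.injEq] at h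
      rw [← Nat.prod_primeFactors_of_squarefree hsg, ← Nat.prod_primeFactors_of_squarefree hsg', h.1, h.2]

/-- `√d / φ d` is small. -/
theorem sqrt_div_totient_le {d : ℕ} (hd : 0 < d) :
    √(d : ℝ) / d.totient ≤ 2 * (d : ℝ) ^ (-(1 / 4) : ℝ) := by
  have hd0 : (0 : ℝ) < d := Nat.cast_pos.2 hd
  refine (pow_le_pow_iff_left₀ (by positivity) (by positivity) two_ne_zero).1 ?_
  have h := mul_le_mul_of_nonneg_left (FA.ThreePrimes.inv_totient_sq_le hd) hd0.le
  rw [div_pow, Real.sq_sqrt hd0.le, mul_pow, ← Real.rpow_natCast ((d : ℝ) ^ (-(1 / 4) : ℝ)), ← Real.rpow_mul hd0.le,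
    div_eq_mul_one_div]
  refine h.trans (le_of_eq ?_)
  rw [mul_left_comm, ← Real.rpow_one_add' hd0.le (by norm_num)]
  norm_num

/-- **One multiple of both moduli and all its multiples.** -/
theorem norm_pairCoef_le_lcm (u v : Σ r : ℕ, DirichletCharacter ℂ r) [NeZero u.1] [NeZero v.1]
    (hu : u.2.IsPrimitive) (hv : v.2.IsPrimitive) (Q : ℕ) {n : ℕ} (hn : n ≠ 0) :
    ∃ d : ℕ, 0 < d ∧ ‖pairCoef u v Q n‖ ≤ √((u.1 : ℝ) * v.1) * (√(d : ℝ) / d.totient) /
      (Nat.lcm u.1 v.1).totient * (pairZ * ∏ p ∈ n.primeFactors \ (Nat.lcm u.1 v.1).primeFactors,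
        (1 + 1 / ((p : ℝ) - 1))) ∧
      (∀ p ∈ (Nat.lcm u.1 v.1).primeFactors, p ∣ d ∨ p ∣ n) ∧ d ∣ Nat.lcm u.1 v.1 := by
  obtain ⟨r, hrdef⟩ : ∃ r, r = Nat.lcm u.1 v.1 := ⟨_, rfl⟩
  rw [← hrdef]
  have hr0 : 0 < r := hrdef ▸ Nat.lcm_pos (NeZero.pos u.1) (NeZero.pos v.1)
  obtain ⟨a, hra⟩ : u.1 ∣ r := hrdef ▸ Nat.dvd_lcm_left _ _
  obtain ⟨b, hrb⟩ : v.1 ∣ r := hrdef ▸ Nat.dvd_lcm_right _ _
  have hr : ∀ p : ℕ, p.Prime → p ∣ r → p ∣ u.1 ∨ p ∣ v.1 := fun p hp h =>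
    (hp.dvd_mul.1 ((hrdef ▸ h).trans (Nat.lcm_dvd_mul u.1 v.1)))
  obtain ⟨g, hg⟩ : ∃ g, g = r.gcd n := ⟨_, rfl⟩
  have hg0 : 0 < g := hg ▸ Nat.gcd_pos_of_pos_left n hr0
  obtain ⟨d, hd⟩ : g ∣ r := hg ▸ Nat.gcd_dvd_left r n
  obtain ⟨n', hn'⟩ : g ∣ n := hg ▸ Nat.gcd_dvd_right r n
  have hd0 : 0 < d := Nat.pos_of_ne_zero fun h => by simp [h] at hd; omega
  refine ⟨d, hd0, ?_, fun p hp => ?_, hd ▸ Dvd.intro_left g rfl⟩
  swap
  · rcases ((Nat.prime_of_mem_primeFactors hp).dvd_mul.1 (hd ▸ Nat.dvd_of_mem_primeFactors hp)) with h | h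
    · exact Or.inr (h.trans (hn' ▸ Dvd.intro n' rfl))
    · exact Or.inl h
  have hcop : n'.Coprime d := by
    have h := Nat.coprime_div_gcd_div_gcd (hg ▸ hg0 : 0 < r.gcd n)
    rw [← hg, hd, hn', Nat.mul_div_cancel_left _ hg0, Nat.mul_div_cancel_left _ hg0] at h
    exact h.symm
  subst hd
  have : NeZero (g * d) := ⟨hr0.ne'⟩
  have : NeZero d := ⟨hd0.ne'⟩
  obtain ⟨ψ, hψ⟩ : ∃ ψ : DirichletCharacter ℂ (g * d), ψ = changeLevel (hra ▸ Nat.dvd_mul_right u.1 a) u.2 *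
      changeLevel (hrb ▸ Nat.dvd_mul_right v.1 b) v.2 := ⟨_, rfl⟩
  have hG : ‖gauss ψ (-(n : ℤ))‖ ≤ √(d : ℝ) * (g * d).totient / d.totient := by
    rw [le_div_iff₀ (Nat.cast_pos.2 (Nat.totient_pos.2 hd0))]
    have h := norm_gauss_le (g := g) ψ (j := -(n' : ℤ)) (by
      rw [Int.cast_neg, Int.cast_natCast, IsUnit.neg_iff]
      exact (ZMod.isUnit_iff_coprime n' d).2 hcop)
    rwa [show (g : ℤ) * -(n' : ℤ) = -(n : ℤ) by rw [hn']; push_cast; ring] at h
  obtain ⟨K, hK⟩ : ∃ K : ℝ, K = ‖gauss u.2⁻¹ 1‖ * ‖gauss v.2⁻¹ 1‖ / ((g * d).totient : ℝ) ^ 2 *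
      ‖gauss ψ (-(n : ℤ))‖ := ⟨_, rfl⟩
  have hK0 : 0 ≤ K := by rw [hK]; positivity
  have hsum : ‖pairCoef u v Q n‖ ≤ K * ∑ m ∈ (Icc 1 (Q / (g * d))).filter
      (fun m => m.Coprime (g * d) ∧ Squarefree m), |ramanujan n m| / (m.totient : ℝ) ^ 2 := by
    have e : pairCoef u v Q n = ∑ m ∈ Icc 1 (Q / (g * d)), pairArith u v (g * d * m) n := by
      rw [pairCoef, ← sum_image (f := fun q => pairArith u v q n)
        fun m _ m' _ h => Nat.eq_of_mul_eq_mul_left hr0 h]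
      refine (sum_subset (fun q hq => ?_) fun q hq hq' => pairArith_eq_zero_of_not_dvd u v (fun h => hq' ?_) n).symm
      · obtain ⟨m, hm, rfl⟩ := mem_image.1 hq
        rw [mem_Icc] at hm ⊢
        exact ⟨Nat.mul_pos hr0 hm.1, (Nat.mul_le_mul_left _ hm.2).trans (Nat.mul_div_le Q _)⟩
      · obtain ⟨m, rfl⟩ := hrdef ▸ Nat.lcm_dvd h.1 h.2
        rw [mem_Icc] at hq
        refine mem_image.2 ⟨m, mem_Icc.2 ⟨Nat.pos_of_mul_pos_left hq.1, ?_⟩, rfl⟩
        rw [Nat.le_div_iff_mul_le hr0, mul_comm]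
        exact hq.2
    rw [e, sum_filter, mul_sum]
    refine (norm_sum_le _ _).trans (sum_le_sum fun m hm => ?_)
    refine (norm_pairArith_mul_le u v hra hrb hr (mem_Icc.1 hm).1 n).trans (le_of_eq ?_)
    rw [mul_ite, mul_zero, hK, hψ]
  refine hsum.trans ((mul_le_mul_of_nonneg_left (sum_ramanujan_div_le hn (g * d) _ fun m hm =>
    (mem_filter.1 hm).2) hK0).trans (mul_le_mul_of_nonneg_right ?_ (mul_nonneg
      (zero_le_one.trans one_le_pairZ) (le_trans zero_le_one (one_le_prod_factor fun p hp =>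
        Nat.prime_of_mem_primeFactors (mem_sdiff.1 hp).1)))))
  rw [hK, norm_gauss_one ((DirichletCharacter.conductor_inv u.2).trans hu),
    norm_gauss_one ((DirichletCharacter.conductor_inv v.2).trans hv), ← Real.sqrt_mul (Nat.cast_nonneg _)]
  refine (mul_le_mul_of_nonneg_left hG (by positivity)).trans (le_of_eq ?_)
  have : ((g * d).totient : ℝ) ≠ 0 := Nat.cast_ne_zero.2 (Nat.totient_pos.2 hr0).ne'
  field_simp

/-- **Uniform in the pair.** -/
theorem norm_pairCoef_le (u v : Σ r : ℕ, DirichletCharacter ℂ r) [NeZero u.1] [NeZero v.1]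
    (hu : u.2.IsPrimitive) (hv : v.2.IsPrimitive) (Q : ℕ) {n : ℕ} (hn : n ≠ 0) :
    ‖pairCoef u v Q n‖ ≤ 4 * pairZ * ratio n := by
  obtain ⟨d, hd0, hA, hpd, -⟩ := norm_pairCoef_le_lcm u v hu hv Q hn
  obtain ⟨r, hrdef⟩ : ∃ r, r = Nat.lcm u.1 v.1 := ⟨_, rfl⟩
  rw [← hrdef] at hA hpd
  have hr0 : 0 < r := hrdef ▸ Nat.lcm_pos (NeZero.pos u.1) (NeZero.pos v.1)
  have hu1 : u.1 ≤ r := Nat.le_of_dvd hr0 (hrdef ▸ Nat.dvd_lcm_left _ _)
  have hv1 : v.1 ≤ r := Nat.le_of_dvd hr0 (hrdef ▸ Nat.dvd_lcm_right _ _)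
  have hsq : √((u.1 : ℝ) * v.1) ≤ r := by
    rw [Real.sqrt_le_left (Nat.cast_nonneg r), sq]
    exact mul_le_mul (Nat.cast_le.2 hu1) (Nat.cast_le.2 hv1) (Nat.cast_nonneg _) (Nat.cast_nonneg _)
  have hsub : r.primeFactors ⊆ d.primeFactors ∪ r.primeFactors ∩ n.primeFactors := fun p hp => by
    rw [mem_union, mem_inter]
    rcases hpd p hp with h | h
    · exact Or.inl (Nat.mem_primeFactors.2 ⟨Nat.prime_of_mem_primeFactors hp, h, hd0.ne'⟩)
    · exact Or.inr ⟨hp, Nat.mem_primeFactors.2 ⟨Nat.prime_of_mem_primeFactors hp, h, hn⟩⟩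
  obtain ⟨F, hF⟩ : ∃ F : ℕ → ℝ, F = fun p : ℕ => 1 + 1 / ((p : ℝ) - 1) := ⟨_, rfl⟩
  have hF1 : ∀ p : ℕ, p.Prime → 1 ≤ F p := fun p hp => hF ▸ one_le_factor hp
  have hFs : ∀ s : Finset ℕ, (∀ p ∈ s, p.Prime) → 1 ≤ ∏ p ∈ s, F p := fun s hs => hF ▸ one_le_prod_factor hs
  have hrr : ratio r ≤ ratio d * ∏ p ∈ r.primeFactors ∩ n.primeFactors, F p := by
    have hprime : ∀ p ∈ d.primeFactors ∪ r.primeFactors ∩ n.primeFactors, p.Prime := fun p hp => by
      rw [mem_union, mem_inter] at hp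
      exact hp.elim Nat.prime_of_mem_primeFactors fun h => Nat.prime_of_mem_primeFactors h.1
    refine (prod_le_prod_of_subset_of_one_le hsub (fun p hp => (zero_le_one.trans (one_le_factor
      (Nat.prime_of_mem_primeFactors hp)))) fun p hp _ => one_le_factor (hprime p hp)).trans ?_
    rw [hF, ratio, ← prod_union_inter]
    exact le_mul_of_one_le_right (le_trans zero_le_one (one_le_prod_factor hprime))
      (one_le_prod_factor fun p hp => Nat.prime_of_mem_primeFactors (mem_inter.1 hp).1)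
  have hn' : (∏ p ∈ r.primeFactors ∩ n.primeFactors, F p) * (∏ p ∈ n.primeFactors \ r.primeFactors, F p) =
      ratio n := by
    rw [inter_comm, prod_inter_mul_prod_sdiff, ratio, hF]
  have hd1 : ratio d * (√(d : ℝ) / d.totient) ≤ 4 := by
    rw [ratio_eq hd0]
    have hd0' : (0 : ℝ) < d := Nat.cast_pos.2 hd0
    have h := mul_le_mul_of_nonneg_left (FA.ThreePrimes.inv_totient_sq_le hd0)
      (show 0 ≤ (d : ℝ) * √(d : ℝ) by positivity)
    refine le_trans (le_of_eq (by ring)) (h.trans (le_of_eq ?_))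
    rw [mul_left_comm, Real.sqrt_eq_rpow, ← Real.rpow_one_add' hd0'.le (by norm_num),
      ← Real.rpow_add hd0']
    norm_num
  refine hA.trans ?_
  rw [← hn']
  obtain ⟨I, hI⟩ : ∃ I, I = ∏ p ∈ r.primeFactors ∩ n.primeFactors, F p := ⟨_, rfl⟩
  obtain ⟨D, hD⟩ : ∃ D, D = ∏ p ∈ n.primeFactors \ r.primeFactors, F p := ⟨_, rfl⟩
  rw [← hI] at hrr ⊢
  rw [← hD, show ∏ p ∈ n.primeFactors \ r.primeFactors, (1 + 1 / ((p : ℝ) - 1)) = D by rw [hD, hF]]
  have hI1 : 1 ≤ I := hI ▸ hFs _ fun p hp => Nat.prime_of_mem_primeFactors (mem_inter.1 hp).1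
  have hD1 : 1 ≤ D := hD ▸ hFs _ fun p hp => Nat.prime_of_mem_primeFactors (mem_sdiff.1 hp).1
  have hZD : 0 ≤ pairZ * D := mul_nonneg (zero_le_one.trans one_le_pairZ) (by linarith)
  calc √((u.1 : ℝ) * v.1) * (√(d : ℝ) / d.totient) / r.totient * (pairZ * D)
      ≤ ratio r * (√(d : ℝ) / d.totient) * (pairZ * D) := by
        refine mul_le_mul_of_nonneg_right ?_ hZD
        rw [ratio_eq hr0, div_mul_eq_mul_div (r : ℝ)]
        exact div_le_div_of_nonneg_right (mul_le_mul_of_nonneg_right hsq (by positivity)) (Nat.cast_nonneg _)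
    _ ≤ I * (ratio d * (√(d : ℝ) / d.totient)) * (pairZ * D) := by
        refine mul_le_mul_of_nonneg_right ?_ hZD
        rw [← mul_assoc, mul_comm I]
        exact mul_le_mul_of_nonneg_right hrr (by positivity)
    _ ≤ I * 4 * (pairZ * D) := mul_le_mul_of_nonneg_right (mul_le_mul_of_nonneg_left hd1 (by linarith)) hZD
    _ = 4 * pairZ * (I * D) := by ring

/-- The principal character modulo one. -/
def unitChar : Σ r : ℕ, DirichletCharacter ℂ r := ⟨1, 1⟩

instance : NeZero unitChar.1 := ⟨Nat.one_ne_zero⟩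

theorem unitChar_isPrimitive : unitChar.2.IsPrimitive := DirichletCharacter.isPrimitive_one_level_one

/-- **With the principal character it is small.** -/
theorem norm_pairCoef_unit_le (u : Σ r : ℕ, DirichletCharacter ℂ r) [NeZero u.1] (hu : u.2.IsPrimitive)
    (Q : ℕ) {n : ℕ} (hn : n ≠ 0) :
    ‖pairCoef unitChar u Q n‖ ≤ 4 * pairZ * (u.1 : ℝ) ^ (-(1 / 4) : ℝ) * ratio n := by
  obtain ⟨d, hd0, hA, -, -⟩ := norm_pairCoef_le_lcm unitChar u unitChar_isPrimitive hu Q hn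
  rw [show Nat.lcm unitChar.1 u.1 = u.1 from Nat.lcm_one_left u.1] at hA
  refine hA.trans ?_
  rw [show ((unitChar.1 : ℕ) : ℝ) = 1 from Nat.cast_one, one_mul]
  have h1 := sqrt_div_totient_le hd0
  have h1' : (d : ℝ) ^ (-(1 / 4) : ℝ) ≤ 1 :=
    Real.rpow_le_one_of_one_le_of_nonpos (Nat.one_le_cast.2 hd0) (by norm_num)
  have h2 := sqrt_div_totient_le (NeZero.pos u.1)
  have h3 : ∏ p ∈ n.primeFactors \ u.1.primeFactors, (1 + 1 / ((p : ℝ) - 1)) ≤ ratio n :=
    prod_le_prod_of_subset_of_one_le sdiff_subset (fun p hp => zero_le_one.trans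
      (one_le_factor (Nat.prime_of_mem_primeFactors (mem_sdiff.1 hp).1)))
      fun p hp _ => one_le_factor (Nat.prime_of_mem_primeFactors hp)
  have hpZ := one_le_pairZ
  calc √(u.1 : ℝ) * (√(d : ℝ) / d.totient) / u.1.totient *
        (pairZ * ∏ p ∈ n.primeFactors \ u.1.primeFactors, (1 + 1 / ((p : ℝ) - 1)))
      ≤ 2 * (2 * (u.1 : ℝ) ^ (-(1 / 4) : ℝ)) * (pairZ * ratio n) := by
        rw [show √(u.1 : ℝ) * (√(d : ℝ) / d.totient) / u.1.totient =
          (√(d : ℝ) / d.totient) * (√(u.1 : ℝ) / u.1.totient) by ring]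
        refine mul_le_mul (mul_le_mul (h1.trans (by linarith)) h2 (by positivity) (by norm_num))
          (mul_le_mul_of_nonneg_left h3 (by linarith)) (mul_nonneg (by linarith) (le_trans zero_le_one
            (one_le_prod_factor fun p hp => Nat.prime_of_mem_primeFactors (mem_sdiff.1 hp).1))) (by positivity)
    _ = _ := by ring

theorem sum_multiples_eq {r : ℕ} (hr : 0 < r) (Q : ℕ) (f : ℕ → ℂ) (hf : ∀ q, ¬r ∣ q → f q = 0) :
    ∑ q ∈ Icc 1 Q, f q = ∑ m ∈ Icc 1 (Q / r), f (r * m) := by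
  rw [← sum_image (f := f) fun m _ m' _ h => Nat.eq_of_mul_eq_mul_left hr h]
  refine (sum_subset (fun q hq => ?_) fun q hq hq' => hf q fun h => hq' ?_).symm
  · obtain ⟨m, hm, rfl⟩ := mem_image.1 hq
    rw [mem_Icc] at hm ⊢
    exact ⟨Nat.mul_pos hr hm.1, (Nat.mul_le_mul_left _ hm.2).trans (Nat.mul_div_le Q _)⟩
  · obtain ⟨m, rfl⟩ := h
    rw [mem_Icc] at hq
    refine mem_image.2 ⟨m, mem_Icc.2 ⟨Nat.pos_of_mul_pos_left hq.1, ?_⟩, rfl⟩
    rw [Nat.le_div_iff_mul_le hr, mul_comm]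
    exact hq.2

/-- **The principal pair gives the singular series, cut at `Q`.** -/
theorem pairCoef_unit_unit (Q n : ℕ) :
    pairCoef unitChar unitChar Q n = ((∑ q ∈ Icc 1 Q, pairTerm n q : ℝ) : ℂ) := by
  rw [pairCoef, Complex.ofReal_sum]
  refine sum_congr rfl fun q hq => ?_
  have : NeZero q := ⟨by rw [mem_Icc] at hq; omega⟩
  rw [pairArith_eq unitChar unitChar (one_dvd q) (one_dvd q), FA.AlmostGoldbach.pairTerm_apply]
  have hτ : gauss (changeLevel (one_dvd q) (1 : DirichletCharacter ℂ 1)⁻¹) 1 = (moebiusR q : ℂ) := by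
    rw [gauss_changeLevel_dvd (r := 1) _ (m := q) (NeZero.pos q) (one_mul q).symm]
    simp [gauss, MulChar.one_apply (isUnit_of_subsingleton _)]
  rw [show unitChar.2⁻¹ = (1 : DirichletCharacter ℂ 1)⁻¹ from rfl,
    show unitChar.2 = (1 : DirichletCharacter ℂ 1) from rfl]
  erw [hτ]
  erw [map_one, one_mul]
  rw [gauss_one_char]
  push_cast
  ring

/-- **The exceptional pair.** -/
theorem norm_pairCoef_exc_le (u : Σ r : ℕ, DirichletCharacter ℂ r) [NeZero u.1] (hu : u.2.IsPrimitive)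
    (hsq : u.2 ^ 2 = 1) (Q n : ℕ) :
    ‖pairCoef u u Q n‖ ≤ (u.1 : ℝ) * |ramanujan n u.1| / (u.1.totient : ℝ) ^ 2 *
      |∑ m ∈ Icc 1 (Q / u.1), coprimeTerm n u.1 m| := by
  have hinv : u.2⁻¹ = u.2 := inv_eq_of_mul_eq_one_right (by rw [← sq]; exact hsq)
  have e : pairCoef u u Q n = gauss u.2 1 ^ 2 * (ramanujan n u.1 : ℂ) / (u.1.totient : ℂ) ^ 2 *
      ((∑ m ∈ Icc 1 (Q / u.1), coprimeTerm n u.1 m : ℝ) : ℂ) := by
    rw [pairCoef, sum_multiples_eq (NeZero.pos u.1) Q _ fun q hq =>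
      pairArith_eq_zero_of_not_dvd u u (fun h => hq h.1) n, Complex.ofReal_sum, mul_sum]
    refine sum_congr rfl fun m hm => ?_
    obtain ⟨hm1, -⟩ := mem_Icc.1 hm
    rw [pairArith_mul u u (r := u.1) (a := 1) (b := 1) (mul_one _).symm (mul_one _).symm hm1,
      DirichletCharacter.changeLevel_self, ← sq u.2, hsq, hinv, coprimeTerm_apply, one_mul]
    split_ifs with hmr
    · rw [gauss_changeLevel_coprime _ hm1 hmr, MulChar.one_apply ((ZMod.isUnit_iff_coprime m u.1).2 hmr),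
        gauss_one_char, Nat.totient_mul hmr.symm, FA.AlmostGoldbach.pairTerm_apply]
      have h1 : u.2 (m : ZMod u.1) * u.2 (m : ZMod u.1) = 1 := by
        rw [← MulChar.mul_apply, ← sq, hsq, MulChar.one_apply ((ZMod.isUnit_iff_coprime m u.1).2 hmr)]
      push_cast
      linear_combination (moebiusR m : ℂ) ^ 2 * gauss u.2 1 ^ 2 * (ramanujan n m : ℂ) * (ramanujan n u.1 : ℂ) /
        ((u.1.totient : ℂ) * (m.totient : ℂ)) ^ 2 * h1
    · rw [MulChar.map_nonunit _ fun hh => hmr ((ZMod.isUnit_iff_coprime m u.1).1 hh)]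
      simp
  rw [e]
  simp only [norm_mul, norm_div, norm_pow, Complex.norm_natCast, Complex.norm_real, Real.norm_eq_abs,
    norm_gauss_one hu, Real.sq_sqrt (Nat.cast_nonneg u.1)]
  exact le_rfl

/-- **No interference when `n` shares a prime with the exceptional modulus.** -/
theorem pairCoef_unit_eq_zero (u : Σ r : ℕ, DirichletCharacter ℂ r) [NeZero u.1] (hu : u.2.IsPrimitive)
    (Q : ℕ) {n : ℕ} (hn : ¬n.Coprime u.1) : pairCoef unitChar u Q n = 0 := by
  rw [pairCoef, sum_multiples_eq (NeZero.pos u.1) Q _ fun q hq =>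
    pairArith_eq_zero_of_not_dvd _ u (fun h => hq h.2) n]
  refine sum_eq_zero fun m hm => ?_
  obtain ⟨hm1, -⟩ := mem_Icc.1 hm
  by_cases hmr : m.Coprime u.1
  · rw [pairArith_mul unitChar u (r := u.1) (a := u.1) (b := 1) (one_mul _).symm (mul_one _).symm hm1,
      gauss_changeLevel_coprime _ hm1 hmr]
    erw [map_one, one_mul, DirichletCharacter.changeLevel_self]
    simp only [one_mul]
    rw [gauss_eq_zero hu (k := -(n : ℤ)) ?_]
    · ring
    · rw [Int.cast_neg, Int.cast_natCast, IsUnit.neg_iff]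
      exact fun h => hn ((ZMod.isUnit_iff_coprime n u.1).1 h)
  · rw [pairArith_mul unitChar u (r := u.1) (a := u.1) (b := 1) (one_mul _).symm (mul_one _).symm hm1,
      one_mul, show u.2⁻¹ (m : ZMod u.1) = 0 from
        MulChar.map_nonunit _ fun hh => hmr ((ZMod.isUnit_iff_coprime m u.1).1 hh)]
    simp

end FA.MontgomeryVaughan

end
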