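import Fermat.Agent.MontgomeryVaughan.Grid
import Fermat.Agent.MontgomeryVaughan.SingularPairs
import Fermat.Agent.Gallagher.Progressions

/-!
# The major arcs by characters

On the arc at `r / q` the sum over primes is `∑_u arcCoef u q r ∑ χ_u(i) Λ(i) e(i β)`, up to the terms
not prime to `q`; so the arcs give the sum of the pairs' singular sums times their integrals.
-/

set_option autoImplicit false
set_option linter.unusedSectionVars false

noncomputable section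

open Finset Complex ArithmeticFunction
open DirichletCharacter (changeLevel)
open FA.ThreePrimes (eAdd trigSum centre arcCentres unitResidues)
open FA.Gallagher (family mem_family primOf primOf_mem primOf_injective primOf_apply card_family_le)
open scoped Real Classical

namespace FA.MontgomeryVaughan

/-- `∑_{i ≤ X} χ(i) Λ(i) e(i x)`. -/
def charSum (u : Σ r : ℕ, DirichletCharacter ℂ r) (X : ℕ) (x : ℝ) : ℂ :=
  trigSum (fun i => u.2 (i : ZMod u.1) * (Λ i : ℂ)) X x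

theorem norm_gauss_le_card {q : ℕ} (χ : DirichletCharacter ℂ q) (k : ℤ) : ‖gauss χ k‖ ≤ q := by
  refine (norm_sum_le _ _).trans ((sum_le_card_nsmul _ _ (1 : ℝ) fun b _ => ?_).trans (le_of_eq ?_))
  · rw [norm_mul, FA.ThreePrimes.norm_eAdd, mul_one]
    exact χ.norm_le_one _
  · simp

/-- An additive character in terms of the multiplicative ones. -/
theorem totient_mul_eAdd_eq {q : ℕ} [NeZero q] {r i : ℕ} (hr : r.Coprime q) (hi : i.Coprime q) :
    (q.totient : ℂ) * eAdd ((i : ℝ) * ((r : ℝ) / q)) =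
      ∑ χ : DirichletCharacter ℂ q, gauss χ⁻¹ 1 * χ (r : ZMod q) * χ (i : ZMod q) := by
  have hunit : IsUnit ((r * i : ℕ) : ZMod q) := (ZMod.isUnit_iff_coprime _ _).2 (Nat.Coprime.mul_left hr hi)
  simp only [gauss, sum_mul]
  rw [sum_comm]
  have key : ∀ b ∈ range q, ∑ χ : DirichletCharacter ℂ q,
      χ⁻¹ (b : ZMod q) * eAdd (((1 : ℤ) : ℝ) * b / q) * χ (r : ZMod q) * χ (i : ZMod q) =
      if (b : ZMod q) = ((r * i : ℕ) : ZMod q) then (q.totient : ℂ) * eAdd ((b : ℝ) / q) else 0 := fun b _ => by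
    by_cases hb : IsUnit (b : ZMod q)
    · rw [sum_congr rfl fun χ _ => show χ⁻¹ (b : ZMod q) * eAdd (((1 : ℤ) : ℝ) * b / q) * χ (r : ZMod q) *
        χ (i : ZMod q) = eAdd ((b : ℝ) / q) * (χ (b : ZMod q)⁻¹ * χ ((r * i : ℕ) : ZMod q)) from ?_, ← mul_sum,
        DirichletCharacter.sum_char_inv_mul_char_eq ℂ hb]
      · split_ifs <;> ring
      · obtain ⟨v, hv⟩ := hb
        rw [← hv, MulChar.inv_apply, Ring.inverse_unit, ← ZMod.inv_coe_unit, Nat.cast_mul, map_mul,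
          Int.cast_one, one_mul]
        ring
    · rw [sum_eq_zero fun χ _ => by rw [MulChar.map_nonunit _ hb]; ring, if_neg]
      exact fun h => hb (h ▸ hunit)
  rw [sum_congr rfl key, sum_eq_single ((r * i) % q)]
  · rw [if_pos (ZMod.natCast_mod _ _)]
    congr 1
    have h := congrArg (Nat.cast (R := ℝ)) (Nat.mod_add_div (r * i) q)
    push_cast at h
    have hq : (q : ℝ) ≠ 0 := Nat.cast_ne_zero.2 (NeZero.ne q)
    rw [show (i : ℝ) * ((r : ℝ) / q) = (((r * i) % q : ℕ) : ℝ) / q + ((((r * i) / q : ℕ) : ℤ) : ℝ) by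
      rw [Int.cast_natCast]; field_simp; linarith, FA.ThreePrimes.eAdd_add_intCast]
  · intro b hb hne
    rw [if_neg]
    intro h
    rw [ZMod.natCast_eq_natCast_iff'] at h
    rw [mem_range] at hb
    exact hne (by rwa [Nat.mod_eq_of_lt hb] at h)
  · intro h
    exact absurd (mem_range.2 (Nat.mod_lt _ (NeZero.pos q))) h

/-- The prime powers not prime to `q`. -/
theorem sum_bad_le (q X : ℕ) [NeZero q] (hX : 1 ≤ X) :
    ∑ i ∈ (Icc 1 X).filter (fun i => ¬i.Coprime q), Λ i ≤ 2 * q * Real.log X ^ 2 := by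
  refine le_trans (le_of_eq ?_) (((sum_le_card_nsmul
    ((Icc 1 X).filter fun i => IsPrimePow i ∧ ¬i.Coprime q) (fun i => Λ i)
    (Real.log X) fun i hi => ?_)).trans ?_)
  · refine (sum_subset (monotone_filter_right _ fun i _ h => h.2) fun i hi hi' => ?_).symm
    rw [vonMangoldt_eq_zero_iff]
    rw [mem_filter] at hi
    exact fun hp => hi' (mem_filter.2 ⟨hi.1, hp, hi.2⟩)
  · rw [mem_filter, mem_Icc] at hi
    exact vonMangoldt_le_log.trans (Real.log_le_log (Nat.cast_pos.2 hi.1.1) (Nat.cast_le.2 hi.1.2))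
  · rw [nsmul_eq_mul]
    have hl : 0 ≤ Real.log X := Real.log_natCast_nonneg X
    refine (mul_le_mul_of_nonneg_right (Nat.cast_le.2 (FA.SiegelWalfisz.card_bad_le q X)) hl).trans ?_
    push_cast
    have h1 : (Nat.log 2 X : ℝ) ≤ 2 * Real.log X := by
      have h2 : ((2 : ℝ) ^ Nat.log 2 X) ≤ X := by exact_mod_cast Nat.pow_log_le_self 2 (by omega)
      have h3 := Real.log_le_log (by positivity) h2
      rw [Real.log_pow] at h3
      have h4 : (0 : ℝ) ≤ Nat.log 2 X := Nat.cast_nonneg _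
      nlinarith [Real.log_two_gt_d9]
    calc (q : ℝ) * (Nat.log 2 X : ℝ) * Real.log X ≤ (q : ℝ) * (2 * Real.log X) * Real.log X :=
          mul_le_mul_of_nonneg_right (mul_le_mul_of_nonneg_left h1 (Nat.cast_nonneg q)) hl
      _ = _ := by ring

theorem primOf_changeLevel {q : ℕ} [NeZero q] (u : Σ r : ℕ, DirichletCharacter ℂ r) (hu : u.2.IsPrimitive)
    (h : u.1 ∣ q) : primOf (changeLevel h u.2) = u := by
  have key : ∀ (a b : ℕ) (x : DirichletCharacter ℂ a) (y : DirichletCharacter ℂ b) (ha : a ∣ q) (hb : b ∣ q),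
      a = b → changeLevel ha x = changeLevel hb y → (⟨a, x⟩ : Σ r : ℕ, DirichletCharacter ℂ r) = ⟨b, y⟩ := by
    intro a b x y ha hb hab he
    subst hab
    rw [DirichletCharacter.changeLevel_injective ha he]
  exact key _ _ _ _ (changeLevel h u.2).conductor_dvd_level h
    ((DirichletCharacter.conductor_changeLevel u.2 h).trans hu) (changeLevel h u.2).changeLevel_primitiveCharacter

theorem arcCoef_primOf {q : ℕ} [NeZero q] (χ : DirichletCharacter ℂ q) (r : ℕ) :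
    arcCoef (primOf χ) q r = gauss χ⁻¹ 1 * χ (r : ZMod q) / q.totient := by
  have h : (primOf χ).1 ∣ q := χ.conductor_dvd_level
  rw [arcCoef, tauLift, valLift, dif_pos h, dif_pos h]
  have e : changeLevel h (primOf χ).2 = χ := χ.changeLevel_primitiveCharacter
  rw [map_inv, e]

/-- The approximation on the arc at `r / q`. -/
def arcApprox (Q X q r : ℕ) (x : ℝ) : ℂ := ∑ u ∈ family Q, arcCoef u q r * charSum u X x

theorem norm_trigSum_sub_arcApprox_le {Q X q r : ℕ} [NeZero q] (hqQ : q ≤ Q) (hX : 1 ≤ X) (hr : r.Coprime q)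
    (β : ℝ) :
    ‖trigSum (fun i => (Λ i : ℂ)) X ((r : ℝ) / q + β) - arcApprox Q X q r β‖ ≤
      2 * ((q : ℝ) + 1) * q * Real.log X ^ 2 := by
  have hφ : (0 : ℝ) < q.totient := Nat.cast_pos.2 (Nat.totient_pos.2 (NeZero.pos q))
  have happ : arcApprox Q X q r β =
      ∑ χ : DirichletCharacter ℂ q, gauss χ⁻¹ 1 * χ (r : ZMod q) / q.totient * charSum (primOf χ) X β := by
    rw [arcApprox, ← sum_subset (s₁ := univ.image (primOf (q := q)))
      (image_subset_iff.2 fun χ _ => primOf_mem hqQ χ)]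
    · rw [sum_image fun χ _ ψ _ h => primOf_injective h]
      exact sum_congr rfl fun χ _ => by rw [arcCoef_primOf]
    · intro u hu hu'
      rw [arcCoef, tauLift]
      split_ifs with h
      · exact absurd (mem_image.2 ⟨changeLevel h u.2, mem_univ _,
          primOf_changeLevel u (mem_family.1 hu).2.2 h⟩) hu'
      · simp
  obtain ⟨bad, hbad⟩ : ∃ b, b = (Icc 1 X).filter (fun i => ¬i.Coprime q) := ⟨_, rfl⟩
  have hgood : ∑ i ∈ (Icc 1 X).filter (fun i => i.Coprime q), (Λ i : ℂ) * eAdd (i * ((r : ℝ) / q + β)) =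
      ∑ χ : DirichletCharacter ℂ q, gauss χ⁻¹ 1 * χ (r : ZMod q) / q.totient *
        ∑ i ∈ (Icc 1 X).filter (fun i => i.Coprime q),
          (primOf χ).2 (i : ZMod (primOf χ).1) * (Λ i : ℂ) * eAdd (i * β) := by
    simp only [mul_sum]
    rw [sum_comm]
    refine sum_congr rfl fun i hi => ?_
    have hic := (mem_filter.1 hi).2
    have h := totient_mul_eAdd_eq hr hic
    rw [sum_congr rfl fun χ _ => show gauss χ⁻¹ 1 * χ (r : ZMod q) / (q.totient : ℂ) *
      ((primOf χ).2 (i : ZMod (primOf χ).1) * (Λ i : ℂ) * eAdd (i * β)) =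
      gauss χ⁻¹ 1 * χ (r : ZMod q) * χ (i : ZMod q) * ((Λ i : ℂ) * eAdd (i * β) / (q.totient : ℂ)) by
      rw [primOf_apply χ hic]; ring, ← sum_mul, ← h, mul_add, FA.ThreePrimes.eAdd_add]
    have : (q.totient : ℂ) ≠ 0 := Nat.cast_ne_zero.2 (Nat.totient_pos.2 (NeZero.pos q)).ne'
    field_simp
  rw [happ, trigSum, ← sum_filter_add_sum_filter_not (Icc 1 X) (fun i => i.Coprime q), hgood, ← hbad]
  have hsplit : ∀ χ : DirichletCharacter ℂ q, charSum (primOf χ) X β =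
      ∑ i ∈ (Icc 1 X).filter (fun i => i.Coprime q),
          (primOf χ).2 (i : ZMod (primOf χ).1) * (Λ i : ℂ) * eAdd (i * β) +
        ∑ i ∈ bad, (primOf χ).2 (i : ZMod (primOf χ).1) * (Λ i : ℂ) * eAdd (i * β) := fun χ => by
    rw [hbad, sum_filter_add_sum_filter_not]
    rfl
  simp only [hsplit, mul_add, sum_add_distrib]
  rw [add_sub_add_left_eq_sub]
  have hbadle : ∑ i ∈ bad, Λ i ≤ 2 * q * Real.log X ^ 2 := hbad ▸ sum_bad_le q X hX
  have hone : ∀ (z : ℕ → ℂ) (y : ℕ → ℝ), (∀ i, ‖z i‖ ≤ 1) →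
      ‖∑ i ∈ bad, z i * (Λ i : ℂ) * eAdd (y i)‖ ≤ ∑ i ∈ bad, Λ i := fun z y hz => by
    refine (norm_sum_le _ _).trans (sum_le_sum fun i _ => ?_)
    rw [norm_mul, norm_mul, FA.ThreePrimes.norm_eAdd, mul_one, Complex.norm_real,
      Real.norm_of_nonneg vonMangoldt_nonneg]
    exact mul_le_of_le_one_left vonMangoldt_nonneg (hz i)
  refine (norm_sub_le _ _).trans ((add_le_add (b := ∑ i ∈ bad, Λ i) (d := (q : ℝ) * ∑ i ∈ bad, Λ i) ?_
    ((norm_sum_le _ _).trans ((sum_le_card_nsmul _ _ ((q : ℝ) / q.totient * ∑ i ∈ bad, Λ i)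
      fun χ _ => ?_).trans ?_))).trans ?_)
  · simpa [mul_add] using hone (fun _ => 1) (fun i => i * ((r : ℝ) / q + β)) fun _ => by simp
  · rw [norm_mul, norm_div, norm_mul, Complex.norm_natCast]
    refine mul_le_mul (div_le_div_of_nonneg_right ?_ hφ.le) (hone _ _ fun i => (primOf χ).2.norm_le_one _)
      (norm_nonneg _) (by positivity)
    exact (mul_le_of_le_one_right (norm_nonneg _) (χ.norm_le_one _)).trans (norm_gauss_le_card _ _)
  · rw [card_univ, ← Nat.card_eq_fintype_card, DirichletCharacter.card_eq_totient_of_hasEnoughRootsOfUnity,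
      nsmul_eq_mul, ← mul_assoc, mul_div_cancel₀ _ hφ.ne']
  · have h := mul_le_mul_of_nonneg_left hbadle (show 0 ≤ (q : ℝ) + 1 by positivity)
    linarith

/-- The sum over primes moves little. -/
theorem norm_trigSum_sub_le (X : ℕ) (x y : ℝ) :
    ‖trigSum (fun i => (Λ i : ℂ)) X x - trigSum (fun i => (Λ i : ℂ)) X y‖ ≤ 48 * X ^ 2 * |x - y| := by
  rw [trigSum, trigSum, ← sum_sub_distrib]
  refine (norm_sum_le _ _).trans ((sum_le_sum (g := fun i => Λ i * (2 * π * X * |x - y|)) fun i hi => ?_).trans ?_)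
  · rw [← mul_sub, norm_mul, Complex.norm_real, Real.norm_of_nonneg vonMangoldt_nonneg]
    refine mul_le_mul_of_nonneg_left ((norm_eAdd_sub_le _ _).trans ?_) vonMangoldt_nonneg
    rw [← mul_sub, abs_mul, Nat.abs_cast, mul_assoc (2 * π)]
    exact mul_le_mul_of_nonneg_left (mul_le_mul_of_nonneg_right (Nat.cast_le.2 (mem_Icc.1 hi).2)
      (abs_nonneg _)) (by positivity)
  · rw [← sum_mul]
    refine (mul_le_mul_of_nonneg_right (FA.ThreePrimes.sum_vonMangoldt_le X) (by positivity)).trans ?_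
    have := mul_le_mul_of_nonneg_right Real.pi_le_four (show 0 ≤ (X : ℝ) ^ 2 * |x - y| by positivity)
    linarith

theorem norm_lambdaSum_le (X : ℕ) (x : ℝ) : ‖trigSum (fun i => (Λ i : ℂ)) X x‖ ≤ 6 * X := by
  rw [← FA.ThreePrimes.twist_eq_trigSum]
  exact FA.ThreePrimes.norm_twist_le x X

/-- One point. -/
theorem norm_point_le {Q X M n : ℕ} (hQ : 1 ≤ Q) (hX : 2 ≤ X) (hl : 1 ≤ Real.log X) (hM : 144 * X ^ 3 ≤ M)
    (hn : n ≤ X) {q r : ℕ} (hz : (⟨q, r⟩ : Σ _ : ℕ, ℕ) ∈ arcCentres Q) (j : ℤ) :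
    ‖trigSum (fun i => (Λ i : ℂ)) X ((gridPt M (centreIdx M ⟨q, r⟩ + j) : ℝ) / M) ^ 2 *
        eAdd (-(n * ((gridPt M (centreIdx M ⟨q, r⟩ + j) : ℝ) / M))) -
      arcApprox Q X q r ((j : ℝ) / M) ^ 2 * eAdd (-(n * ((r : ℝ) / q + (j : ℝ) / M)))‖ ≤
      350 * (Q : ℝ) ^ 6 * Real.log X ^ 4 * X := by
  obtain ⟨⟨hq1, hqQ⟩, -, hcop⟩ := FA.ThreePrimes.mem_arcCentres.1 hz
  simp only at hq1 hqQ hcop
  have : NeZero q := ⟨by omega⟩
  have hX1 : (1 : ℝ) ≤ X := Nat.one_le_cast.2 (by omega)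
  have hM' : 144 * (X : ℝ) ^ 3 ≤ M := by exact_mod_cast hM
  have hM0 : (0 : ℝ) < M := lt_of_lt_of_le (by positivity) hM'
  rw [gridPt_cast (by exact_mod_cast hM0), trigSum_add_intCast, eAdd_neg_mul_add_intCast]
  obtain ⟨x, hx⟩ : ∃ x : ℝ, x = ((centreIdx M ⟨q, r⟩ + j : ℤ) : ℝ) / M := ⟨_, rfl⟩
  obtain ⟨y, hy⟩ : ∃ y : ℝ, y = (r : ℝ) / q + (j : ℝ) / M := ⟨_, rfl⟩
  rw [← hx, ← hy]
  have hxy : |x - y| ≤ 1 / (2 * M) := by
    refine le_trans (le_of_eq ?_) (abs_centreIdx_div_sub (M := M) (by exact_mod_cast hM0) ⟨q, r⟩)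
    rw [hx, hy, centre]
    push_cast
    ring_nf
  obtain ⟨Y, hY⟩ : ∃ Y : ℝ, Y = (Q : ℝ) ^ 3 * Real.log X ^ 2 := ⟨_, rfl⟩
  have hQ1 : (1 : ℝ) ≤ Q := Nat.one_le_cast.2 hQ
  have hl2 : 1 ≤ Real.log X ^ 2 := one_le_pow₀ hl
  have hY1 : 1 ≤ Y := hY ▸ one_le_mul_of_one_le_of_one_le (one_le_pow₀ hQ1) hl2
  have hsmall : 48 * (X : ℝ) ^ 2 * |x - y| ≤ 1 := by
    refine (mul_le_mul_of_nonneg_left hxy (by positivity)).trans ?_
    rw [mul_one_div, div_le_one (by positivity)]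
    have : (X : ℝ) ^ 2 ≤ X ^ 3 := pow_le_pow_right₀ hX1 (by norm_num)
    linarith
  have hSA : ‖trigSum (fun i => (Λ i : ℂ)) X x - arcApprox Q X q r ((j : ℝ) / M)‖ ≤ 5 * Y := by
    have h1 := (norm_trigSum_sub_le X x y).trans hsmall
    have h2 := norm_trigSum_sub_arcApprox_le hqQ (by omega : 1 ≤ X) hcop.symm ((j : ℝ) / M)
    rw [← hy] at h2
    have hqQ' : (q : ℝ) ≤ Q := Nat.cast_le.2 hqQ
    have h3 : ((q : ℝ) + 1) * q ≤ 2 * (Q : ℝ) ^ 3 := by
      have h4 : ((q : ℝ) + 1) * q ≤ ((Q : ℝ) + 1) * Q :=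
        mul_le_mul (by linarith) hqQ' (Nat.cast_nonneg q) (by linarith)
      have h5 : ((Q : ℝ) + 1) * Q ≤ 2 * Q ^ 2 := by nlinarith
      have h6 : (Q : ℝ) ^ 2 ≤ Q ^ 3 := pow_le_pow_right₀ hQ1 (by norm_num)
      linarith
    have h7 := mul_le_mul_of_nonneg_right h3 (show 0 ≤ 2 * Real.log X ^ 2 by positivity)
    linarith [norm_sub_le_norm_sub_add_norm_sub (trigSum (fun i => (Λ i : ℂ)) X x)
      (trigSum (fun i => (Λ i : ℂ)) X y) (arcApprox Q X q r ((j : ℝ) / M))]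
  obtain ⟨S, hS⟩ : ∃ S : ℂ, S = trigSum (fun i => (Λ i : ℂ)) X x := ⟨_, rfl⟩
  obtain ⟨A, hA⟩ : ∃ A : ℂ, A = arcApprox Q X q r ((j : ℝ) / M) := ⟨_, rfl⟩
  rw [← hS, ← hA] at hSA
  rw [← hS, ← hA]
  have hSn : ‖S‖ ≤ 6 * X := hS ▸ norm_lambdaSum_le X x
  have hAn : ‖A‖ ≤ 6 * X + 5 * Y := by
    have := norm_sub_norm_le A S
    rw [norm_sub_rev] at this
    linarith
  have he : ‖eAdd (-(n * x)) - eAdd (-(n * y))‖ ≤ 4 * X / M := by
    refine (norm_eAdd_sub_le _ _).trans ?_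
    rw [show -((n : ℝ) * x) - -(n * y) = n * (y - x) by ring, abs_mul, Nat.abs_cast, abs_sub_comm]
    refine (mul_le_mul (mul_le_mul_of_nonneg_left Real.pi_le_four zero_le_two)
      (mul_le_mul (Nat.cast_le.2 hn) hxy (abs_nonneg _) (Nat.cast_nonneg X)) (by positivity)
      (by norm_num)).trans (le_of_eq ?_)
    ring
  rw [show S ^ 2 * eAdd (-(n * x)) - A ^ 2 * eAdd (-(n * y)) =
    S ^ 2 * (eAdd (-(n * x)) - eAdd (-(n * y))) + (S - A) * (S + A) * eAdd (-(n * y)) by ring]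
  refine (norm_add_le _ _).trans ?_
  rw [norm_mul, norm_pow, norm_mul, norm_mul, FA.ThreePrimes.norm_eAdd, mul_one]
  have t1 : ‖S‖ ^ 2 * ‖eAdd (-(n * x)) - eAdd (-(n * y))‖ ≤ 1 := by
    refine (mul_le_mul (pow_le_pow_left₀ (norm_nonneg _) hSn 2) he (norm_nonneg _) (by positivity)).trans ?_
    rw [mul_div_assoc', div_le_one hM0]
    linarith
  have t2 : ‖S - A‖ * ‖S + A‖ ≤ 5 * Y * (12 * X + 5 * Y) :=
    mul_le_mul hSA ((norm_add_le _ _).trans (by linarith)) (norm_nonneg _) (by linarith)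
  have t3 : Y * Y = (Q : ℝ) ^ 6 * Real.log X ^ 4 := by rw [hY]; ring
  have t4 : Y * X ≤ Y * Y * X := by
    have := mul_le_mul_of_nonneg_right hY1 (show 0 ≤ Y * (X : ℝ) by positivity)
    linarith
  have t5 : 1 ≤ Y * Y * X := one_le_mul_of_one_le_of_one_le (one_le_mul_of_one_le_of_one_le hY1 hY1) hX1
  have t6 : Y * Y ≤ Y * Y * X := le_mul_of_one_le_right (by positivity) hX1
  rw [show 350 * (Q : ℝ) ^ 6 * Real.log X ^ 4 * X = 350 * (Y * Y * X) by rw [t3]; ring]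
  linarith

/-- **The arcs give the singular sums times the integrals.** -/
theorem norm_major_sub_le {Q X M J n : ℕ} (hQ : 1 ≤ Q) (hX : 2 ≤ X) (hl : 1 ≤ Real.log X) (hM : 144 * X ^ 3 ≤ M)
    (hn : n ≤ X) :
    ‖(∑ z ∈ arcCentres Q, ∑ j ∈ Icc (-(J : ℤ)) J,
        trigSum (fun i => (Λ i : ℂ)) X ((gridPt M (centreIdx M z + j) : ℝ) / M) ^ 2 *
          eAdd (-(n * ((gridPt M (centreIdx M z + j) : ℝ) / M)))) / M -
      ∑ u ∈ family Q, ∑ v ∈ family Q, pairCoef u v Q n * arcInt M J (charSum u X) (charSum v X) n‖ ≤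
      (Q : ℝ) ^ 8 * (((2 * J + 1 : ℕ) : ℝ) / M) * (350 * Real.log X ^ 4 * X) := by
  have hM0 : 0 < M := lt_of_lt_of_le (by positivity) hM
  have halg : ∑ u ∈ family Q, ∑ v ∈ family Q, pairCoef u v Q n * arcInt M J (charSum u X) (charSum v X) n =
      (∑ z ∈ arcCentres Q, ∑ j ∈ Icc (-(J : ℤ)) J,
        arcApprox Q X z.1 z.2 ((j : ℝ) / M) ^ 2 * eAdd (-(n * ((z.2 : ℝ) / z.1 + (j : ℝ) / M)))) / M := by
    simp only [pairCoef, pairArith, arcInt, mul_div_assoc', ← sum_div, sum_mul]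
    congr 1
    rw [arcCentres, sum_sigma]
    simp only [arcApprox, sq, sum_mul, mul_sum]
    rw [sum_congr rfl fun u _ => sum_comm, sum_comm]
    refine sum_congr rfl fun q _ => ?_
    rw [sum_congr rfl fun u _ => sum_comm, sum_comm]
    refine sum_congr rfl fun r _ => ?_
    rw [sum_congr rfl fun u _ => sum_comm, sum_comm]
    refine sum_congr rfl fun j _ => sum_congr rfl fun u _ => sum_congr rfl fun v _ => ?_
    rw [show -((n : ℝ) * ((r : ℝ) / q + (j : ℝ) / M)) =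
      ((-(n : ℤ) : ℤ) : ℝ) * r / q + -((n : ℝ) * ((j : ℝ) / M)) by push_cast; ring, FA.ThreePrimes.eAdd_add]
    ring
  rw [halg, ← sub_div, norm_div, Complex.norm_natCast, ← sum_sub_distrib]
  refine (div_le_div_of_nonneg_right ((norm_sum_le _ _).trans (sum_le_card_nsmul _ _
    (((2 * J + 1 : ℕ) : ℝ) * (350 * (Q : ℝ) ^ 6 * Real.log X ^ 4 * X)) fun z hz => ?_)) (Nat.cast_nonneg M)).trans ?_
  · rw [← sum_sub_distrib]
    refine (norm_sum_le _ _).trans ((sum_le_card_nsmul _ _ _ fun j _ => norm_point_le hQ hX hl hM hn hz j).trans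
      (le_of_eq ?_))
    rw [nsmul_eq_mul, Int.card_Icc]
    congr 1
    rw [show ((J : ℤ) + 1 - -(J : ℤ)).toNat = 2 * J + 1 by omega]
  · rw [nsmul_eq_mul]
    have hcard : ((arcCentres Q).card : ℝ) ≤ (Q : ℝ) * Q := by
      rw [arcCentres, card_sigma]
      have h : ∀ q ∈ Icc 1 Q, (unitResidues q).card ≤ Q := fun q hq => by
        rw [FA.ThreePrimes.card_unitResidues]
        exact (Nat.totient_le q).trans (mem_Icc.1 hq).2
      refine (Nat.cast_le.2 (sum_le_card_nsmul _ _ Q h)).trans (le_of_eq ?_)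
      simp
    refine (div_le_div_of_nonneg_right (mul_le_mul_of_nonneg_right hcard (by positivity))
      (Nat.cast_nonneg M)).trans (le_of_eq ?_)
    ring

end FA.MontgomeryVaughan

end
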