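import Fermat.Agent.MontgomeryVaughan.Expansion

/-!
# The parameters and the minor arcs

`Q = ⌊X ^ (1 / K)⌋`, windows of length `H ≈ X / Q ^ 8`, arcs of half width `J / M ≈ 1 / (6 H)` on a grid
of mesh `1 / M`, `M = 144 X ^ 3`. Off the arcs the sum over pairs is at most `X Q ^ (-1/8)` but for
`X Q ^ (-1/2)` numbers `n ≤ X`.
-/

set_option autoImplicit false
set_option linter.unusedSectionVars false

noncomputable section

open Finset Complex ArithmeticFunction Filter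
open FA.ThreePrimes (eAdd trigSum twist nearDist arcCentres centre logOne)
open FA.AlmostGoldbach (pairSum)
open FA.Gallagher (family)
open scoped Real Classical Topology

namespace FA.MontgomeryVaughan

/-- The level, `X ^ (1 / K)`. -/
def level (K X : ℕ) : ℕ := ⌊(X : ℝ) ^ (1 / (K : ℝ))⌋₊

theorem tendsto_level {K : ℕ} (hK : 0 < K) : Tendsto (level K) atTop atTop :=
  tendsto_nat_floor_atTop.comp
    ((tendsto_rpow_atTop (show (0 : ℝ) < 1 / K by positivity)).comp tendsto_natCast_atTop_atTop)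

theorem level_bounds {K X : ℕ} (hK : 0 < K) (hQ : 1 ≤ level K X) :
    ((level K X : ℕ) : ℝ) ^ K ≤ X ∧ (X : ℝ) ≤ (2 * (level K X : ℝ)) ^ K := by
  obtain ⟨t, ht⟩ : ∃ t : ℝ, t = (X : ℝ) ^ (1 / (K : ℝ)) := ⟨_, rfl⟩
  have ht0 : 0 ≤ t := ht ▸ Real.rpow_nonneg (Nat.cast_nonneg X) _
  have e : t ^ K = X := by rw [ht, one_div, Real.rpow_inv_natCast_pow (Nat.cast_nonneg X) hK.ne']
  have h1 : ((level K X : ℕ) : ℝ) ≤ t := ht ▸ Nat.floor_le (ht ▸ ht0)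
  have h2 : t ≤ 2 * (level K X : ℝ) := by
    have h3 := Nat.lt_floor_add_one t
    have h4 : (1 : ℝ) ≤ (level K X : ℝ) := Nat.one_le_cast.2 hQ
    rw [level, ← ht] at h4 ⊢
    linarith
  rw [← e]
  exact ⟨pow_le_pow_left₀ (Nat.cast_nonneg _) h1 K, pow_le_pow_left₀ ht0 h2 K⟩

/-- Logarithms lose to powers of the level. -/
theorem eventually_log_pow_le {K : ℕ} (hK : 0 < K) (m : ℕ) (C : ℝ) {a : ℝ} (ha : 0 < a) :
    ∀ᶠ X : ℕ in atTop, C * Real.log X ^ m ≤ (level K X : ℝ) ^ a := by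
  have hK' : (0 : ℝ) < K := Nat.cast_pos.2 hK
  have hc : 0 < (1 / 2 : ℝ) ^ a / (|C| + 1) := by positivity
  have h := (isLittleO_log_rpow_rpow_atTop (m : ℝ) (show (0 : ℝ) < a / K by positivity)).bound hc
  filter_upwards [tendsto_natCast_atTop_atTop.eventually h, (tendsto_level hK).eventually_ge_atTop 1,
    eventually_ge_atTop 1] with X hX hQ hX1
  obtain ⟨-, h2⟩ := level_bounds hK hQ
  rw [Real.rpow_natCast, Real.norm_of_nonneg (pow_nonneg (Real.log_natCast_nonneg X) m),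
    Real.norm_of_nonneg (Real.rpow_nonneg (Nat.cast_nonneg X) _)] at hX
  have h3 : (X : ℝ) ^ (a / K) ≤ (2 * (level K X : ℝ)) ^ a := by
    refine (Real.rpow_le_rpow (Nat.cast_nonneg X) h2 (by positivity)).trans (le_of_eq ?_)
    rw [← Real.rpow_natCast_mul (by positivity), mul_div_cancel₀ _ hK'.ne']
  refine (mul_le_mul_of_nonneg_right ((le_abs_self C).trans (le_add_of_nonneg_right zero_le_one))
    (pow_nonneg (Real.log_natCast_nonneg X) m)).trans ?_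
  refine (mul_le_mul_of_nonneg_left (hX.trans (mul_le_mul_of_nonneg_left h3 hc.le)) (by positivity)).trans
    (le_of_eq ?_)
  rw [← mul_assoc, mul_div_cancel₀ _ (by positivity), ← Real.mul_rpow (by norm_num) (by positivity)]
  congr 1
  ring

/-- The logarithm of `X` against that of the level. -/
theorem eventually_log_le {K : ℕ} (hK : 0 < K) :
    ∀ᶠ X : ℕ in atTop, Real.log X ≤ 2 * K * Real.log (level K X) ∧
      Real.log X ≤ Real.log (level K X) ^ 2 := by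
  have hK' : (0 : ℝ) < K := Nat.cast_pos.2 hK
  filter_upwards [(tendsto_level hK).eventually_ge_atTop 2,
    (Real.tendsto_log_atTop.comp (tendsto_natCast_atTop_atTop.comp (tendsto_level hK))).eventually_ge_atTop
      (2 * (K : ℝ)), eventually_ge_atTop 1] with X hQ hbig hX1
  simp only [Function.comp_apply] at hbig
  obtain ⟨-, h2⟩ := level_bounds (X := X) hK (by omega)
  have hQ' : (2 : ℝ) ≤ (level K X : ℝ) := by exact_mod_cast hQ
  have h3 := Real.log_le_log (Nat.cast_pos.2 hX1) h2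
  rw [Real.log_pow, Real.log_mul two_ne_zero (by linarith)] at h3
  have h4 := mul_le_mul_of_nonneg_left (Real.log_le_log two_pos hQ') hK'.le
  have h5 := mul_le_mul_of_nonneg_right hbig (Real.log_nonneg (show (1 : ℝ) ≤ (level K X : ℝ) by linarith))
  refine ⟨by linarith, ?_⟩
  rw [sq]
  linarith

/-- What the parameters satisfy. -/
structure Params (X Q H M J Y : ℕ) : Prop where
  two_le : 2 ≤ X
  H_pos : 0 < H
  J_pos : 0 < J
  H_le : (H : ℝ) ≤ X / (Q : ℝ) ^ 8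
  le_H : (X : ℝ) / (Q : ℝ) ^ 9 ≤ H
  half_le_H : (X : ℝ) / (2 * (Q : ℝ) ^ 8) ≤ H
  add_lt : X + H < M
  cube_le : 144 * X ^ 3 ≤ M
  M_le : (M : ℝ) ≤ 144 * (X : ℝ) ^ 3
  mul_le : 6 * J * H ≤ M
  two_mul_lt : 2 * J < M
  sep : ((2 * J + 1 : ℕ) : ℝ) * ((Q : ℝ) * Q) < M
  width_le : ((2 * J + 1 : ℕ) : ℝ) / M ≤ 1 / H
  gap_ge : 1 / (8 * (H : ℝ)) ≤ ((J : ℝ) - 1) / M
  H_le_Y : H ≤ Y
  Y_le : Y ≤ X
  le_Y : (X : ℝ) / (Q : ℝ) ^ 6 ≤ Y
  tail_le : ((Y + 2 * H : ℕ) : ℝ) ≤ 4 * X / (Q : ℝ) ^ 6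

theorem params_default {X Q : ℕ} (hQ : 2 ≤ Q) (hQX : (Q : ℝ) ^ 40 ≤ X) :
    Params X Q (X / Q ^ 8) (144 * X ^ 3) (144 * X ^ 3 / (6 * (X / Q ^ 8))) (X / Q ^ 6 + 1) := by
  obtain ⟨H, hH⟩ : ∃ H, H = X / Q ^ 8 := ⟨_, rfl⟩
  obtain ⟨M, hM⟩ : ∃ M, M = 144 * X ^ 3 := ⟨_, rfl⟩
  obtain ⟨J, hJ⟩ : ∃ J, J = M / (6 * H) := ⟨_, rfl⟩
  obtain ⟨Y, hY⟩ : ∃ Y, Y = X / Q ^ 6 + 1 := ⟨_, rfl⟩
  rw [← hH, ← hM, ← hJ, ← hY]
  have hQ2 : (2 : ℝ) ≤ Q := by exact_mod_cast hQ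
  have hp : ∀ {i j : ℕ}, i ≤ j → (Q : ℝ) ^ i ≤ (Q : ℝ) ^ j := fun h => pow_le_pow_right₀ (by linarith) h
  have hX0 : (0 : ℝ) < X := lt_of_lt_of_le (by positivity) hQX
  have hX1 : (1 : ℝ) ≤ X := le_trans (one_le_pow₀ (by linarith)) hQX
  have hX2 : (2 : ℝ) ≤ X := le_trans (hQ2.trans (le_self_pow₀ (by linarith) (by norm_num))) hQX
  have hfl : ∀ i : ℕ, ((X / Q ^ i : ℕ) : ℝ) ≤ X / (Q : ℝ) ^ i ∧ (X : ℝ) / (Q : ℝ) ^ i < ((X / Q ^ i : ℕ) : ℝ) + 1 :=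
    fun i => by
      rw [← Nat.floor_div_eq_div (K := ℝ) X (Q ^ i), Nat.cast_pow]
      exact ⟨Nat.floor_le (by positivity), Nat.lt_floor_add_one _⟩
  have hQ8 : 2 * (Q : ℝ) ^ 8 ≤ X := le_trans (le_trans (mul_le_mul_of_nonneg_right hQ2 (by positivity))
    (le_of_eq (pow_succ' (Q : ℝ) 8).symm)) ((hp (show 9 ≤ 40 by norm_num)).trans hQX)
  have hHle : (H : ℝ) ≤ X / (Q : ℝ) ^ 8 := hH ▸ (hfl 8).1
  have hhalf : (X : ℝ) / (2 * (Q : ℝ) ^ 8) ≤ H := by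
    have h1 := hH ▸ (hfl 8).2
    have h2 : 2 ≤ (X : ℝ) / (Q : ℝ) ^ 8 := by rwa [le_div_iff₀ (by positivity)]
    rw [show (X : ℝ) / (2 * (Q : ℝ) ^ 8) = X / (Q : ℝ) ^ 8 / 2 by ring]
    linarith
  have hH0 : (0 : ℝ) < H := lt_of_lt_of_le (by positivity) hhalf
  have hH0' : 0 < H := by exact_mod_cast hH0
  have hHX : (H : ℝ) ≤ X := hHle.trans (div_le_self hX0.le (one_le_pow₀ (by linarith)))
  have hM' : (M : ℝ) = 144 * (X : ℝ) ^ 3 := by rw [hM]; push_cast; ring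
  have hM0 : (0 : ℝ) < M := by rw [hM']; positivity
  obtain ⟨T, hT⟩ : ∃ T : ℝ, T = (M : ℝ) / H := ⟨_, rfl⟩
  have hTH : T * H = M := hT ▸ div_mul_cancel₀ _ hH0.ne'
  have hTbig : 144 * (X : ℝ) ^ 2 ≤ T := by
    rw [hT, le_div_iff₀ hH0, hM']
    have := mul_le_mul_of_nonneg_left hHX (show 0 ≤ 144 * (X : ℝ) ^ 2 by positivity)
    linarith
  have hX21 : 4 ≤ (X : ℝ) ^ 2 := by nlinarith
  have hJle : (J : ℝ) ≤ T / 6 ∧ T / 6 < (J : ℝ) + 1 := by
    rw [hJ, ← Nat.floor_div_eq_div (K := ℝ) M (6 * H), Nat.cast_mul, Nat.cast_ofNat,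
      show (M : ℝ) / (6 * H) = T / 6 by rw [hT]; ring]
    exact ⟨Nat.floor_le (by rw [hT]; positivity), Nat.lt_floor_add_one _⟩
  have hJ2 : 2 * (J : ℝ) + 1 ≤ T / 2 := by linarith
  have hTM : T ≤ M := by
    rw [← hTH]
    exact le_mul_of_one_le_right (hT ▸ by positivity) (Nat.one_le_cast.2 hH0')
  refine ⟨by exact_mod_cast hX2, hH0', ?_, hHle, ?_, hhalf, ?_, hM.ge, hM'.le, ?_, ?_, ?_, ?_, ?_, ?_, ?_, ?_, ?_⟩
  · have : (0 : ℝ) < J := by linarith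
    exact_mod_cast this
  · refine le_trans ?_ hhalf
    rw [pow_succ' (Q : ℝ) 8]
    exact div_le_div_of_nonneg_left hX0.le (by positivity) (mul_le_mul_of_nonneg_right hQ2 (by positivity))
  · have : ((X + H : ℕ) : ℝ) < M := by
      rw [hM']
      push_cast
      have h1 : (X : ℝ) ≤ X ^ 3 := le_self_pow₀ hX1 (by norm_num)
      linarith
    exact_mod_cast this
  · have : ((6 * J * H : ℕ) : ℝ) ≤ M := by
      rw [← hTH]
      push_cast
      exact mul_le_mul_of_nonneg_right (by linarith) hH0.le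
    exact_mod_cast this
  · have : ((2 * J : ℕ) : ℝ) < M := by
      push_cast
      linarith
    exact_mod_cast this
  · push_cast
    have h1 : (Q : ℝ) * Q ≤ H := by
      rw [← sq]
      refine le_trans ?_ hhalf
      rw [le_div_iff₀ (by positivity)]
      calc (Q : ℝ) ^ 2 * (2 * (Q : ℝ) ^ 8) ≤ (Q : ℝ) ^ 2 * ((Q : ℝ) * (Q : ℝ) ^ 8) :=
            mul_le_mul_of_nonneg_left (mul_le_mul_of_nonneg_right hQ2 (by positivity)) (sq_nonneg _)
        _ = (Q : ℝ) ^ 11 := by ring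
        _ ≤ X := (hp (by norm_num)).trans hQX
    have h2 := mul_le_mul hJ2 h1 (by positivity) (by linarith)
    linarith
  · push_cast
    rw [div_le_div_iff₀ hM0 hH0]
    have := mul_le_mul_of_nonneg_right hJ2 hH0.le
    linarith
  · rw [div_le_div_iff₀ (by positivity) hM0, one_mul]
    have := mul_le_mul_of_nonneg_right (show T / 8 ≤ (J : ℝ) - 1 by linarith) (show 0 ≤ 8 * (H : ℝ) by positivity)
    linarith
  · rw [hH, hY]
    have := Nat.div_le_div_left (c := Q ^ 6) (b := Q ^ 8) (a := X) (Nat.pow_le_pow_right (by omega) (by norm_num))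
      (pow_pos (by omega) 6)
    omega
  · have : (Y : ℝ) ≤ X := by
      have h1 := (hfl 6).1
      have h2 : (X : ℝ) / (Q : ℝ) ^ 6 ≤ X / 2 :=
        div_le_div_of_nonneg_left hX0.le two_pos (hQ2.trans (le_self_pow₀ (by linarith) (by norm_num)))
      rw [hY]
      push_cast
      linarith
    exact_mod_cast this
  · rw [hY]
    push_cast
    linarith [(hfl 6).2]
  · have h1 := (hfl 6).1
    have h2 : (H : ℝ) ≤ X / (Q : ℝ) ^ 6 :=
      hHle.trans (div_le_div_of_nonneg_left hX0.le (by positivity) (hp (by norm_num)))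
    have h3 : 1 ≤ (X : ℝ) / (Q : ℝ) ^ 6 := by
      rw [one_le_div (by positivity)]
      exact (hp (by norm_num)).trans hQX
    rw [mul_div_assoc, hY]
    push_cast
    linarith

theorem Params.M_pos {X Q H M J Y : ℕ} (h : Params X Q H M J Y) : (0 : ℝ) < M :=
  Nat.cast_pos.2 (lt_of_le_of_lt (Nat.zero_le _) h.add_lt)

/-- The square of `Λ` on `[1, X]`. -/
theorem sum_sq_lambda_le (X : ℕ) :
    ∑ i ∈ Icc 1 X, ‖(Λ i : ℂ)‖ ^ 2 ≤ 6 * X * Real.log X := by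
  refine (sum_le_sum (g := fun i => Λ i * Real.log X) fun i hi => ?_).trans ?_
  · rw [mem_Icc] at hi
    rw [Complex.norm_real, Real.norm_of_nonneg vonMangoldt_nonneg, sq]
    exact mul_le_mul_of_nonneg_left (vonMangoldt_le_log.trans
      (Real.log_le_log (Nat.cast_pos.2 hi.1) (Nat.cast_le.2 hi.2))) vonMangoldt_nonneg
  · rw [← sum_mul]
    exact mul_le_mul_of_nonneg_right (FA.ThreePrimes.sum_vonMangoldt_le X) (Real.log_natCast_nonneg X)

/-- The points off the arcs. -/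
def minorSet (Q M J : ℕ) : Finset ℕ := range M \ (arcCentres Q).biUnion (bigArc M J)

/-- The sum over the arcs. -/
def majorSum (Q X M J n : ℕ) : ℂ :=
  (∑ z ∈ arcCentres Q, ∑ j ∈ Icc (-(J : ℤ)) J,
    trigSum (fun i => (Λ i : ℂ)) X ((gridPt M (centreIdx M z + j) : ℝ) / M) ^ 2 *
      eAdd (-(n * ((gridPt M (centreIdx M z + j) : ℝ) / M)))) / M

/-- **Off the arcs the sum over primes is small.** -/
theorem norm_minor_trig_le {X Q H M J Y : ℕ} (hP : Params X Q H M J Y) (hQ : 2 ≤ Q) (hQX : (Q : ℝ) ^ 40 ≤ X)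
    (hl : 1 ≤ Real.log X) {h : ℕ} (hh : h ∈ minorSet Q M J) :
    ‖trigSum (fun i => (Λ i : ℂ)) X ((h : ℝ) / M)‖ ≤ 28000 * X * Real.log X ^ 4 / √(Q : ℝ) := by
  have hQ' : (2 : ℝ) ≤ Q := by exact_mod_cast hQ
  have hQ0 : (0 : ℝ) < Q := by linarith
  have hM0' : 0 < M := by exact_mod_cast hP.M_pos
  have hX1 : 1 ≤ X := by linarith [hP.two_le]
  have hX' : (0 : ℝ) < X := Nat.cast_pos.2 hX1
  obtain ⟨B, hB⟩ : ∃ B : ℝ, B = 28000 * X * Real.log X ^ 4 / √(Q : ℝ) := ⟨_, rfl⟩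
  rw [← hB]
  rw [minorSet, Finset.mem_sdiff, Finset.mem_range, mem_biUnion] at hh
  have hH0 : (0 : ℝ) < H := Nat.cast_pos.2 hP.H_pos
  have hδ : 0 < ((J : ℝ) - 1) / M := lt_of_lt_of_le (by positivity) hP.gap_ge
  rw [← FA.ThreePrimes.twist_eq_trigSum]
  refine (norm_twist_minor_le (Q := Q) (by omega) hδ fun z hz =>
    lt_nearDist_of_notMem hM0' hh.1 fun hz' => hh.2 ⟨z, hz, hz'⟩).trans ?_
  have h1 : (X : ℝ) ^ (4 / 5 : ℝ) ≤ X / √(Q : ℝ) := by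
    rw [le_div_iff₀ (Real.sqrt_pos.2 hQ0)]
    calc (X : ℝ) ^ (4 / 5 : ℝ) * √(Q : ℝ) ≤ (X : ℝ) ^ (4 / 5 : ℝ) * (X : ℝ) ^ (1 / 80 : ℝ) := by
          refine mul_le_mul_of_nonneg_left ?_ (by positivity)
          rw [Real.sqrt_eq_rpow]
          refine le_trans (le_of_eq ?_) (Real.rpow_le_rpow (by positivity) hQX (by norm_num))
          rw [← Real.rpow_natCast_mul hQ0.le]
          norm_num
      _ ≤ X := by
          rw [← Real.rpow_add hX']
          exact Real.rpow_le_self_of_one_le (Nat.one_le_cast.2 hX1) (by norm_num)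
  have h2 : √((X : ℝ) * (1 / (((J : ℝ) - 1) / M) + 1)) ≤ 3 * (X / √(Q : ℝ)) := by
    have h3 : 1 / (((J : ℝ) - 1) / M) ≤ 8 * H := by
      rw [div_le_iff₀ hδ]
      have := hP.gap_ge
      rw [div_le_iff₀ (by positivity)] at this
      linarith
    have h4 : (1 : ℝ) ≤ H := Nat.one_le_cast.2 hP.H_pos
    rw [Real.sqrt_le_left (by positivity), mul_pow, div_pow, Real.sq_sqrt hQ0.le]
    refine (mul_le_mul_of_nonneg_left (show 1 / (((J : ℝ) - 1) / M) + 1 ≤ 9 * (X / Q) from ?_) hX'.le).trans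
      (le_of_eq ?_)
    · have h5 : (H : ℝ) ≤ X / Q :=
        hP.H_le.trans (div_le_div_of_nonneg_left hX'.le hQ0 (le_self_pow₀ (by linarith) (by norm_num)))
      linarith
    · ring
  have h6 : logOne X ^ 4 ≤ 16 * Real.log X ^ 4 := by
    rw [show (16 : ℝ) * Real.log X ^ 4 = (2 * Real.log X) ^ 4 by ring, FA.ThreePrimes.logOne]
    exact pow_le_pow_left₀ (by linarith) (by linarith) 4
  refine (mul_le_mul (mul_le_mul_of_nonneg_left (add_le_add (add_le_add le_rfl h1) h2) (by norm_num)) h6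
    (pow_nonneg (zero_le_one.trans (FA.ThreePrimes.one_le_logOne X)) 4) (by positivity)).trans (le_of_eq ?_)
  rw [hB]
  ring

/-- **The two parts.** -/
theorem pairSum_eq_major_add_minor {X Q H M J Y : ℕ} (hP : Params X Q H M J Y) {n : ℕ} (hn : n ≤ X) :
    pairSum (fun i => (Λ i : ℂ)) X n = majorSum Q X M J n +
      (∑ h ∈ minorSet Q M J, trigSum (fun i => (Λ i : ℂ)) X ((h : ℝ) / M) ^ 2 *
        eAdd (-(n * ((h : ℝ) / M)))) / M := by
  have hM0' : 0 < M := by exact_mod_cast hP.M_pos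
  have hfull := FA.AlmostGoldbach.sum_square_grid (fun i => (Λ i : ℂ)) (X := X) (M := M) (n := n)
    (by
      have := hP.cube_le
      have h3 : X ≤ X ^ 3 := Nat.le_self_pow (by norm_num) X
      omega) hn 0
  simp only [add_zero] at hfull
  have hsubU : (arcCentres Q).biUnion (bigArc M J) ⊆ range M :=
    biUnion_subset.2 fun z _ => image_subset_iff.2 fun j _ => mem_range.2 (gridPt_lt hM0' _)
  rw [← sum_sdiff hsubU, sum_biUnion (bigArc_disjoint hM0' hP.sep),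
    sum_congr rfl fun z _ => sum_bigArc hP.two_mul_lt z _] at hfull
  rw [majorSum, minorSet, ← add_div, add_comm, hfull, mul_comm,
    mul_div_cancel_right₀ _ (Nat.cast_ne_zero.2 hM0'.ne')]

/-- **The arcs give the pairs of characters, for every `n`.** -/
theorem norm_majorSum_sub_le {X Q H M J Y : ℕ} (hP : Params X Q H M J Y) (hQ : 2 ≤ Q) (hQX : (Q : ℝ) ^ 40 ≤ X)
    (hl : 1 ≤ Real.log X) (hsmall' : 700 * Real.log X ^ 4 ≤ (Q : ℝ)) {n : ℕ} (hnX : n ≤ X) :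
    ‖majorSum Q X M J n -
        ∑ u ∈ family Q, ∑ v ∈ family Q, pairCoef u v Q n * arcInt M J (charSum u X) (charSum v X) n‖ ≤
      (X : ℝ) * (Q : ℝ) ^ (-(1 / 8) : ℝ) := by
  have hQ' : (2 : ℝ) ≤ Q := by exact_mod_cast hQ
  have hQ0 : (0 : ℝ) < Q := by linarith
  have hX' : (0 : ℝ) < X := Nat.cast_pos.2 (by linarith [hP.two_le])
  refine (norm_major_sub_le (J := J) (by omega : 1 ≤ Q) hP.two_le hl hP.cube_le hnX).trans ?_
  have hH0 : (0 : ℝ) < H := Nat.cast_pos.2 hP.H_pos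
  have h1 : 1 / (H : ℝ) ≤ 2 * (Q : ℝ) ^ 8 / X := by
    rw [← one_div_div (X : ℝ)]
    exact one_div_le_one_div_of_le (by positivity) hP.half_le_H
  refine (mul_le_mul_of_nonneg_right (mul_le_mul_of_nonneg_left (hP.width_le.trans h1) (by positivity))
    (by positivity)).trans ?_
  rw [show (Q : ℝ) ^ 8 * (2 * (Q : ℝ) ^ 8 / X) * (350 * Real.log X ^ 4 * X) =
    700 * Real.log X ^ 4 * (Q : ℝ) ^ 16 by field_simp; ring]
  refine (mul_le_mul_of_nonneg_right hsmall' (by positivity)).trans ?_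
  rw [Real.rpow_neg hQ0.le, ← div_eq_mul_inv, le_div_iff₀ (by positivity)]
  calc (Q : ℝ) * (Q : ℝ) ^ 16 * (Q : ℝ) ^ (1 / 8 : ℝ) ≤ (Q : ℝ) * (Q : ℝ) ^ 16 * Q :=
        mul_le_mul_of_nonneg_left (Real.rpow_le_self_of_one_le (by linarith) (by norm_num)) (by positivity)
    _ = (Q : ℝ) ^ 18 := by ring
    _ ≤ X := (pow_le_pow_right₀ (by linarith) (by norm_num)).trans hQX

/-- **The arcs carry the pairs, but for few `n`.** -/
theorem exists_major {X Q H M J Y : ℕ} (hP : Params X Q H M J Y) (hQ : 2 ≤ Q) (hQX : (Q : ℝ) ^ 40 ≤ X)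
    (hl : 1 ≤ Real.log X) (hsmall : 28000 ^ 2 * 6 * Real.log X ^ 9 ≤ (Q : ℝ) ^ (1 / 4 : ℝ))
    (hsmall' : 700 * Real.log X ^ 4 ≤ (Q : ℝ)) :
    ∃ E : Finset ℕ, (E.card : ℝ) ≤ X * (Q : ℝ) ^ (-(1 / 2) : ℝ) ∧ ∀ n ∈ Icc 1 X, n ∉ E →
      ‖pairSum (fun i => (Λ i : ℂ)) X n -
          ∑ u ∈ family Q, ∑ v ∈ family Q, pairCoef u v Q n * arcInt M J (charSum u X) (charSum v X) n‖ ≤
        2 * X * (Q : ℝ) ^ (-(1 / 8) : ℝ) := by
  obtain ⟨S, hS⟩ : ∃ S, S = minorSet Q M J := ⟨_, rfl⟩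
  obtain ⟨err, herr⟩ : ∃ err : ℕ → ℂ, err = fun n : ℕ =>
      (∑ h ∈ S, trigSum (fun i => (Λ i : ℂ)) X ((h : ℝ) / M) ^ 2 * eAdd (-(n * ((h : ℝ) / M)))) / M := ⟨_, rfl⟩
  have hQ' : (2 : ℝ) ≤ Q := by exact_mod_cast hQ
  have hQ0 : (0 : ℝ) < Q := by linarith
  have hM0 := hP.M_pos
  have hM0' : 0 < M := by exact_mod_cast hM0
  have hX1 : 1 ≤ X := by linarith [hP.two_le]
  have hX' : (0 : ℝ) < X := Nat.cast_pos.2 hX1
  obtain ⟨B, hB⟩ : ∃ B : ℝ, B = 28000 * X * Real.log X ^ 4 / √(Q : ℝ) := ⟨_, rfl⟩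
  have hminor : ∀ h ∈ S, ‖trigSum (fun i => (Λ i : ℂ)) X ((h : ℝ) / M)‖ ≤ B := fun h hh =>
    hB ▸ norm_minor_trig_le hP hQ hQX hl (hS ▸ hh)
  have hsq := sum_sq_minor_le (fun i => (Λ i : ℂ)) (X := X) (M := M)
    (lt_of_le_of_lt (Nat.le_add_right X H) hP.add_lt) S (hS ▸ sdiff_subset) hminor
  obtain ⟨E, hE⟩ : ∃ E, E = (Icc 1 X).filter fun n => (X : ℝ) * (Q : ℝ) ^ (-(1 / 8) : ℝ) < ‖err n‖ := ⟨_, rfl⟩
  refine ⟨E, ?_, fun n hn hnE => ?_⟩
  · have h1 : (E.card : ℝ) * ((X : ℝ) * (Q : ℝ) ^ (-(1 / 8) : ℝ)) ^ 2 ≤ B ^ 2 * (6 * X * Real.log X) := by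
      refine le_trans ?_ (show ∑ n ∈ Icc 1 X, ‖err n‖ ^ 2 ≤ B ^ 2 * (6 * X * Real.log X) by
        rw [herr]
        exact hsq.trans (mul_le_mul_of_nonneg_left (sum_sq_lambda_le X) (sq_nonneg B)))
      rw [← nsmul_eq_mul]
      refine le_trans (card_nsmul_le_sum _ _ _ fun n hn => ?_) (sum_le_sum_of_subset_of_nonneg
        (hE ▸ filter_subset _ _) fun n _ _ => sq_nonneg ‖err n‖)
      rw [hE, mem_filter] at hn
      exact pow_le_pow_left₀ (by positivity) hn.2.le 2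
    rw [← le_div_iff₀ (by positivity)] at h1
    refine h1.trans ?_
    have hQr : ((Q : ℝ) ^ (-(1 / 8) : ℝ)) ^ 2 = (Q : ℝ) ^ (-(1 / 4) : ℝ) := by
      rw [← Real.rpow_mul_natCast hQ0.le]
      norm_num
    have e : B ^ 2 * (6 * X * Real.log X) / ((X : ℝ) * (Q : ℝ) ^ (-(1 / 8) : ℝ)) ^ 2 =
        28000 ^ 2 * 6 * Real.log X ^ 9 * (X / ((Q : ℝ) * (Q : ℝ) ^ (-(1 / 4) : ℝ))) := by
      rw [hB, mul_pow _ _ 2, hQr, div_pow, Real.sq_sqrt hQ0.le]
      field_simp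
    rw [e]
    refine (mul_le_mul_of_nonneg_right hsmall (by positivity)).trans (le_of_eq ?_)
    rw [show (Q : ℝ) * (Q : ℝ) ^ (-(1 / 4) : ℝ) = (Q : ℝ) ^ (3 / 4 : ℝ) by
      rw [← Real.rpow_one_add' hQ0.le (by norm_num)]; norm_num, mul_div_assoc', mul_comm _ (X : ℝ), mul_div_assoc,
      ← Real.rpow_sub hQ0]
    norm_num
  have hnX := (mem_Icc.1 hn).2
  have herrn : ‖err n‖ ≤ (X : ℝ) * (Q : ℝ) ^ (-(1 / 8) : ℝ) := by
    by_contra hlt
    exact hnE (hE ▸ mem_filter.2 ⟨hn, not_le.1 hlt⟩)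
  have e : pairSum (fun i => (Λ i : ℂ)) X n = err n + majorSum Q X M J n := by
    rw [pairSum_eq_major_add_minor (Q := Q) hP hnX, herr, hS, add_comm]
  rw [e, add_sub_assoc]
  refine (norm_add_le _ _).trans ?_
  linarith [norm_majorSum_sub_le hP hQ hQX hl hsmall' hnX]

end FA.MontgomeryVaughan

end
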