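import Fermat.Agent.MontgomeryVaughan.MainTerms
import Fermat.Agent.MontgomeryVaughan.Parameters

/-!
# The formula for the sum over pairs

Outside a small set the sum over pairs is the singular series times `n - 1`, up to `ε n / φ n X`; or, in the
presence of an exceptional zero, that less two cross terms plus the square of the exceptional model, up to
`n / φ n X (ε (1 - β) log Q + Q ^ (-1/9))`.
-/

set_option autoImplicit false
set_option linter.unusedSectionVars false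

noncomputable section

open Finset Complex ArithmeticFunction Filter
open FA.ThreePrimes (eAdd trigSum)
open FA.AlmostGoldbach (pairSum)
open FA.Gallagher (family mem_family card_family_le lfun lfun_eq psiInt mainTerm excG)
open scoped Real Classical Topology

namespace FA.MontgomeryVaughan

/-- Replacing the character sums by their models. -/
theorem norm_models_sub_le {X Q H M J Y : ℕ} (hP : Params X Q H M J Y) (hQ : 2 ≤ Q)
    (hQX : (Q : ℝ) ^ 40 ≤ X) (hl : 1 ≤ Real.log X) (w : (Σ r : ℕ, DirichletCharacter ℂ r) → ℕ → ℝ)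
    (hw : ∀ u i, 1 ≤ i → |w u i| ≤ 1)
    (hT : ∑ u ∈ family Q, arcNorm M J (fun x => trigSum (model w u) X x) ≤ 2 * √(X : ℝ))
    {b : (Σ r : ℕ, DirichletCharacter ℂ r) → ℝ} (hb : ∀ u, 0 ≤ b u) {S : ℝ} (hS : ∑ u ∈ family Q, b u ≤ S)
    (hη : 2 * S + 13 * Real.log X / Q ≤ 1)
    (hwin : ∀ u ∈ family Q, ∀ s : ℕ, Y ≤ s → s + H ≤ X →
      ‖psiInt u s H - mainTerm u H + ((∑ i ∈ Ioc s (s + H), w u i : ℝ) : ℂ)‖ ≤ H * b u + 1)
    {n : ℕ} (hn : n ≠ 0) :
    ‖∑ u ∈ family Q, ∑ v ∈ family Q, pairCoef u v Q n * arcInt M J (charSum u X) (charSum v X) n -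
        ∑ u ∈ family Q, ∑ v ∈ family Q, pairCoef u v Q n *
          arcInt M J (fun x => trigSum (model w u) X x) (fun x => trigSum (model w v) X x) n‖ ≤
      20 * pairZ * ratio n * X * (2 * S + 13 * Real.log X / Q) := by
  obtain ⟨η, hηdef⟩ : ∃ η : ℝ, η = 2 * S + 13 * Real.log X / Q := ⟨_, rfl⟩
  rw [← hηdef] at hη ⊢
  have hQ' : (2 : ℝ) ≤ Q := by exact_mod_cast hQ
  have hX0 : (0 : ℝ) < X := Nat.cast_pos.2 (by linarith [hP.two_le])
  have hH0 : (0 : ℝ) < H := Nat.cast_pos.2 hP.H_pos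
  have hS0 : 0 ≤ S := le_trans (sum_nonneg fun u _ => hb u) hS
  have hη0 : 0 ≤ η := by rw [hηdef]; positivity
  have hV : ∑ u ∈ family Q, arcNorm M J (fun x => trigSum (residual w u) X x) ≤ √(X : ℝ) * η := by
    refine (sum_le_sum fun u hu => arcNorm_residual_le hP.H_pos hP.add_lt hP.mul_le hP.two_mul_lt hl w u
      (hw u) (hb u) (hwin u hu)).trans ?_
    rw [sum_add_distrib, sum_const, ← mul_sum, sum_add_distrib, sum_const, nsmul_eq_mul, nsmul_eq_mul]
    have hc : ((family Q).card : ℝ) ≤ (Q : ℝ) ^ 2 := card_family_le Q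
    have hX1 : (Q : ℝ) ^ 11 ≤ X := (pow_le_pow_right₀ (by linarith) (by norm_num)).trans hQX
    have h1 : ((family Q).card : ℝ) * (1 / H) ≤ Real.log X / (2 * Q) := by
      refine (mul_le_mul hc (one_div_le_one_div_of_le (by positivity) hP.half_le_H) (by positivity)
        (sq_nonneg _)).trans ?_
      rw [one_div_div, mul_div_assoc', div_le_div_iff₀ hX0 (by positivity)]
      calc (Q : ℝ) ^ 2 * (2 * (Q : ℝ) ^ 8) * (2 * Q) = 4 * (Q : ℝ) ^ 11 := by ring
        _ ≤ (Q : ℝ) ^ 2 * (Q : ℝ) ^ 11 := by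
            refine mul_le_mul_of_nonneg_right ?_ (by positivity)
            nlinarith
        _ = (Q : ℝ) ^ 13 := by ring
        _ ≤ X := (pow_le_pow_right₀ (by linarith) (by norm_num)).trans hQX
        _ ≤ _ := le_mul_of_one_le_left hX0.le hl
    have h2 : √((Y + 2 * H : ℕ) : ℝ) ≤ 2 * √(X : ℝ) / (Q : ℝ) ^ 3 := by
      refine (Real.sqrt_le_sqrt hP.tail_le).trans (le_of_eq ?_)
      rw [Real.sqrt_div' _ (by positivity), show (Q : ℝ) ^ 6 = ((Q : ℝ) ^ 3) ^ 2 by ring,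
        Real.sqrt_sq (by positivity), Real.sqrt_mul' _ hX0.le, show (4 : ℝ) = 2 ^ 2 by norm_num,
        Real.sqrt_sq two_pos.le]
    have h3 : ((family Q).card : ℝ) * (6 * Real.log X * √((Y + 2 * H : ℕ) : ℝ)) ≤
        √(X : ℝ) * (12 * Real.log X / Q) := by
      refine (mul_le_mul hc (mul_le_mul_of_nonneg_left h2 (by linarith)) (by positivity) (sq_nonneg _)).trans
        (le_of_eq ?_)
      field_simp
      ring
    rw [hηdef]
    have h4 := mul_le_mul_of_nonneg_left (add_le_add hS h1) (show 0 ≤ 2 * √(X : ℝ) by positivity)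
    have e4 : √(X : ℝ) * (2 * S + 13 * Real.log X / Q) =
        2 * √(X : ℝ) * (S + Real.log X / (2 * Q)) + √(X : ℝ) * (12 * Real.log X / Q) := by ring
    rw [e4]
    exact add_le_add h4 h3
  have hA : ∀ u ∈ family Q, ∀ v ∈ family Q, ‖pairCoef u v Q n‖ ≤ 4 * pairZ * ratio n := fun u hu v hv => by
    obtain ⟨hu1, -, hu2⟩ := mem_family.1 hu
    obtain ⟨hv1, -, hv2⟩ := mem_family.1 hv
    have : NeZero u.1 := ⟨by omega⟩
    have : NeZero v.1 := ⟨by omega⟩
    exact norm_pairCoef_le u v hu2 hv2 Q hn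
  simp only [charSum_eq w]
  have hpz := one_le_pairZ
  have hρ := one_le_ratio n
  refine (norm_pairs_sub_le (family Q) (fun u v => pairCoef u v Q n) hA (fun u x => trigSum (model w u) X x)
    (fun u x => trigSum (residual w u) X x) M J n).trans ?_
  have hV0 : 0 ≤ ∑ u ∈ family Q, arcNorm M J (fun x => trigSum (residual w u) X x) :=
    sum_nonneg fun u _ => arcNorm_nonneg _ _ _
  refine (mul_le_mul_of_nonneg_left (add_le_add (mul_le_mul (mul_le_mul_of_nonneg_left hT zero_le_two) hV hV0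
    (by positivity)) (pow_le_pow_left₀ hV0 hV 2)) (by positivity)).trans ?_
  rw [mul_pow, Real.sq_sqrt hX0.le, show 2 * (2 * √(X : ℝ)) * (√(X : ℝ) * η) = 4 * η * (√(X : ℝ) * √(X : ℝ)) by ring,
    Real.mul_self_sqrt hX0.le]
  have h5 := mul_le_mul_of_nonneg_left hη (show 0 ≤ 4 * pairZ * ratio n * X * η by positivity)
  linarith

/-- The sum over pairs is supported where the functions are. -/
theorem sum_pairs_eq {ι : Type*} [DecidableEq ι] {s t : Finset ι} (ht : t ⊆ s) (A : ι → ι → ℂ)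
    (T : ι → ℝ → ℂ) (hT : ∀ u ∈ s, u ∉ t → ∀ x, T u x = 0) (M J n : ℕ) :
    ∑ u ∈ s, ∑ v ∈ s, A u v * arcInt M J (T u) (T v) n =
      ∑ u ∈ t, ∑ v ∈ t, A u v * arcInt M J (T u) (T v) n := by
  refine (sum_subset ht fun u hu hu' => sum_eq_zero fun v _ => ?_).symm.trans
    (sum_congr rfl fun u _ => (sum_subset ht fun v hv hv' => ?_).symm)
  · simp [arcInt, hT u hu hu']
  · simp [arcInt, hT v hv hv']

theorem arcInt_neg_right (M J : ℕ) (f g : ℝ → ℂ) (n : ℕ) :
    arcInt M J f (fun x => -g x) n = -arcInt M J f g n := by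
  simp [arcInt, neg_div]

theorem arcInt_neg_neg (M J : ℕ) (f g : ℝ → ℂ) (n : ℕ) :
    arcInt M J (fun x => -f x) (fun x => -g x) n = arcInt M J f g n := by
  simp [arcInt]

theorem arcInt_comm (M J : ℕ) (f g : ℝ → ℂ) (n : ℕ) : arcInt M J f g n = arcInt M J g f n := by
  simp only [arcInt, mul_comm (f _) (g _)]

/-- A model's mean square on the arc. -/
theorem arcNorm_model_le {a : ℕ → ℂ} {X M J : ℕ} (hXM : X < M) (hJ : 2 * J < M)
    (ha : ∀ i, 1 ≤ i → ‖a i‖ ≤ 1) : arcNorm M J (fun x => trigSum a X x) ≤ √(X : ℝ) := by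
  refine (arcNorm_trig_le a hXM hJ).trans (Real.sqrt_le_sqrt ?_)
  refine (sum_le_card_nsmul _ _ (1 : ℝ) fun i hi => ?_).trans (le_of_eq (by simp))
  exact pow_le_one₀ (norm_nonneg _) (ha i (mem_Icc.1 hi).1)

/-- The arc and the whole interval, for a model. -/
theorem norm_smooth_sub_le {X Q H M J Y : ℕ} (hP : Params X Q H M J Y) (hQ : 2 ≤ Q) (hl : 1 ≤ Real.log X)
    {f : ℕ → ℝ} (hf : ∀ i, 1 ≤ i → i ≤ X → 0 ≤ f i ∧ f i ≤ 1)
    (hanti : ∀ i, 1 ≤ i → i < X → f (i + 1) ≤ f i) {n : ℕ} (hn : n ≤ X) :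
    ‖arcInt M J (fun x => trigSum (fun i => (f i : ℂ)) X x) (fun x => trigSum (fun i => (f i : ℂ)) X x) n -
        pairSum (fun i => (f i : ℂ)) X n‖ ≤ 92 * X * Real.log X / Q := by
  have hX2 := hP.two_le
  have hX0 : (0 : ℝ) < X := Nat.cast_pos.2 (by omega)
  have hH0 : (0 : ℝ) < H := Nat.cast_pos.2 hP.H_pos
  have hJ0 : (0 : ℝ) < J := Nat.cast_pos.2 hP.J_pos
  have hM0 := hP.M_pos
  have h3 : 3 * X ≤ M := by
    have := hP.cube_le
    have : X ≤ X ^ 3 := Nat.le_self_pow (by norm_num) X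
    omega
  refine (norm_arcInt_sub_le (by omega) h3 hP.two_mul_lt hP.J_pos hf hanti hn).trans ?_
  have h1 : (M : ℝ) / (2 * J) ≤ 4 * X / Q := by
    have h4 := hP.gap_ge
    rw [div_le_div_iff₀ (by positivity) hM0, one_mul] at h4
    rw [div_le_iff₀ (by positivity)]
    have h5 : (H : ℝ) ≤ X / Q := hP.H_le.trans (div_le_div_of_nonneg_left hX0.le (by positivity)
      (le_self_pow₀ (by exact_mod_cast (show 1 ≤ Q by omega)) (by norm_num)))
    have h6 := mul_le_mul_of_nonneg_left h5 (show 0 ≤ 8 * (J : ℝ) by positivity)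
    rw [show 4 * (X : ℝ) / Q * (2 * J) = 8 * J * (X / Q) by ring]
    linarith
  have h2 : 5 / (2 * (J : ℝ)) + 2 * (1 + Real.log M) ≤ 23 * Real.log X := by
    have h7 : 5 / (2 * (J : ℝ)) ≤ 5 / 2 := by
      refine div_le_div_of_nonneg_left (by norm_num) two_pos ?_
      have : (1 : ℝ) ≤ J := Nat.one_le_cast.2 hP.J_pos
      linarith
    have h8 : Real.log M ≤ 6 + 3 * Real.log X := by
      refine (Real.log_le_log hM0 hP.M_le).trans ?_
      rw [Real.log_mul (by norm_num) (by positivity), Real.log_pow]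
      have h9 : Real.log 144 ≤ 8 * Real.log 2 := by
        rw [← Nat.cast_ofNat (n := 8), ← Real.log_pow]
        exact Real.log_le_log (by norm_num) (by norm_num)
      push_cast
      linarith [Real.log_two_lt_d9]
    linarith
  refine (mul_le_mul h1 h2 (add_nonneg (by positivity) (mul_nonneg zero_le_two
    (add_nonneg zero_le_one (Real.log_natCast_nonneg M)))) (by positivity)).trans (le_of_eq ?_)
  ring

/-- What the level satisfies. -/
structure LevelBounds (X Q : ℕ) : Prop where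
  two_le : 2 ≤ Q
  pow_le : (Q : ℝ) ^ 40 ≤ X
  one_le_log : 1 ≤ Real.log X
  log_nine_le : 28000 ^ 2 * 6 * Real.log X ^ 9 ≤ (Q : ℝ) ^ (1 / 4 : ℝ)
  log_four_le : 700 * Real.log X ^ 4 ≤ (Q : ℝ)

/-- **The formula, for every `n`**, of whatever is within `2 X Q ^ (-1/8)` of the sum over pairs of characters. -/
theorem exists_formula_pairs {ε : ℝ} (hε : 0 < ε) : ∃ K : ℕ, 40 ≤ K ∧ ∀ᶠ X : ℕ in atTop, ∀ Q, Q = level K X →
    ∃ H M J Y : ℕ, Params X Q H M J Y ∧ LevelBounds X Q ∧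
      ((∀ n ∈ Icc 2 X, ∀ P : ℂ, ‖P -
          ∑ u ∈ family Q, ∑ v ∈ family Q, pairCoef u v Q n * arcInt M J (charSum u X) (charSum v X) n‖ ≤
            2 * X * (Q : ℝ) ^ (-(1 / 8) : ℝ) →
          ‖P - pairCoef unitChar unitChar Q n * (((n : ℝ) - 1 : ℝ) : ℂ)‖ ≤ ε * ratio n * X) ∨
        ∃ u ∈ family Q, u.2 ≠ 1 ∧ u.2 ^ 2 = 1 ∧ ∃ β : ℝ, lfun u β = 0 ∧ 1 / 2 < β ∧ β < 1 ∧
          (1 - β) * Real.log Q ≤ 1 ∧ ∀ n ∈ Icc 2 X, ∀ P : ℂ, ‖P -
            ∑ u ∈ family Q, ∑ v ∈ family Q, pairCoef u v Q n * arcInt M J (charSum u X) (charSum v X) n‖ ≤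
              2 * X * (Q : ℝ) ^ (-(1 / 8) : ℝ) →
          ∃ I I' : ℂ, ‖I‖ ≤ X ∧
            ‖I'‖ ≤ ((n : ℝ) - 1) * Real.exp (-((1 - β) * Real.log ((n : ℝ) / 2))) ∧
            ‖P - (pairCoef unitChar unitChar Q n * (((n : ℝ) - 1 : ℝ) : ℂ) -
                2 * pairCoef unitChar u Q n * I + pairCoef u u Q n * I')‖ ≤
              ratio n * X * (ε * ((1 - β) * Real.log Q) + (Q : ℝ) ^ (-(1 / 9) : ℝ))) := by
  obtain ⟨C, c, M₀, hC, hc, hgal⟩ := exists_gallagher_uniform 9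
  have hpz := one_le_pairZ
  obtain ⟨K, hKdef⟩ : ∃ K : ℕ, K = 40 + M₀ + ⌈(160 * pairZ * C / ε + 4 * C) / c⌉₊ := ⟨_, rfl⟩
  have hK0 : 0 < K := by omega
  refine ⟨K, by omega, ?_⟩
  obtain ⟨Cd, hCd⟩ : ∃ Cd : ℝ, Cd = C * Real.exp (-(c * ((K : ℝ) - 6))) := ⟨_, rfl⟩
  have hKbig : (160 * pairZ * C / ε + 4 * C) / c ≤ (K : ℝ) - 6 := by
    have h1 := Nat.le_ceil ((160 * pairZ * C / ε + 4 * C) / c)
    have h2 : ((⌈(160 * pairZ * C / ε + 4 * C) / c⌉₊ + 40 : ℕ) : ℝ) ≤ K := Nat.cast_le.2 (by omega)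
    push_cast at h2
    linarith
  rw [div_le_iff₀ hc] at hKbig
  have hx0 : 0 < 160 * pairZ * C / ε + 4 * C := by positivity
  have hCd' : Cd ≤ C / (160 * pairZ * C / ε + 4 * C) := by
    rw [hCd, Real.exp_neg, ← div_eq_mul_inv]
    refine div_le_div_of_nonneg_left (by linarith) hx0 ?_
    linarith [Real.add_one_le_exp (c * ((K : ℝ) - 6))]
  have hCd0 : 0 ≤ Cd := hCd ▸ mul_nonneg (by linarith) (Real.exp_pos _).le
  have hCd1 : 40 * pairZ * Cd ≤ ε / 4 ∧ Cd ≤ 1 / 4 := by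
    rw [le_div_iff₀ hx0] at hCd'
    have e : ε * (160 * pairZ * C / ε) = 160 * pairZ * C := mul_div_cancel₀ _ hε.ne'
    have p : 0 ≤ 160 * pairZ * C / ε := by positivity
    refine ⟨?_, ?_⟩
    · have h1 : Cd * (160 * pairZ * C) ≤ C * ε := by
        have := mul_le_mul_of_nonneg_left hCd' hε.le
        have := mul_nonneg hε.le (mul_nonneg hCd0 (show 0 ≤ 4 * C by linarith))
        rw [← e]
        linarith
      have : 40 * pairZ * Cd * (4 * C) ≤ ε / 4 * (4 * C) := by linarith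
      exact le_of_mul_le_mul_right this (by linarith)
    · have := mul_nonneg hCd0 p
      refine le_of_mul_le_mul_right (a := 4 * C) ?_ (by linarith)
      linarith
  filter_upwards [(tendsto_level hK0).eventually_ge_atTop 2, eventually_log_le hK0,
    eventually_log_pow_le hK0 9 (28000 ^ 2 * 6) (show (0 : ℝ) < 1 / 4 by norm_num),
    eventually_log_pow_le hK0 4 700 one_pos, eventually_log_pow_le hK0 1 26 one_pos,
    eventually_log_pow_le hK0 1 (996 * pairZ) (show (0 : ℝ) < 1 / 2 by norm_num),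
    eventually_log_pow_le hK0 0 (6 / ε) (show (0 : ℝ) < 1 / 8 by norm_num),
    eventually_log_pow_le hK0 0 3 (show (0 : ℝ) < 1 / 72 by norm_num),
    (Real.tendsto_log_atTop.comp tendsto_natCast_atTop_atTop).eventually_ge_atTop 1] with
    X hQ2 hlog hs9 hs4 hs1 hs2 hs3 hs5 hl Q hQeq
  rw [← hQeq] at hQ2 hlog hs9 hs4 hs1 hs2 hs3 hs5
  rw [pow_one] at hs1 hs2
  rw [pow_zero, mul_one] at hs3 hs5
  rw [Real.rpow_one] at hs4 hs1
  simp only [Function.comp_apply] at hl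
  obtain ⟨hlX, hlX2⟩ := hlog
  have hQ' : (2 : ℝ) ≤ Q := by exact_mod_cast hQ2
  have hQ0 : (0 : ℝ) < Q := by linarith
  have hQK : (Q : ℝ) ^ K ≤ X := hQeq ▸ (level_bounds hK0 (hQeq ▸ by omega)).1
  have hQX : (Q : ℝ) ^ 40 ≤ X := (pow_le_pow_right₀ (by linarith) (by omega)).trans hQK
  obtain ⟨H, hH⟩ : ∃ H, H = X / Q ^ 8 := ⟨_, rfl⟩
  obtain ⟨M, hM⟩ : ∃ M, M = 144 * X ^ 3 := ⟨_, rfl⟩
  obtain ⟨J, hJ⟩ : ∃ J, J = M / (6 * H) := ⟨_, rfl⟩
  obtain ⟨Y, hY⟩ : ∃ Y, Y = X / Q ^ 6 + 1 := ⟨_, rfl⟩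
  have hP : Params X Q H M J Y := by
    subst hJ hH hM hY
    exact params_default hQ2 hQX
  refine ⟨H, M, J, Y, hP, ⟨hQ2, hQX, hl, hs9, hs4⟩, ?_⟩
  have hYQ : (Q : ℝ) ^ (K - 6) ≤ Y := by
    refine le_trans ?_ hP.le_Y
    rw [le_div_iff₀ (by positivity), ← pow_add, Nat.sub_add_cancel (by omega)]
    exact hQK
  obtain ⟨b, hb, hcases⟩ := hgal Q hQ2 Y X H ((pow_le_pow_right₀ (by linarith) (by omega)).trans hYQ)
    (Nat.cast_le.2 hP.Y_le) hlX2 hP.le_H (Nat.cast_le.2 hP.H_le_Y)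
  have hlQ : 0 < Real.log Q := Real.log_pos (by linarith)
  have hexp : C * Real.exp (-(c * (Real.log Y / Real.log Q))) ≤ Cd := by
    rw [hCd]
    refine mul_le_mul_of_nonneg_left (Real.exp_le_exp.2 (neg_le_neg (mul_le_mul_of_nonneg_left ?_ hc.le)))
      (by linarith)
    rw [le_div_iff₀ hlQ, show (6 : ℝ) = ((6 : ℕ) : ℝ) by norm_num, ← Nat.cast_sub (by omega), ← Real.log_pow]
    exact Real.log_le_log (by positivity) hYQ
  have hunit := unitChar_mem (show 1 ≤ Q by omega)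
  have hXM : X < M := lt_of_le_of_lt (Nat.le_add_right X H) hP.add_lt
  have h13 : 13 * Real.log X / Q ≤ 1 / 2 := by
    rw [div_le_iff₀ hQ0]
    linarith
  obtain ⟨g, hg⟩ : ∃ g : ℝ → ℂ, g = fun x => trigSum (fun _ : ℕ => ((1 : ℝ) : ℂ)) X x := ⟨_, rfl⟩
  have hone : ∀ n ∈ Icc 2 X, ‖arcInt M J g g n - (((n : ℝ) - 1 : ℝ) : ℂ)‖ ≤ 92 * X * Real.log X / Q :=
    fun n hn => by
    rw [mem_Icc] at hn
    have h := norm_smooth_sub_le hP hQ2 hl (f := fun _ => 1) (fun _ _ _ => ⟨zero_le_one, le_rfl⟩)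
      (fun _ _ _ => le_rfl) hn.2
    simp only [Complex.ofReal_one] at h hg
    rw [FA.AlmostGoldbach.pairSum_one (by omega) hn.2] at h
    rw [hg]
    exact h
  have hsmall : 20 * pairZ * (13 * Real.log X / Q) + 736 * pairZ * Real.log X / Q + 2 * (Q : ℝ) ^ (-(1 / 8) : ℝ) ≤
      3 * (Q : ℝ) ^ (-(1 / 8) : ℝ) := by
    have h1 : 996 * pairZ * Real.log X / Q ≤ (Q : ℝ) ^ (-(1 / 8) : ℝ) := by
      refine (div_le_div_of_nonneg_right hs2 hQ0.le).trans ?_
      rw [← Real.rpow_sub_one hQ0.ne']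
      exact Real.rpow_le_rpow_of_exponent_le (by linarith) (by norm_num)
    have e : 20 * pairZ * (13 * Real.log X / Q) + 736 * pairZ * Real.log X / Q =
        996 * pairZ * Real.log X / Q := by ring
    linarith
  have hneg : (Q : ℝ) ^ (-(1 / 8) : ℝ) * (Q : ℝ) ^ (1 / 8 : ℝ) = 1 := by
    rw [← Real.rpow_add hQ0]; norm_num
  rcases hcases with ⟨hbsum, hwin⟩ | ⟨u, hu, hu1, hu2, β, hz, hβ, hδ, hbsum, hwin⟩
  · refine Or.inl fun n hn P h2 => ?_
    have hn' := mem_Icc.1 hn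
    have hn0 : n ≠ 0 := by omega
    obtain ⟨w, hw⟩ : ∃ w : (Σ r : ℕ, DirichletCharacter ℂ r) → ℕ → ℝ, w = fun _ _ => 0 := ⟨_, rfl⟩
    have hzero : ∀ v ∈ family Q, v ∉ ({unitChar} : Finset _) → ∀ x, trigSum (model w v) X x = 0 := by
      intro v hv hv' x
      obtain ⟨hv1, -, hv2⟩ := mem_family.1 hv
      have : v.2 ≠ 1 := fun h => hv' (mem_singleton.2 (eq_unitChar hv1 hv2 h))
      simp [trigSum, model, hw, this]
    have hTu : (fun x => trigSum (model w unitChar) X x) = g := by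
      funext x
      simp only [hg, trigSum, model, hw, Complex.ofReal_zero, sub_zero, Complex.ofReal_one]
      exact sum_congr rfl fun i _ => by rw [if_pos (show unitChar.2 = 1 from rfl)]
    have hT : ∑ v ∈ family Q, arcNorm M J (fun x => trigSum (model w v) X x) ≤ 2 * √(X : ℝ) := by
      rw [← sum_subset (singleton_subset_iff.2 hunit) fun v hv hv' => by simp [arcNorm, hzero v hv hv'],
        sum_singleton]
      refine (arcNorm_model_le hXM hP.two_mul_lt fun i _ => ?_).trans (le_mul_of_one_le_left (by positivity)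
        one_le_two)
      simp only [model, hw, if_pos (show unitChar.2 = 1 from rfl), Complex.ofReal_zero, sub_zero, norm_one, le_refl]
    have hS : ∑ v ∈ family Q, b v ≤ Cd := hbsum.trans hexp
    have hm := norm_models_sub_le hP hQ2 hQX hl w (fun _ _ _ => by simp [hw]) hT hb hS
      (by linarith [hCd1.2]) (fun v hv s hs hs' => by
        have h := hwin v hv s (Nat.cast_le.2 hs) (Nat.cast_le.2 (by omega))
        simp only [hw, sum_const_zero, Complex.ofReal_zero, add_zero]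
        linarith) hn0
    rw [sum_pairs_eq (singleton_subset_iff.2 hunit) (fun u v => pairCoef u v Q n)
      (fun v x => trigSum (model w v) X x) hzero, sum_singleton, sum_singleton, hTu] at hm
    have hA : ‖pairCoef unitChar unitChar Q n‖ ≤ 4 * pairZ * ratio n :=
      norm_pairCoef_le unitChar unitChar unitChar_isPrimitive unitChar_isPrimitive Q hn0
    have h1 := mul_le_mul hA (hone n hn) (norm_nonneg _) ((norm_nonneg _).trans hA)
    rw [← norm_mul, mul_sub] at h1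
    refine (norm_sub_le_norm_sub_add_norm_sub _ _ _).trans ((add_le_add h2
      ((norm_sub_le_norm_sub_add_norm_sub _ _ _).trans (add_le_add hm h1))).trans ?_)
    have hρ := one_le_ratio n
    have hρX : 0 ≤ ratio n * X := mul_nonneg (by linarith) (Nat.cast_nonneg X)
    have h3 : 2 * (X : ℝ) * (Q : ℝ) ^ (-(1 / 8) : ℝ) ≤ ratio n * X * (2 * (Q : ℝ) ^ (-(1 / 8) : ℝ)) := by
      have := mul_le_mul_of_nonneg_right hρ (show 0 ≤ 2 * (X : ℝ) * (Q : ℝ) ^ (-(1 / 8) : ℝ) by positivity)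
      linarith
    have h4 : 3 * (Q : ℝ) ^ (-(1 / 8) : ℝ) ≤ ε / 2 := by
      rw [div_le_iff₀ hε] at hs3
      refine le_of_mul_le_mul_right (a := (Q : ℝ) ^ (1 / 8 : ℝ)) ?_ (by positivity)
      rw [mul_assoc, hneg]
      linarith
    have h5 := mul_le_mul_of_nonneg_left (show 20 * pairZ * (2 * Cd + 13 * Real.log X / Q) +
      368 * pairZ * Real.log X / Q + 2 * (Q : ℝ) ^ (-(1 / 8) : ℝ) ≤ ε by
        have : 0 ≤ 368 * pairZ * Real.log X / Q := by positivity
        linarith [hCd1.1, show 736 * pairZ * Real.log X / Q = 2 * (368 * pairZ * Real.log X / Q) by ring]) hρX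
    linarith [show 4 * pairZ * ratio n * (92 * X * Real.log X / Q) =
      ratio n * X * (368 * pairZ * Real.log X / Q) by ring]
  · obtain ⟨hu0, -, huprim⟩ := mem_family.1 hu
    have : NeZero u.1 := ⟨by omega⟩
    have hβ1 : β < 1 := by
      rw [lfun_eq] at hz
      simpa using FA.LinnikPrime.re_lt_one_of_clear hz
    have hneu : unitChar ≠ u := fun h => hu1 (by rw [← h]; rfl)
    refine Or.inr ⟨u, hu, hu1, hu2, β, hz, hβ, hβ1, hδ, fun n hn P h2 => ?_⟩
    have hn' := mem_Icc.1 hn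
    have hn0 : n ≠ 0 := by omega
    obtain ⟨f, hf⟩ : ∃ f : ℕ → ℝ, f = fun i : ℕ => (i : ℝ) ^ (β - 1) := ⟨_, rfl⟩
    have hf01 : ∀ i : ℕ, 1 ≤ i → 0 ≤ f i ∧ f i ≤ 1 := fun i hi => by
      rw [hf]
      exact ⟨Real.rpow_nonneg (Nat.cast_nonneg i) _,
        Real.rpow_le_one_of_one_le_of_nonpos (Nat.one_le_cast.2 hi) (by linarith)⟩
    have hanti : ∀ i : ℕ, 1 ≤ i → i < X → f (i + 1) ≤ f i := fun i hi _ => by
      rw [hf]
      exact Real.rpow_le_rpow_of_nonpos (Nat.cast_pos.2 hi) (by push_cast; linarith) (by linarith)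
    obtain ⟨ge, hge⟩ : ∃ ge : ℝ → ℂ, ge = fun x => trigSum (fun i => (f i : ℂ)) X x := ⟨_, rfl⟩
    obtain ⟨w, hw⟩ : ∃ w : (Σ r : ℕ, DirichletCharacter ℂ r) → ℕ → ℝ,
        w = fun v i => if v = u then f i else 0 := ⟨_, rfl⟩
    have hwle : ∀ v i, 1 ≤ i → |w v i| ≤ 1 := fun v i hi => by
      rw [hw]
      dsimp only
      split_ifs
      · rw [abs_of_nonneg (hf01 i hi).1]; exact (hf01 i hi).2
      · simp
    have hzero : ∀ v ∈ family Q, v ∉ ({unitChar, u} : Finset _) → ∀ x, trigSum (model w v) X x = 0 := by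
      intro v hv hv' x
      rw [mem_insert, mem_singleton, not_or] at hv'
      obtain ⟨hv1, -, hv2⟩ := mem_family.1 hv
      have : v.2 ≠ 1 := fun h => hv'.1 (eq_unitChar hv1 hv2 h)
      simp [trigSum, model, hw, this, hv'.2]
    have hTu : (fun x => trigSum (model w unitChar) X x) = g := by
      funext x
      simp only [hg, trigSum, model, hw, if_neg hneu, Complex.ofReal_zero, sub_zero, Complex.ofReal_one]
      exact sum_congr rfl fun i _ => by rw [if_pos (show unitChar.2 = 1 from rfl)]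
    have hTe : (fun x => trigSum (model w u) X x) = fun x => -ge x := by
      funext x
      simp [hge, trigSum, model, hw, hu1]
    have hpairset : ({unitChar, u} : Finset _) ⊆ family Q := by
      intro v hv
      rw [mem_insert, mem_singleton] at hv
      rcases hv with rfl | rfl <;> assumption
    have hgn : arcNorm M J g ≤ √(X : ℝ) := hg ▸ arcNorm_model_le hXM hP.two_mul_lt fun i _ => by simp
    have hgen : arcNorm M J ge ≤ √(X : ℝ) := hge ▸ arcNorm_model_le hXM hP.two_mul_lt fun i hi => by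
      rw [Complex.norm_real, Real.norm_of_nonneg (hf01 i hi).1]
      exact (hf01 i hi).2
    have hT : ∑ v ∈ family Q, arcNorm M J (fun x => trigSum (model w v) X x) ≤ 2 * √(X : ℝ) := by
      rw [← sum_subset hpairset fun v hv hv' => by simp [arcNorm, hzero v hv hv'], sum_pair hneu, hTu, hTe]
      have : arcNorm M J (fun x => -ge x) = arcNorm M J ge := by simp [arcNorm]
      linarith
    obtain ⟨d, hd⟩ : ∃ d : ℝ, d = (1 - β) * Real.log Q := ⟨_, rfl⟩
    rw [← hd] at hδ hbsum ⊢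
    have hd0 : 0 ≤ d := hd ▸ mul_nonneg (by linarith) hlQ.le
    have hS : ∑ v ∈ family Q, b v ≤ d * Cd := by
      refine hbsum.trans ?_
      rw [mul_right_comm]
      exact (mul_le_mul_of_nonneg_right hexp hd0).trans (le_of_eq (mul_comm _ _))
    have hdC : d * Cd ≤ 1 / 4 := (mul_le_of_le_one_left hCd0 hδ).trans hCd1.2
    have hm := norm_models_sub_le hP hQ2 hQX hl w hwle hT hb hS (by linarith) (fun v hv s hs hs' => by
        have h := hwin v hv s (Nat.cast_le.2 hs) (Nat.cast_le.2 (by omega))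
        have hs1 : 1 ≤ s := by linarith [hP.H_le_Y, hP.H_pos]
        by_cases hvu : v = u
        · rw [if_pos hvu] at h
          simp only [hw, if_pos hvu, hf]
          refine (norm_sub_le_norm_sub_add_norm_sub _ (psiInt v s H - mainTerm v H + (excG s H β : ℂ)) 0).trans'
            (le_of_eq (by rw [sub_zero])) |>.trans ?_
          rw [sub_zero, add_sub_add_left_eq_sub, ← Complex.ofReal_sub, Complex.norm_real, Real.norm_eq_abs,
            abs_sub_comm, add_comm]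
          exact add_le_add h (abs_excG_sub_sum_le (by linarith) hβ1.le hs1 H)
        · rw [if_neg hvu] at h
          simp only [hw, if_neg hvu, sum_const_zero, Complex.ofReal_zero, add_zero]
          rw [add_zero] at h
          linarith) hn0
    rw [sum_pairs_eq hpairset (fun u v => pairCoef u v Q n) (fun v x => trigSum (model w v) X x) hzero,
      sum_pair hneu, sum_pair hneu, sum_pair hneu, hTu, hTe, arcInt_comm M J (fun x => -ge x) g,
      arcInt_neg_right, arcInt_neg_neg, pairCoef_comm u unitChar] at hm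
    refine ⟨arcInt M J g ge n, pairSum (fun i => (f i : ℂ)) X n, ?_, ?_, ?_⟩
    · refine (norm_arcInt_le M J g ge n).trans ((mul_le_mul hgn hgen (arcNorm_nonneg _ _ _)
        (Real.sqrt_nonneg _)).trans (le_of_eq (Real.mul_self_sqrt (Nat.cast_nonneg X))))
    · rw [hf]
      exact norm_pairSum_rpow_le hβ1.le hn'.1 hn'.2
    obtain ⟨A, hAdef⟩ : ∃ A, A = pairCoef unitChar unitChar Q n := ⟨_, rfl⟩
    obtain ⟨B, hBdef⟩ : ∃ B, B = pairCoef u u Q n := ⟨_, rfl⟩
    rw [← hAdef, ← hBdef] at hm ⊢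
    have hA : ‖A‖ ≤ 4 * pairZ * ratio n :=
      hAdef ▸ norm_pairCoef_le unitChar unitChar unitChar_isPrimitive unitChar_isPrimitive Q hn0
    have hB : ‖B‖ ≤ 4 * pairZ * ratio n := hBdef ▸ norm_pairCoef_le u u huprim huprim Q hn0
    have h1 := mul_le_mul hA (hone n hn) (norm_nonneg _) ((norm_nonneg _).trans hA)
    have h1' := mul_le_mul hB (norm_smooth_sub_le hP hQ2 hl (fun i hi _ => hf01 i hi) hanti hn'.2)
      (norm_nonneg _) ((norm_nonneg _).trans hB)
    rw [← hge] at h1'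
    rw [← norm_mul] at h1 h1'
    refine (norm_sub_le_norm_sub_add_norm_sub _ _ _).trans ((add_le_add h2
      ((norm_sub_le_norm_sub_add_norm_sub _ _ _).trans (add_le_add hm ((le_of_eq_of_le ?_
        ((norm_add_le _ _).trans (add_le_add h1 h1'))))))).trans ?_)
    · congr 1
      ring
    have hρ := one_le_ratio n
    have hρX : 0 ≤ ratio n * X := mul_nonneg (by linarith) (Nat.cast_nonneg X)
    have h3 : 2 * (X : ℝ) * (Q : ℝ) ^ (-(1 / 8) : ℝ) ≤ ratio n * X * (2 * (Q : ℝ) ^ (-(1 / 8) : ℝ)) := by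
      have := mul_le_mul_of_nonneg_right hρ (show 0 ≤ 2 * (X : ℝ) * (Q : ℝ) ^ (-(1 / 8) : ℝ) by positivity)
      linarith
    have h4 : 3 * (Q : ℝ) ^ (-(1 / 8) : ℝ) ≤ (Q : ℝ) ^ (-(1 / 9) : ℝ) := by
      refine (mul_le_mul_of_nonneg_right hs5 (by positivity)).trans (le_of_eq ?_)
      rw [← Real.rpow_add hQ0]
      norm_num
    have h5 := mul_le_mul_of_nonneg_left (show 20 * pairZ * (2 * (d * Cd) + 13 * Real.log X / Q) +
      736 * pairZ * Real.log X / Q + 2 * (Q : ℝ) ^ (-(1 / 8) : ℝ) ≤ ε * d + (Q : ℝ) ^ (-(1 / 9) : ℝ) by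
        have := mul_le_mul_of_nonneg_left hCd1.1 hd0
        have : 0 ≤ ε * d := by positivity
        linarith) hρX
    refine le_trans ?_ h5
    rw [show ratio n * X * (20 * pairZ * (2 * (d * Cd) + 13 * Real.log X / Q) +
        736 * pairZ * Real.log X / Q + 2 * (Q : ℝ) ^ (-(1 / 8) : ℝ)) =
      ratio n * X * (2 * (Q : ℝ) ^ (-(1 / 8) : ℝ)) + (20 * pairZ * ratio n * X * (2 * (d * Cd) +
        13 * Real.log X / Q) + (4 * pairZ * ratio n * (92 * X * Real.log X / Q) +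
          4 * pairZ * ratio n * (92 * X * Real.log X / Q))) by ring]
    exact add_le_add h3 le_rfl

/-- **The formula**, but for few `n`. -/
theorem exists_formula {ε : ℝ} (hε : 0 < ε) : ∃ K : ℕ, 40 ≤ K ∧ ∀ᶠ X : ℕ in atTop, ∀ Q, Q = level K X →
    ∃ E : Finset ℕ, (E.card : ℝ) ≤ X * (Q : ℝ) ^ (-(1 / 2) : ℝ) ∧
      ((∀ n ∈ Icc 2 X, n ∉ E →
          ‖pairSum (fun i => (Λ i : ℂ)) X n - pairCoef unitChar unitChar Q n * (((n : ℝ) - 1 : ℝ) : ℂ)‖ ≤
            ε * ratio n * X) ∨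
        ∃ u ∈ family Q, u.2 ≠ 1 ∧ u.2 ^ 2 = 1 ∧ ∃ β : ℝ, lfun u β = 0 ∧ 1 / 2 < β ∧ β < 1 ∧
          (1 - β) * Real.log Q ≤ 1 ∧ ∀ n ∈ Icc 2 X, n ∉ E → ∃ I I' : ℂ, ‖I‖ ≤ X ∧
            ‖I'‖ ≤ ((n : ℝ) - 1) * Real.exp (-((1 - β) * Real.log ((n : ℝ) / 2))) ∧
            ‖pairSum (fun i => (Λ i : ℂ)) X n - (pairCoef unitChar unitChar Q n * (((n : ℝ) - 1 : ℝ) : ℂ) -
                2 * pairCoef unitChar u Q n * I + pairCoef u u Q n * I')‖ ≤
              ratio n * X * (ε * ((1 - β) * Real.log Q) + (Q : ℝ) ^ (-(1 / 9) : ℝ))) := by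
  obtain ⟨K, hK, hform⟩ := exists_formula_pairs hε
  refine ⟨K, hK, hform.mono fun X hX Q hQ => ?_⟩
  obtain ⟨H, M, J, Y, hP, hb, hcases⟩ := hX Q hQ
  obtain ⟨E, hEc, hE⟩ := exists_major hP hb.two_le hb.pow_le hb.one_le_log hb.log_nine_le hb.log_four_le
  refine ⟨E, hEc, ?_⟩
  have hmem : ∀ n ∈ Icc 2 X, n ∈ Icc 1 X := fun n hn => Icc_subset_Icc_left one_le_two hn
  rcases hcases with h | ⟨u, hu, hu1, hu2, β, hz, hβ, hβ1, hδ, h⟩
  · exact Or.inl fun n hn hnE => h n hn _ (hE n (hmem n hn) hnE)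
  · exact Or.inr ⟨u, hu, hu1, hu2, β, hz, hβ, hβ1, hδ, fun n hn hnE => h n hn _ (hE n (hmem n hn) hnE)⟩

end FA.MontgomeryVaughan

end
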