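import Fermat.Agent.AlmostGoldbach.Singular
import Fermat.Agent.BombieriVinogradov.Characters

/-!
# Gauss sums of any character at any frequency

`G_χ(k) = ∑_{b < q} χ(b) e(k b / q)`. Changing the level from `r` to `r m` multiplies by `χ(m) c_m(k)`
when `m` is prime to `r`, and at frequency one by `μ(m) χ(m)` always; at a frequency `g j`, `q = g d`,
`j` prime to `d`, it is at most `√d φ(q) / φ(d)`.
-/

set_option autoImplicit false
set_option linter.unusedSectionVars false

noncomputable section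

open Finset Complex ArithmeticFunction
open DirichletCharacter (changeLevel)
open FA.ThreePrimes (eAdd moebiusR ramanujan divPart unitResidues)
open scoped Real ComplexConjugate Classical

namespace FA.MontgomeryVaughan

variable {q : ℕ}

/-- `∑_{b < q} χ(b) e(k b / q)`. -/
def gauss (χ : DirichletCharacter ℂ q) (k : ℤ) : ℂ :=
  ∑ b ∈ range q, χ (b : ZMod q) * eAdd ((k : ℝ) * b / q)

theorem sum_range_eq_sum_zmod [NeZero q] (f : ℕ → ℂ) : ∑ b ∈ range q, f b = ∑ x : ZMod q, f x.val := by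
  refine Finset.sum_nbij' (fun b => (b : ZMod q)) (fun x => x.val) (fun b _ => mem_univ _)
    (fun x _ => mem_range.2 x.val_lt) (fun b hb => ?_) (fun x _ => ZMod.natCast_zmod_val x) fun b hb => ?_
  · exact ZMod.val_cast_of_lt (mem_range.1 hb)
  · rw [ZMod.val_cast_of_lt (mem_range.1 hb)]

theorem stdAddChar_intCast [NeZero q] (a : ℤ) : ZMod.stdAddChar (a : ZMod q) = eAdd ((a : ℝ) / q) := by
  rw [ZMod.stdAddChar_coe, eAdd]
  congr 1
  push_cast
  ring

theorem conj_stdAddChar [NeZero q] (x : ZMod q) : conj (ZMod.stdAddChar x) = ZMod.stdAddChar (-x) := by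
  rw [AddChar.map_neg_eq_inv, Complex.inv_eq_conj]
  rw [ZMod.stdAddChar_apply, Circle.norm_coe]

/-- As a sum over the residue ring. -/
theorem gauss_eq_gaussSum [NeZero q] (χ : DirichletCharacter ℂ q) (k : ℤ) :
    gauss χ k = gaussSum χ (ZMod.stdAddChar.mulShift (k : ZMod q)) := by
  rw [gauss, sum_range_eq_sum_zmod, gaussSum]
  refine sum_congr rfl fun x _ => ?_
  rw [AddChar.mulShift_apply, ZMod.natCast_zmod_val]
  congr 1
  rw [show (k : ZMod q) * x = ((k * (x.val : ℤ) : ℤ) : ZMod q) by push_cast [ZMod.natCast_zmod_val]; rfl,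
    stdAddChar_intCast]
  push_cast
  rfl

/-- Multiplying the frequency by `l`. -/
theorem mul_gauss_mul [NeZero q] (χ : DirichletCharacter ℂ q) {l : ℕ} (hl : l.Coprime q) (k : ℤ) :
    χ (l : ZMod q) * gauss χ (l * k) = gauss χ k := by
  obtain ⟨u, hu⟩ : ∃ u : (ZMod q)ˣ, (u : ZMod q) = l := ⟨ZMod.unitOfCoprime l hl, rfl⟩
  rw [gauss_eq_gaussSum, gauss_eq_gaussSum, ← hu, ← gaussSum_mulShift χ (ZMod.stdAddChar.mulShift (k : ZMod q)) u,
    AddChar.mulShift_mulShift, Int.cast_mul, Int.cast_natCast, mul_comm (k : ZMod q), hu]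

/-- A primitive character at a frequency not prime to the modulus. -/
theorem gauss_eq_zero [NeZero q] {χ : DirichletCharacter ℂ q} (hχ : χ.IsPrimitive) {k : ℤ}
    (hk : ¬IsUnit (k : ZMod q)) : gauss χ k = 0 := by
  rw [gauss_eq_gaussSum]
  exact gaussSum_eq_zero_of_isPrimitive_of_not_isPrimitive _ hχ (AddChar.not_isPrimitive_mulShift _ hk)

theorem norm_gauss_one [NeZero q] {χ : DirichletCharacter ℂ q} (hχ : χ.IsPrimitive) :
    ‖gauss χ 1‖ = √(q : ℝ) := by
  rw [gauss_eq_gaussSum, Int.cast_one, AddChar.mulShift_one]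
  exact FA.BombieriVinogradov.norm_gauss hχ

/-- The trivial character gives the Ramanujan sum. -/
theorem gauss_one_char [NeZero q] (n : ℕ) :
    gauss (1 : DirichletCharacter ℂ q) (-(n : ℤ)) = (ramanujan n q : ℂ) := by
  rw [FA.ThreePrimes.ramanujan_eq (NeZero.pos q), gauss, unitResidues, sum_filter]
  refine sum_congr rfl fun b _ => ?_
  by_cases h : q.Coprime b
  · rw [if_pos h, MulChar.one_apply ((ZMod.isUnit_iff_coprime b q).2 h.symm), one_mul]
  · rw [if_neg h, MulChar.map_nonunit _ fun hu => h ((ZMod.isUnit_iff_coprime b q).1 hu).symm, zero_mul]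

/-- The inner sum of a change of level. -/
theorem sum_range_mul_eAdd {r : ℕ} [NeZero r] (χ : DirichletCharacter ℂ r) {l : ℕ} (hl : 0 < l) (k : ℤ) :
    ∑ c ∈ range (l * r), χ (c : ZMod r) * eAdd ((k : ℝ) * c / ((l * r : ℕ) : ℝ)) =
      if (l : ℤ) ∣ k then (l : ℂ) * gauss χ (k / l) else 0 := by
  have hr : (r : ℝ) ≠ 0 := Nat.cast_ne_zero.2 (NeZero.ne r)
  have hl' : (l : ℝ) ≠ 0 := Nat.cast_ne_zero.2 hl.ne'
  have e : ∑ c ∈ range (l * r), χ (c : ZMod r) * eAdd ((k : ℝ) * c / ((l * r : ℕ) : ℝ)) =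
      (∑ t ∈ range l, eAdd ((k : ℝ) * t / l)) *
        ∑ b ∈ range r, χ (b : ZMod r) * eAdd ((k : ℝ) * b / ((l * r : ℕ) : ℝ)) := by
    rw [sum_mul_sum, ← sum_product']
    refine sum_nbij' (fun c => (c / r, c % r)) (fun p => p.1 * r + p.2) (fun c hc => ?_) (fun p hp => ?_)
      (fun c _ => Nat.div_add_mod' c r) (fun p hp => ?_) fun c _ => ?_
    · rw [mem_range] at hc
      exact mem_product.2 ⟨mem_range.2 (Nat.div_lt_of_lt_mul (by linarith)), mem_range.2 (Nat.mod_lt _ (NeZero.pos r))⟩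
    · obtain ⟨h1, h2⟩ := mem_product.1 hp
      rw [mem_range] at h1 h2
      rw [mem_range]
      calc p.1 * r + p.2 < p.1 * r + r := by omega
        _ = (p.1 + 1) * r := by ring
        _ ≤ l * r := Nat.mul_le_mul_right r h1
    · obtain ⟨-, h2⟩ := mem_product.1 hp
      rw [mem_range] at h2
      refine Prod.ext ?_ ?_
      · rw [Nat.add_comm, Nat.add_mul_div_right _ _ (NeZero.pos r), Nat.div_eq_of_lt h2, Nat.zero_add]
      · simp [Nat.add_mul_mod_self_right, Nat.mod_eq_of_lt h2, Nat.add_comm (p.1 * r)]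
    · rw [ZMod.natCast_mod, mul_left_comm, ← FA.ThreePrimes.eAdd_add]
      congr 2
      have h := congrArg (Nat.cast (R := ℝ)) (Nat.div_add_mod' c r)
      push_cast at h ⊢
      rw [← h]
      field_simp
  rw [e, FA.ThreePrimes.sum_eAdd_grid hl]
  split_ifs with hd
  · rw [gauss]
    congr 1
    refine sum_congr rfl fun b _ => ?_
    obtain ⟨j, rfl⟩ := hd
    rw [Int.mul_ediv_cancel_left _ (Int.natCast_ne_zero.2 hl.ne')]
    push_cast
    congr 2
    field_simp
  · rw [zero_mul]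

/-- **A change of level.** -/
theorem gauss_changeLevel {r : ℕ} [NeZero r] (χ : DirichletCharacter ℂ r) {m : ℕ} (hm : 0 < m) (k : ℤ) :
    gauss (changeLevel (Nat.dvd_mul_right r m) χ) k = ∑ e ∈ m.divisors, (moebiusR e : ℂ) * χ (e : ZMod r) *
      (if ((m / e : ℕ) : ℤ) ∣ k then ((m / e : ℕ) : ℂ) * gauss χ (k / ((m / e : ℕ) : ℤ)) else 0) := by
  have hval : ∀ b : ℕ, changeLevel (Nat.dvd_mul_right r m) χ (b : ZMod (r * m)) =
      ∑ e ∈ m.divisors, if e ∣ b then (moebiusR e : ℂ) * χ (b : ZMod r) else 0 := fun b => by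
    have hsum : ∑ e ∈ m.divisors, (if e ∣ b then (moebiusR e : ℂ) * χ (b : ZMod r) else 0) =
        (if m.Coprime b then 1 else 0) * χ (b : ZMod r) := by
      rw [← sum_filter, ← sum_mul]
      congr 1
      have e : m.divisors.filter (· ∣ b) = (Nat.gcd m b).divisors := by
        ext d
        simp only [mem_filter, Nat.mem_divisors, Nat.dvd_gcd_iff]
        have : Nat.gcd m b ≠ 0 := (Nat.gcd_pos_of_pos_left b hm).ne'
        constructor
        · rintro ⟨⟨h1, -⟩, h2⟩
          exact ⟨⟨h1, h2⟩, this⟩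
        · rintro ⟨⟨h1, h2⟩, -⟩
          exact ⟨⟨h1, hm.ne'⟩, h2⟩
      rw [e, ← Complex.ofReal_sum, FA.ThreePrimes.sum_moebius_divisors]
      by_cases hc : m.Coprime b
      · rw [if_pos hc, if_pos hc.gcd_eq_one]; simp
      · rw [if_neg hc, if_neg hc]; simp
    rw [hsum]
    by_cases hb : b.Coprime (r * m)
    · have h := DirichletCharacter.changeLevel_eq_cast_of_dvd' χ (Nat.dvd_mul_right r m) (a := (b : ℤ))
        (Nat.Coprime.isCoprime hb)
      rw [Int.cast_natCast, Int.cast_natCast] at h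
      rw [h, if_pos (Nat.Coprime.coprime_mul_left_right hb).symm, one_mul]
    · rw [MulChar.map_nonunit _ fun hu => hb ((ZMod.isUnit_iff_coprime b (r * m)).1 hu)]
      by_cases hmb : m.Coprime b
      · rw [MulChar.map_nonunit χ fun hu => hb (Nat.Coprime.mul_right ((ZMod.isUnit_iff_coprime b r).1 hu)
          hmb.symm), mul_zero]
      · rw [if_neg hmb, zero_mul]
  rw [gauss]
  simp only [hval, sum_mul]
  rw [sum_comm]
  refine sum_congr rfl fun e he => ?_
  obtain ⟨hem, -⟩ := Nat.mem_divisors.1 he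
  obtain ⟨l, hl⟩ := hem
  have he0 : 0 < e := Nat.pos_of_mul_pos_right (hl ▸ hm)
  have hl0 : 0 < l := Nat.pos_of_mul_pos_left (hl ▸ hm)
  rw [show m / e = l by rw [hl, Nat.mul_div_cancel_left _ he0], ← sum_range_mul_eAdd χ hl0 k, mul_sum]
  simp only [ite_mul, zero_mul]
  rw [← sum_filter]
  refine sum_nbij' (fun b => b / e) (fun c => e * c) (fun b hb => ?_) (fun c hc => ?_) (fun b hb => ?_)
    (fun c _ => Nat.mul_div_cancel_left c he0) fun b hb => ?_
  · rw [mem_filter, mem_range] at hb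
    rw [mem_range]
    exact Nat.div_lt_of_lt_mul (by rw [hl] at hb; linarith [hb.1])
  · rw [mem_range] at hc
    rw [mem_filter, mem_range, hl]
    exact ⟨by nlinarith, dvd_mul_right e c⟩
  · rw [mem_filter] at hb
    exact Nat.mul_div_cancel' hb.2
  · rw [mem_filter] at hb
    obtain ⟨c, rfl⟩ := hb.2
    rw [Nat.mul_div_cancel_left c he0, Nat.cast_mul, map_mul]
    rw [show ((k : ℝ) * ((e * c : ℕ) : ℝ) / ((r * m : ℕ) : ℝ)) = (k : ℝ) * c / ((l * r : ℕ) : ℝ) by
      rw [hl]; push_cast; field_simp]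
    ring

theorem gauss_changeLevel_one {r : ℕ} [NeZero r] (χ : DirichletCharacter ℂ r) {m : ℕ} (hm : 0 < m) :
    gauss (changeLevel (Nat.dvd_mul_right r m) χ) 1 = (moebiusR m : ℂ) * χ (m : ZMod r) * gauss χ 1 := by
  rw [gauss_changeLevel χ hm, sum_eq_single m]
  · rw [Nat.div_self hm]
    simp
  · intro e he hne
    rw [if_neg, mul_zero]
    intro hd
    obtain ⟨hem, -⟩ := Nat.mem_divisors.1 he
    refine hne ?_
    have h1 : m / e = 1 := by exact_mod_cast Int.eq_one_of_dvd_one (Int.natCast_nonneg _) hd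
    rw [← Nat.div_mul_cancel hem, h1, one_mul]
  · simp [hm.ne']

/-- At a level prime to the old one the Ramanujan sum splits off. -/
theorem gauss_changeLevel_coprime {r : ℕ} [NeZero r] (χ : DirichletCharacter ℂ r) {m : ℕ} (hm : 0 < m)
    (hmr : m.Coprime r) (n : ℕ) :
    gauss (changeLevel (Nat.dvd_mul_right r m) χ) (-(n : ℤ)) =
      χ (m : ZMod r) * (ramanujan n m : ℂ) * gauss χ (-(n : ℤ)) := by
  rw [gauss_changeLevel χ hm, ramanujan, mul_apply,
    Nat.sum_divisorsAntidiagonal (fun x y => moebiusR x * divPart n y), Complex.ofReal_sum, mul_sum, sum_mul]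
  refine sum_congr rfl fun e he => ?_
  obtain ⟨hem, -⟩ := Nat.mem_divisors.1 he
  simp only [FA.ThreePrimes.divPart_apply, Int.dvd_neg, Int.natCast_dvd_natCast]
  split_ifs with hd
  · have hcop : (m / e).Coprime r := Nat.Coprime.coprime_dvd_left (Nat.div_dvd_of_dvd hem) hmr
    have h1 := mul_gauss_mul χ hcop (-(n : ℤ) / ((m / e : ℕ) : ℤ))
    rw [Int.mul_ediv_cancel' (Int.dvd_neg.2 (Int.natCast_dvd_natCast.2 hd))] at h1
    have h2 : χ (m : ZMod r) = χ (e : ZMod r) * χ ((m / e : ℕ) : ZMod r) := by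
      rw [← map_mul, ← Nat.cast_mul, Nat.mul_div_cancel' hem]
    rw [h2, ← h1]
    push_cast
    ring
  · simp

/-- **The bound at any frequency.** -/
theorem norm_gauss_le {g d : ℕ} [NeZero (g * d)] [NeZero d] (ψ : DirichletCharacter ℂ (g * d)) {j : ℤ}
    (hj : IsUnit (j : ZMod d)) :
    ‖gauss ψ ((g : ℤ) * j)‖ * d.totient ≤ √(d : ℝ) * (g * d).totient := by
  have hdq : d ∣ g * d := Nat.dvd_mul_left d g
  obtain ⟨H, hH⟩ : ∃ H : ZMod d → ℂ,
      H = fun x => ∑ b : ZMod (g * d), ψ b * ZMod.stdAddChar (x * ZMod.castHom hdq (ZMod d) b) := ⟨_, rfl⟩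
  have hG : gauss ψ ((g : ℤ) * j) = H (j : ZMod d) := by
    rw [hH, gauss, sum_range_eq_sum_zmod]
    refine sum_congr rfl fun b _ => ?_
    rw [ZMod.natCast_zmod_val, show (j : ZMod d) * ZMod.castHom hdq (ZMod d) b = ((j * (b.val : ℤ) : ℤ) : ZMod d) by
      conv_lhs => rw [← ZMod.natCast_zmod_val b, map_natCast]
      push_cast; rfl, stdAddChar_intCast]
    congr 2
    push_cast
    have : (g : ℝ) ≠ 0 := Nat.cast_ne_zero.2 fun h => NeZero.ne (g * d) (by rw [h, zero_mul])
    field_simp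
  have hinv : ∀ (u : (ZMod d)ˣ), ‖H (j * u)‖ = ‖H (j : ZMod d)‖ := fun u => by
    obtain ⟨v, hv⟩ := ZMod.unitsMap_surjective hdq u
    have hcast : ZMod.castHom hdq (ZMod d) (v : ZMod (g * d)) = u := by rw [← hv]; rfl
    have e : ψ (v : ZMod (g * d)) * H (j * u) = H (j : ZMod d) := by
      rw [hH, mul_sum]
      refine Fintype.sum_equiv (Units.mulLeft v) _ _ fun b => ?_
      simp only [Units.mulLeft_apply]
      rw [map_mul ψ, map_mul (ZMod.castHom hdq (ZMod d)), hcast, ← mul_assoc, mul_assoc (j : ZMod d)]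
    rw [← e, norm_mul, DirichletCharacter.unit_norm_eq_one, one_mul]
  have hpars : ((∑ x : ZMod d, ‖H x‖ ^ 2 : ℝ) : ℂ) = d * ∑ b : ZMod (g * d), ∑ c : ZMod (g * d),
      (if ZMod.castHom hdq (ZMod d) b = ZMod.castHom hdq (ZMod d) c then ψ b * conj (ψ c) else 0) := by
    rw [Complex.ofReal_sum, hH, mul_sum]
    simp only [Complex.ofReal_pow, ← Complex.mul_conj', map_sum, map_mul, conj_stdAddChar, sum_mul_sum]
    rw [sum_comm]
    refine sum_congr rfl fun b _ => ?_
    rw [mul_sum, sum_comm]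
    refine sum_congr rfl fun c _ => ?_
    have e : ∀ x : ZMod d, ψ b * ZMod.stdAddChar (x * ZMod.castHom hdq (ZMod d) b) *
        (conj (ψ c) * ZMod.stdAddChar (-(x * ZMod.castHom hdq (ZMod d) c))) =
        ψ b * conj (ψ c) *
          ZMod.stdAddChar (x * (ZMod.castHom hdq (ZMod d) b - ZMod.castHom hdq (ZMod d) c)) := fun x => by
      rw [mul_sub, sub_eq_add_neg, AddChar.map_add_eq_mul]
      ring
    rw [sum_congr rfl fun x _ => e x, ← mul_sum, AddChar.sum_mulShift _ (ZMod.isPrimitive_stdAddChar d)]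
    simp only [sub_eq_zero, ZMod.card]
    split_ifs <;> simp [mul_comm]
  have hpairs : ∑ x : ZMod d, ‖H x‖ ^ 2 ≤
      (d : ℝ) * ((g * d).totient * ((g * d).totient / d.totient)) := by
    have h1 : ∑ x : ZMod d, ‖H x‖ ^ 2 ≤ (d : ℝ) * ∑ b : (ZMod (g * d))ˣ, ∑ c : (ZMod (g * d))ˣ,
        (if ZMod.unitsMap hdq b = ZMod.unitsMap hdq c then (1 : ℝ) else 0) := by
      have h2 := congrArg (‖·‖) hpars
      simp only [norm_real, norm_mul, Complex.norm_natCast] at h2
      rw [Real.norm_of_nonneg (sum_nonneg fun x _ => sq_nonneg _)] at h2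
      rw [h2]
      refine mul_le_mul_of_nonneg_left ((norm_sum_le _ _).trans ((sum_le_sum fun b _ => norm_sum_le _ _).trans ?_))
        (Nat.cast_nonneg d)
      have key : ∀ f : ZMod (g * d) → ℝ, (∀ x, ¬IsUnit x → f x = 0) →
          ∑ x : ZMod (g * d), f x = ∑ u : (ZMod (g * d))ˣ, f u := fun f hf => by
        rw [show ∑ u : (ZMod (g * d))ˣ, f u =
          ∑ x ∈ univ.map ⟨Units.val, fun a b h => Units.ext h⟩, f x from (sum_map univ ⟨Units.val, _⟩ f).symm]
        refine (sum_subset (subset_univ _) fun x _ hx => hf x fun hu => hx ?_).symm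
        exact mem_map.2 ⟨hu.unit, mem_univ _, hu.unit_spec⟩
      rw [key _ fun x hx => sum_eq_zero fun c _ => by rw [MulChar.map_nonunit _ hx]; simp]
      refine sum_le_sum fun b _ => ?_
      rw [key _ fun x hx => by rw [MulChar.map_nonunit _ hx]; simp]
      refine sum_le_sum fun c _ => ?_
      have hiff : ZMod.castHom hdq (ZMod d) (b : ZMod (g * d)) = ZMod.castHom hdq (ZMod d) (c : ZMod (g * d)) ↔
          ZMod.unitsMap hdq b = ZMod.unitsMap hdq c := by
        rw [← Units.val_inj]; rfl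
      simp only [hiff]
      split_ifs <;> simp [DirichletCharacter.unit_norm_eq_one]
    refine h1.trans (mul_le_mul_of_nonneg_left (le_of_eq ?_) (Nat.cast_nonneg d))
    simp only [sum_boole]
    have hfib : ∀ b : (ZMod (g * d))ˣ,
        ((univ.filter fun c : (ZMod (g * d))ˣ => ZMod.unitsMap hdq b = ZMod.unitsMap hdq c).card : ℝ) =
          (g * d).totient / d.totient := fun b => by
      have hsurj := ZMod.unitsMap_surjective hdq
      have hcard : ∀ v, (univ.filter fun c : (ZMod (g * d))ˣ => ZMod.unitsMap hdq c = v).card =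
          (univ.filter fun c : (ZMod (g * d))ˣ => ZMod.unitsMap hdq c = 1).card := fun v =>
        MonoidHom.card_fiber_eq_of_mem_range _ (hsurj v) (hsurj 1)
      have htot : (g * d).totient =
          d.totient * (univ.filter fun c : (ZMod (g * d))ˣ => ZMod.unitsMap hdq c = 1).card := by
        rw [← ZMod.card_units_eq_totient, ← ZMod.card_units_eq_totient, ← card_univ,
          card_eq_sum_card_fiberwise (t := univ) (f := ZMod.unitsMap hdq) fun c _ => mem_univ _,
          sum_congr rfl fun v _ => hcard v, sum_const, smul_eq_mul, card_univ]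
      rw [htot, Nat.cast_mul, mul_div_cancel_left₀ _ (Nat.cast_ne_zero.2 (Nat.totient_pos.2 (NeZero.pos d)).ne'),
        ← hcard (ZMod.unitsMap hdq b)]
      simp only [eq_comm]
    rw [sum_congr rfl fun b _ => hfib b, sum_const, nsmul_eq_mul, card_univ, ZMod.card_units_eq_totient]
  have horbit : (d.totient : ℝ) * ‖H (j : ZMod d)‖ ^ 2 ≤ ∑ x : ZMod d, ‖H x‖ ^ 2 := by
    refine le_trans (le_of_eq ?_) (sum_le_sum_of_subset_of_nonneg
      (s := univ.image fun u : (ZMod d)ˣ => (j : ZMod d) * u) (subset_univ _) fun x _ _ => sq_nonneg _)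
    rw [sum_image, sum_congr rfl fun u _ => by rw [hinv u], sum_const, nsmul_eq_mul, card_univ,
      ZMod.card_units_eq_totient]
    exact fun a _ b _ h => Units.ext (hj.mul_left_cancel h)
  rw [hG]
  refine (pow_le_pow_iff_left₀ (by positivity) (by positivity) two_ne_zero).1 ?_
  rw [mul_pow, mul_pow, Real.sq_sqrt (Nat.cast_nonneg d)]
  have h := mul_le_mul_of_nonneg_right (horbit.trans hpairs) (Nat.cast_nonneg (α := ℝ) d.totient)
  have hd0 : (d.totient : ℝ) ≠ 0 := Nat.cast_ne_zero.2 (Nat.totient_pos.2 (NeZero.pos d)).ne'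
  rw [show (d : ℝ) * ((g * d).totient * ((g * d).totient / d.totient)) * d.totient =
    d * (((g * d).totient : ℝ) ^ 2) by field_simp] at h
  linarith

end FA.MontgomeryVaughan

end
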