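import Fermat.Agent.AlmostGoldbach.Main

/-!
# The grid, its arcs, and Gallagher's lemma on it

The points `h / M`; an arc is `2 J + 1` of them about the one nearest to `r / q`. Off the arcs the sum
over primes is small; on an arc the mean square of an exponential sum is at most `4 / H ^ 2` times that of
its sums over windows of length `H`, as soon as `6 H J ≤ M`.
-/

set_option autoImplicit false
set_option linter.unusedSectionVars false

noncomputable section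

open Finset Complex ArithmeticFunction
open FA.ThreePrimes (eAdd trigSum nearDist clip centre arcCentres twist logOne unitResidues)
open scoped Real Classical

namespace FA.MontgomeryVaughan

theorem trigSum_add_intCast (f : ℕ → ℂ) (X : ℕ) (x : ℝ) (k : ℤ) : trigSum f X (x + k) = trigSum f X x := by
  refine sum_congr rfl fun i _ => ?_
  rw [show (i : ℝ) * (x + k) = i * x + ((i * k : ℤ) : ℝ) by push_cast; ring, FA.ThreePrimes.eAdd_add_intCast]

theorem eAdd_neg_mul_add_intCast (n : ℕ) (x : ℝ) (k : ℤ) : eAdd (-(n * (x + k))) = eAdd (-(n * x)) := by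
  rw [show -((n : ℝ) * (x + k)) = -(n * x) + ((-(n * k) : ℤ) : ℝ) by push_cast; ring,
    FA.ThreePrimes.eAdd_add_intCast]

theorem norm_eAdd_sub_le (x y : ℝ) : ‖eAdd x - eAdd y‖ ≤ 2 * π * |x - y| := by
  have e : eAdd x - eAdd y = eAdd y * (eAdd (x - y) - 1) := by
    rw [mul_sub, mul_one, ← FA.ThreePrimes.eAdd_add, add_sub_cancel]
  rw [e, norm_mul, FA.ThreePrimes.norm_eAdd, one_mul]
  exact FA.ThreePrimes.norm_eAdd_sub_one_le _

/-- The index of a point of the grid. -/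
def gridPt (M : ℕ) (k : ℤ) : ℕ := (k % (M : ℤ)).toNat

theorem gridPt_lt {M : ℕ} (hM : 0 < M) (k : ℤ) : gridPt M k < M := by
  have h1 := Int.emod_nonneg k (Int.natCast_ne_zero.2 hM.ne')
  have h2 := Int.emod_lt_of_pos k (Int.natCast_pos.2 hM)
  rw [gridPt]
  omega

theorem gridPt_cast {M : ℕ} (hM : 0 < M) (k : ℤ) :
    ((gridPt M k : ℕ) : ℝ) / M = (k : ℝ) / M + ((-(k / (M : ℤ)) : ℤ) : ℝ) := by
  have h1 := Int.emod_nonneg k (Int.natCast_ne_zero.2 hM.ne')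
  have e : ((gridPt M k : ℕ) : ℤ) = k - M * (k / M) := by
    rw [gridPt, Int.toNat_of_nonneg h1, Int.emod_def]
  have e' : ((gridPt M k : ℕ) : ℝ) = (k : ℝ) - M * ((k / M : ℤ) : ℝ) := by exact_mod_cast e
  have : (M : ℝ) ≠ 0 := Nat.cast_ne_zero.2 hM.ne'
  rw [e']
  push_cast
  field_simp
  ring

theorem gridPt_inj {M : ℕ} (hM : 0 < M) {k k' : ℤ} (h : gridPt M k = gridPt M k') : (M : ℤ) ∣ k - k' := by
  have h1 := Int.emod_nonneg k (Int.natCast_ne_zero.2 hM.ne')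
  have h1' := Int.emod_nonneg k' (Int.natCast_ne_zero.2 hM.ne')
  have e : k % (M : ℤ) = k' % (M : ℤ) := by
    rw [gridPt, gridPt] at h
    omega
  exact Int.ModEq.dvd e.symm

theorem gridPt_natCast {M h : ℕ} (hh : h < M) {k : ℤ} (hk : (M : ℤ) ∣ (h : ℤ) - k) : gridPt M k = h := by
  have e : k % (M : ℤ) = (h : ℤ) := by
    rw [← Int.emod_eq_of_lt (show (0 : ℤ) ≤ h by omega) (show (h : ℤ) < M by omega)]
    exact Int.modEq_iff_dvd.2 hk
  rw [gridPt, e]
  omega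

/-- The grid point nearest to a centre. -/
def centreIdx (M : ℕ) (z : Σ _ : ℕ, ℕ) : ℤ := round ((M : ℝ) * centre z)

/-- An arc. -/
def bigArc (M J : ℕ) (z : Σ _ : ℕ, ℕ) : Finset ℕ :=
  (Icc (-(J : ℤ)) J).image fun j => gridPt M (centreIdx M z + j)

theorem abs_centreIdx_div_sub {M : ℕ} (hM : 0 < M) (z : Σ _ : ℕ, ℕ) :
    |(centreIdx M z : ℝ) / M - centre z| ≤ 1 / (2 * M) := by
  have hM' : (0 : ℝ) < M := Nat.cast_pos.2 hM
  rw [centreIdx, div_sub' hM'.ne', abs_div, abs_of_pos hM', ← div_div]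
  refine div_le_div_of_nonneg_right ?_ hM'.le
  rw [abs_sub_comm, mul_comm]
  simpa [mul_comm] using abs_sub_round ((M : ℝ) * centre z)

theorem sum_bigArc {M J : ℕ} (hJ : 2 * J < M) (z : Σ _ : ℕ, ℕ) (F : ℕ → ℂ) :
    ∑ h ∈ bigArc M J z, F h = ∑ j ∈ Icc (-(J : ℤ)) J, F (gridPt M (centreIdx M z + j)) := by
  rw [bigArc, sum_image]
  intro j hj j' hj' h
  rw [coe_Icc, Set.mem_Icc] at hj hj'
  obtain ⟨t, ht⟩ := gridPt_inj (by omega) h
  have ht0 : t = 0 := by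
    by_contra h0
    have : (M : ℤ) ≤ |(M : ℤ) * t| := by
      rw [abs_mul, abs_of_nonneg (Int.natCast_nonneg M)]
      exact le_mul_of_one_le_right (Int.natCast_nonneg M) (Int.one_le_abs h0)
    have : |(M : ℤ) * t| ≤ 2 * J := by
      rw [← ht, abs_le]
      constructor <;> omega
    omega
  rw [ht0, mul_zero] at ht
  omega

theorem bigArc_disjoint {M J Q : ℕ} (hM : 0 < M) (hQ : ((2 * J + 1 : ℕ) : ℝ) * ((Q : ℝ) * Q) < M) :
    ((arcCentres Q : Finset _) : Set (Σ _ : ℕ, ℕ)).PairwiseDisjoint (bigArc M J) := by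
  intro z hz w hw hne
  rw [Function.onFun, disjoint_left]
  intro h h1 h2
  rw [bigArc, mem_image] at h1 h2
  obtain ⟨j, hj, rfl⟩ := h1
  obtain ⟨j', hj', hjj⟩ := h2
  rw [mem_Icc] at hj hj'
  obtain ⟨t, ht⟩ := gridPt_inj hM hjj
  have hM' : (0 : ℝ) < M := Nat.cast_pos.2 hM
  have hc := abs_centreIdx_div_sub hM z
  have hc' := abs_centreIdx_div_sub hM w
  have key : nearDist (centre z - centre w) ≤ ((2 * J + 1 : ℕ) : ℝ) / M := by
    refine (FA.ThreePrimes.nearDist_le_abs_sub _ (-t)).trans ?_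
    have e : ((centreIdx M w : ℝ) + j' - ((centreIdx M z : ℝ) + j)) = (M : ℝ) * t := by exact_mod_cast ht
    have e2 : centre z - centre w - ((-t : ℤ) : ℝ) = -((centreIdx M z : ℝ) / M - centre z) +
        ((centreIdx M w : ℝ) / M - centre w) + ((j' : ℝ) - j) / M := by
      have e3 : (t : ℝ) = ((centreIdx M w : ℝ) + j' - ((centreIdx M z : ℝ) + j)) / M := by
        rw [e]; field_simp
      rw [Int.cast_neg, e3]
      ring
    rw [e2]
    refine (abs_add_three _ _ _).trans ?_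
    rw [abs_neg, abs_div, abs_of_pos hM']
    have h3 : |(j' : ℝ) - j| ≤ 2 * J := by
      have a1 : (j : ℝ) ≤ J := by exact_mod_cast hj.2
      have a2 : -(J : ℝ) ≤ j := by exact_mod_cast hj.1
      have a3 : (j' : ℝ) ≤ J := by exact_mod_cast hj'.2
      have a4 : -(J : ℝ) ≤ j' := by exact_mod_cast hj'.1
      rw [abs_le]
      constructor <;> linarith
    have h4 := div_le_div_of_nonneg_right h3 hM'.le
    push_cast
    rw [add_div]
    have : 1 / (2 * (M : ℝ)) + 1 / (2 * M) = 1 / M := by ring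
    linarith
  have h5 := (FA.ThreePrimes.inv_mul_le_nearDist_centre hz hw hne).trans key
  have hQ0 : 0 < Q := lt_of_lt_of_le (FA.ThreePrimes.mem_arcCentres.1 hz).1.1
    (FA.ThreePrimes.mem_arcCentres.1 hz).1.2
  have hQ' : (0 : ℝ) < Q := Nat.cast_pos.2 hQ0
  rw [div_le_div_iff₀ (mul_pos hQ' hQ') hM', one_mul] at h5
  linarith

/-- Off the arcs. -/
theorem lt_nearDist_of_notMem {M J : ℕ} (hM : 0 < M) {z : Σ _ : ℕ, ℕ} {h : ℕ} (hh : h < M)
    (hnot : h ∉ bigArc M J z) : ((J : ℝ) - 1) / M < nearDist ((h : ℝ) / M - centre z) := by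
  by_contra hle
  rw [not_lt, nearDist] at hle
  obtain ⟨k, hk⟩ : ∃ k : ℤ, k = round ((h : ℝ) / M - centre z) := ⟨_, rfl⟩
  rw [← hk] at hle
  obtain ⟨j, hj⟩ : ∃ j : ℤ, j = (h : ℤ) - k * M - centreIdx M z := ⟨_, rfl⟩
  refine hnot (mem_image.2 ⟨j, mem_Icc.2 ?_, gridPt_natCast hh ⟨k, by rw [hj]; ring⟩⟩)
  have hM' : (0 : ℝ) < M := Nat.cast_pos.2 hM
  have hjr : |(j : ℝ)| ≤ J := by
    have e : (j : ℝ) / M = ((h : ℝ) / M - centre z - k) - ((centreIdx M z : ℝ) / M - centre z) := by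
      rw [hj]
      push_cast
      field_simp
      ring
    have h1 := (abs_sub _ _).trans (add_le_add hle (abs_centreIdx_div_sub hM z))
    rw [← e, abs_div, abs_of_pos hM', show ((J : ℝ) - 1) / M + 1 / (2 * M) = ((J : ℝ) - 1 / 2) / M by ring,
      div_le_div_iff_of_pos_right hM'] at h1
    linarith
  rw [abs_le] at hjr
  constructor
  · exact_mod_cast hjr.1
  · exact_mod_cast hjr.2

/-- **The sum over primes off the arcs.** -/
theorem norm_twist_minor_le {X Q : ℕ} {α δ : ℝ} (hQ : 0 < Q) (hδ : 0 < δ)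
    (hfar : ∀ z ∈ arcCentres Q, δ < nearDist (α - centre z)) :
    ‖twist α Λ X‖ ≤
      350 * ((X : ℝ) / √(Q : ℝ) + (X : ℝ) ^ (4 / 5 : ℝ) + √((X : ℝ) * (1 / δ + 1))) * logOne X ^ 4 := by
  obtain ⟨n, hn⟩ : ∃ n, n = ⌈1 / δ⌉₊ := ⟨_, rfl⟩
  have hn0 : 0 < n := hn ▸ Nat.ceil_pos.2 (by positivity)
  obtain ⟨ρ, hρ, hρn⟩ := Real.exists_rat_abs_sub_le_and_den_le α hn0
  obtain ⟨q, hq⟩ : ∃ q, q = ρ.den := ⟨_, rfl⟩
  have : NeZero q := ⟨hq ▸ ρ.den_ne_zero⟩
  have hq0 : (0 : ℝ) < q := Nat.cast_pos.2 (NeZero.pos q)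
  have hρv : (ρ : ℝ) = (ρ.num : ℝ) / q := by rw [hq, Rat.cast_def]
  rw [hρv, ← hq] at hρ
  have hunit : IsUnit (ρ.num : ZMod q) := by
    rw [ZMod.coe_int_isUnit_iff_isCoprime, isCoprime_comm, Int.isCoprime_iff_nat_coprime, hq]
    simpa using ρ.reduced
  have hq1 : (1 : ℝ) ≤ q := Nat.one_le_cast.2 (NeZero.pos q)
  have hn1 : 1 / δ ≤ n := hn ▸ Nat.le_ceil _
  have hbase : 1 / (((n : ℝ) + 1) * q) ≤ δ := by
    rw [div_le_iff₀ (by positivity)]
    rw [div_le_iff₀ hδ] at hn1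
    refine hn1.trans ?_
    rw [mul_comm δ]
    exact mul_le_mul_of_nonneg_right ((le_add_of_nonneg_right zero_le_one).trans
      (le_mul_of_one_le_right (by positivity) hq1)) hδ.le
  have hqQ : Q < q := by
    by_contra hle
    rw [not_lt] at hle
    obtain ⟨r, hr⟩ : ∃ r, r = (ρ.num : ZMod q).val := ⟨_, rfl⟩
    have hmem : (⟨q, r⟩ : Σ _ : ℕ, ℕ) ∈ arcCentres Q := by
      refine FA.ThreePrimes.mem_arcCentres.2 ⟨⟨NeZero.pos q, hle⟩, hr ▸ ZMod.val_lt _, ?_⟩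
      have h1 : IsUnit ((r : ℕ) : ZMod q) := by rwa [hr, ZMod.natCast_zmod_val]
      exact ((ZMod.isUnit_iff_coprime r q).1 h1).symm
    obtain ⟨m, hm⟩ : (q : ℤ) ∣ ρ.num - r := by
      rw [← ZMod.intCast_zmod_eq_zero_iff_dvd, hr]
      push_cast
      rw [ZMod.natCast_zmod_val, sub_self]
    have h2 : nearDist (α - centre ⟨q, r⟩) ≤ δ := by
      refine (FA.ThreePrimes.nearDist_le_abs_sub _ m).trans ?_
      have e : α - centre ⟨q, r⟩ - (m : ℝ) = α - (ρ.num : ℝ) / q := by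
        have h3 : (ρ.num : ℝ) - r = q * m := by exact_mod_cast hm
        simp only [centre]
        field_simp
        linarith
      rw [e]
      exact hρ.trans hbase
    exact absurd (hfar _ hmem) (not_lt.2 h2)
  have hqn : (q : ℝ) ≤ n := Nat.cast_le.2 (hq ▸ hρn)
  have hα : |α - (ρ.num : ℝ) / q| ≤ 1 / (q : ℝ) ^ 2 := by
    refine hρ.trans (one_div_le_one_div_of_le (by positivity) ?_)
    rw [sq]
    exact mul_le_mul_of_nonneg_right (by linarith) hq0.le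
  refine (FA.ThreePrimes.norm_vonMangoldt_twist_le hunit hα).trans ?_
  have t1 : (X : ℝ) / √(q : ℝ) ≤ X / √(Q : ℝ) :=
    div_le_div_of_nonneg_left (Nat.cast_nonneg X) (Real.sqrt_pos.2 (Nat.cast_pos.2 hQ))
      (Real.sqrt_le_sqrt (Nat.cast_le.2 hqQ.le))
  have t2 : √((X : ℝ) * q) ≤ √((X : ℝ) * (1 / δ + 1)) := by
    refine Real.sqrt_le_sqrt (mul_le_mul_of_nonneg_left ?_ (Nat.cast_nonneg X))
    have := Nat.ceil_lt_add_one (show 0 ≤ 1 / δ by positivity)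
    rw [← hn] at this
    linarith
  exact mul_le_mul_of_nonneg_right (by linarith)
    (pow_nonneg (zero_le_one.trans (FA.ThreePrimes.one_le_logOne X)) 4)

/-- **The minor arcs in mean square.** -/
theorem sum_sq_minor_le (f : ℕ → ℂ) {X M : ℕ} (hXM : X < M) (S : Finset ℕ) (hS : S ⊆ range M) {B : ℝ}
    (hB : ∀ h ∈ S, ‖trigSum f X ((h : ℝ) / M)‖ ≤ B) :
    ∑ n ∈ Icc 1 X, ‖(∑ h ∈ S, trigSum f X ((h : ℝ) / M) ^ 2 * eAdd (-(n * ((h : ℝ) / M)))) / M‖ ^ 2 ≤
      B ^ 2 * ∑ i ∈ Icc 1 X, ‖f i‖ ^ 2 := by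
  have hM : (0 : ℝ) < M := Nat.cast_pos.2 (by omega)
  simp only [norm_div, Complex.norm_natCast, div_pow, ← sum_div]
  rw [div_le_iff₀ (by positivity)]
  refine (sum_le_sum_of_subset_of_nonneg (t := range M) (fun n hn => ?_) fun n _ _ => sq_nonneg _).trans ?_
  · rw [mem_Icc] at hn
    rw [mem_range]
    omega
  rw [FA.AlmostGoldbach.sum_norm_sq_coeff (by omega) S hS]
  refine (mul_le_mul_of_nonneg_left (show ∑ h ∈ S, ‖trigSum f X ((h : ℝ) / M) ^ 2‖ ^ 2 ≤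
      B ^ 2 * ((M : ℝ) * ∑ i ∈ Icc 1 X, ‖f i‖ ^ 2) from
    (sum_le_sum (g := fun h : ℕ => B ^ 2 * ‖trigSum f X ((h : ℝ) / M)‖ ^ 2) fun h hh => ?_).trans ?_)
      hM.le).trans (le_of_eq ?_)
  · rw [norm_pow, sq (_ ^ 2)]
    exact mul_le_mul_of_nonneg_right (pow_le_pow_left₀ (norm_nonneg _) (hB h hh) 2) (sq_nonneg _)
  · rw [← mul_sum]
    refine mul_le_mul_of_nonneg_left ((sum_le_sum_of_subset_of_nonneg hS fun _ _ _ => sq_nonneg _).trans_eq
      (FA.ThreePrimes.sum_norm_sq_grid f hXM)) (sq_nonneg B)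
  · ring

/-- The root mean square on an arc about `0`. -/
def arcNorm (M J : ℕ) (g : ℝ → ℂ) : ℝ := √((∑ j ∈ Icc (-(J : ℤ)) J, ‖g ((j : ℝ) / M)‖ ^ 2) / M)

/-- The pairing on an arc about `0`. -/
def arcInt (M J : ℕ) (f g : ℝ → ℂ) (n : ℕ) : ℂ :=
  (∑ j ∈ Icc (-(J : ℤ)) J, f ((j : ℝ) / M) * g ((j : ℝ) / M) * eAdd (-(n * ((j : ℝ) / M)))) / M

theorem arcNorm_nonneg (M J : ℕ) (g : ℝ → ℂ) : 0 ≤ arcNorm M J g := Real.sqrt_nonneg _

theorem norm_arcInt_le (M J : ℕ) (f g : ℝ → ℂ) (n : ℕ) :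
    ‖arcInt M J f g n‖ ≤ arcNorm M J f * arcNorm M J g := by
  rw [arcInt, norm_div, Complex.norm_natCast, arcNorm, arcNorm, Real.sqrt_div' _ (Nat.cast_nonneg M),
    Real.sqrt_div' _ (Nat.cast_nonneg M), div_mul_div_comm, Real.mul_self_sqrt (Nat.cast_nonneg M)]
  refine div_le_div_of_nonneg_right ((norm_sum_le _ _).trans ?_) (Nat.cast_nonneg M)
  simp only [norm_mul, FA.ThreePrimes.norm_eAdd, mul_one]
  exact Real.sum_mul_le_sqrt_mul_sqrt _ _ _

/-- Trigonometric sums on an arc. -/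
theorem arcNorm_trig_le (a : ℕ → ℂ) {X M J : ℕ} (hXM : X < M) (hJ : 2 * J < M) :
    arcNorm M J (fun x => trigSum a X x) ≤ √(∑ i ∈ Icc 1 X, ‖a i‖ ^ 2) := by
  have hM : (0 : ℝ) < M := Nat.cast_pos.2 (by omega)
  refine Real.sqrt_le_sqrt ((div_le_iff₀ hM).2 ?_)
  rw [mul_comm, ← FA.ThreePrimes.sum_norm_sq_grid a hXM]
  refine le_trans (le_of_eq ?_) (sum_le_sum_of_subset_of_nonneg (s := (Icc (-(J : ℤ)) J).image fun j => gridPt M j)
    (image_subset_iff.2 fun j _ => mem_range.2 (gridPt_lt (by omega) j)) fun _ _ _ => sq_nonneg _)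
  rw [sum_image]
  · refine sum_congr rfl fun j _ => ?_
    rw [gridPt_cast (by omega), trigSum_add_intCast]
  · intro j hj j' hj' h
    rw [coe_Icc, Set.mem_Icc] at hj hj'
    obtain ⟨t, ht⟩ := gridPt_inj (by omega) h
    have ht0 : t = 0 := by
      by_contra h0
      have : (M : ℤ) ≤ |(M : ℤ) * t| := by
        rw [abs_mul, abs_of_nonneg (Int.natCast_nonneg M)]
        exact le_mul_of_one_le_right (Int.natCast_nonneg M) (Int.one_le_abs h0)
      have : |(M : ℤ) * t| ≤ 2 * J := by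
        rw [← ht, abs_le]
        constructor <;> omega
      omega
    rw [ht0, mul_zero] at ht
    omega

/-- The sum over a window of length `H`. -/
def windowSum (a : ℕ → ℂ) (X H y : ℕ) : ℂ := ∑ i ∈ (Icc 1 X).filter (fun i => i < y ∧ y ≤ i + H), a i

theorem trigSum_window (a : ℕ → ℂ) (X H : ℕ) (x : ℝ) :
    trigSum (windowSum a X H) (X + H) x = (∑ t ∈ Icc 1 H, eAdd (t * x)) * trigSum a X x := by
  simp only [trigSum, windowSum, sum_mul, mul_sum]
  rw [sum_comm' (t' := Icc 1 X) (s' := fun i => (Icc 1 (X + H)).filter fun y => i < y ∧ y ≤ i + H)]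
  · refine sum_congr rfl fun i hi => ?_
    rw [mem_Icc] at hi
    refine sum_nbij' (fun y => y - i) (fun t => i + t) (fun y hy => ?_) (fun t ht => ?_) (fun y hy => ?_)
      (fun t _ => Nat.add_sub_cancel_left i t) fun y hy => ?_
    · rw [mem_filter, mem_Icc] at hy
      rw [mem_Icc]; omega
    · rw [mem_Icc] at ht
      rw [mem_filter, mem_Icc]; omega
    · rw [mem_filter] at hy; omega
    · rw [mem_filter] at hy
      rw [mul_left_comm, ← FA.ThreePrimes.eAdd_add, Nat.cast_sub (by omega : i ≤ y)]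
      congr 2
      ring
  · intro y i
    simp only [mem_filter]
    tauto

/-- **Gallagher's lemma on the grid.** -/
theorem arcNorm_le_windows (a : ℕ → ℂ) {X H M J : ℕ} (hH : 0 < H) (hXM : X + H < M) (hJH : 6 * J * H ≤ M)
    (hJ : 2 * J < M) :
    arcNorm M J (fun x => trigSum a X x) ≤ 2 / H * √(∑ y ∈ Icc 1 (X + H), ‖windowSum a X H y‖ ^ 2) := by
  have hH' : (0 : ℝ) < H := Nat.cast_pos.2 hH
  have hM' : (0 : ℝ) < M := Nat.cast_pos.2 (by omega)
  have hK : ∀ j ∈ Icc (-(J : ℤ)) J, ‖trigSum a X ((j : ℝ) / M)‖ ≤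
      2 / H * ‖trigSum (windowSum a X H) (X + H) ((j : ℝ) / M)‖ := fun j hj => by
    rw [trigSum_window, norm_mul, ← mul_assoc]
    refine le_mul_of_one_le_left (norm_nonneg _) ?_
    rw [div_mul_eq_mul_div, one_le_div hH']
    refine le_trans ?_ (mul_le_mul_of_nonneg_left (Complex.re_le_norm _) zero_le_two)
    rw [Complex.re_sum, mul_sum]
    refine le_trans (le_of_eq ?_) (card_nsmul_le_sum _ _ (1 : ℝ) fun t ht => ?_)
    · simp
    · rw [mem_Icc] at ht hj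
      rw [eAdd, Complex.exp_ofReal_mul_I_re]
      have hy : |2 * π * ((t : ℝ) * ((j : ℝ) / M))| ≤ π / 3 := by
        have h1 : |(j : ℝ)| ≤ J := by
          rw [abs_le]
          constructor
          · exact_mod_cast hj.1
          · exact_mod_cast hj.2
        have h2 : (t : ℝ) * |(j : ℝ)| ≤ (H : ℝ) * J :=
          mul_le_mul (Nat.cast_le.2 ht.2) h1 (abs_nonneg _) hH'.le
        have h3 : ((6 * J * H : ℕ) : ℝ) ≤ M := Nat.cast_le.2 hJH
        push_cast at h3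
        have h4 : (t : ℝ) * |(j : ℝ)| / M ≤ 1 / 6 := by
          rw [div_le_iff₀ hM']; linarith
        rw [abs_mul, abs_of_pos (show 0 < 2 * π by positivity), abs_mul, abs_div, abs_of_pos hM', Nat.abs_cast,
          ← mul_div_assoc]
        have := mul_le_mul_of_nonneg_left h4 (show 0 ≤ 2 * π by positivity)
        linarith
      have := Real.cos_le_cos_of_nonneg_of_le_pi (abs_nonneg _) (by linarith [Real.pi_pos]) hy
      rw [Real.cos_abs, Real.cos_pi_div_three] at this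
      linarith
  refine le_trans ?_ (mul_le_mul_of_nonneg_left
    (arcNorm_trig_le (windowSum a X H) (X := X + H) (M := M) (J := J) hXM hJ) (by positivity))
  rw [arcNorm, arcNorm, ← Real.sqrt_sq (show 0 ≤ 2 / (H : ℝ) by positivity), ← Real.sqrt_mul (sq_nonneg _)]
  refine Real.sqrt_le_sqrt ?_
  rw [mul_div_assoc', mul_sum]
  refine div_le_div_of_nonneg_right (sum_le_sum fun j hj => ?_) hM'.le
  rw [← mul_pow]
  exact pow_le_pow_left₀ (norm_nonneg _) (hK j hj) 2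

/-- Decreasing weights in `[0, 1]`. -/
theorem norm_sum_antitone_le {N : ℕ} {f : ℕ → ℝ} (hf : ∀ i, 1 ≤ i → i ≤ N → 0 ≤ f i ∧ f i ≤ 1)
    (hanti : ∀ i, 1 ≤ i → i < N → f (i + 1) ≤ f i) {z : ℕ → ℂ} {B : ℝ} (hB0 : 0 ≤ B)
    (hB : ∀ k ≤ N, ‖∑ i ∈ Icc 1 k, z i‖ ≤ B) :
    ‖∑ i ∈ Icc 1 N, (f i : ℂ) * z i‖ ≤ B := by
  rcases Nat.eq_zero_or_pos N with rfl | hN
  · simpa using hB0
  have key : ∀ k, 1 ≤ k → k ≤ N →
      ‖(∑ i ∈ Icc 1 k, (f i : ℂ) * z i) - (f k : ℂ) * ∑ i ∈ Icc 1 k, z i‖ ≤ (f 1 - f k) * B := by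
    intro k hk
    induction k, hk using Nat.le_induction with
    | base => intro _; simp
    | succ k hk ih =>
      intro hkN
      rw [sum_Icc_succ_top (by omega), sum_Icc_succ_top (by omega)]
      rw [show (∑ i ∈ Icc 1 k, (f i : ℂ) * z i) + (f (k + 1) : ℂ) * z (k + 1) -
          (f (k + 1) : ℂ) * ((∑ i ∈ Icc 1 k, z i) + z (k + 1)) =
        ((∑ i ∈ Icc 1 k, (f i : ℂ) * z i) - (f k : ℂ) * ∑ i ∈ Icc 1 k, z i) +
          ((f k - f (k + 1) : ℝ) : ℂ) * ∑ i ∈ Icc 1 k, z i by push_cast; ring]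
      refine (norm_add_le _ _).trans ?_
      rw [norm_mul, Complex.norm_real, Real.norm_of_nonneg (sub_nonneg.2 (hanti k hk (by omega)))]
      have := mul_le_mul_of_nonneg_left (hB k (by omega)) (sub_nonneg.2 (hanti k hk (by omega)))
      linarith [ih (by omega)]
  have h := key N hN le_rfl
  have h2 : ‖(f N : ℂ) * ∑ i ∈ Icc 1 N, z i‖ ≤ f N * B := by
    rw [norm_mul, Complex.norm_real, Real.norm_of_nonneg (hf N hN le_rfl).1]
    exact mul_le_mul_of_nonneg_left (hB N le_rfl) (hf N hN le_rfl).1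
  have h3 := norm_add_le ((∑ i ∈ Icc 1 N, (f i : ℂ) * z i) - (f N : ℂ) * ∑ i ∈ Icc 1 N, z i)
    ((f N : ℂ) * ∑ i ∈ Icc 1 N, z i)
  rw [sub_add_cancel] at h3
  have h4 := mul_le_mul_of_nonneg_right (hf 1 le_rfl hN).2 hB0
  linarith

/-- **A smooth square on the arc about `0`.** -/
theorem norm_arcInt_sub_le {f : ℕ → ℝ} {X M J : ℕ} (_hX : 1 ≤ X) (hM : 3 * X ≤ M) (hJ : 2 * J < M) (hJ0 : 0 < J)
    (hf : ∀ i, 1 ≤ i → i ≤ X → 0 ≤ f i ∧ f i ≤ 1) (hanti : ∀ i, 1 ≤ i → i < X → f (i + 1) ≤ f i)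
    {n : ℕ} (hn : n ≤ X) :
    ‖arcInt M J (fun x => trigSum (fun i => (f i : ℂ)) X x) (fun x => trigSum (fun i => (f i : ℂ)) X x) n -
        FA.AlmostGoldbach.pairSum (fun i => (f i : ℂ)) X n‖ ≤
      (M : ℝ) / (2 * J) * (5 / (2 * J) + 2 * (1 + Real.log M)) := by
  have hM0 : 0 < M := by omega
  have : NeZero M := ⟨hM0.ne'⟩
  have hM' : (0 : ℝ) < M := Nat.cast_pos.2 hM0
  have hJ' : (0 : ℝ) < J := Nat.cast_pos.2 hJ0
  obtain ⟨T, hT⟩ : ∃ T : ℝ → ℂ, T = fun x => trigSum (fun i => (f i : ℂ)) X x := ⟨_, rfl⟩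
  obtain ⟨A, hA⟩ : ∃ A : Finset ℕ, A = (Icc (-(J : ℤ)) J).image fun j => gridPt M j := ⟨_, rfl⟩
  have hz : centreIdx M ⟨1, 0⟩ = 0 := by simp [centreIdx, centre]
  have hAarc : A = bigArc M J ⟨1, 0⟩ := by rw [hA, bigArc, hz]; simp
  have hAsub : A ⊆ range M := hA ▸ image_subset_iff.2 fun j _ => mem_range.2 (gridPt_lt hM0 j)
  have hfull : ∑ h ∈ range M, T ((h : ℝ) / M) ^ 2 * eAdd (-(n * ((h : ℝ) / M))) =
      M * FA.AlmostGoldbach.pairSum (fun i => (f i : ℂ)) X n := by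
    rw [← FA.AlmostGoldbach.sum_square_grid (fun i => (f i : ℂ)) hM hn 0, hT]
    simp only [add_zero]
  have harc : arcInt M J T T n = (∑ h ∈ A, T ((h : ℝ) / M) ^ 2 * eAdd (-(n * ((h : ℝ) / M)))) / M := by
    rw [arcInt, hAarc, sum_bigArc hJ]
    congr 1
    refine sum_congr rfl fun j _ => ?_
    rw [hz, zero_add, gridPt_cast hM0, hT]
    dsimp only
    rw [trigSum_add_intCast, eAdd_neg_mul_add_intCast, sq]
  rw [← hT, harc]
  have e : (∑ h ∈ A, T ((h : ℝ) / M) ^ 2 * eAdd (-(n * ((h : ℝ) / M)))) / M -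
      FA.AlmostGoldbach.pairSum (fun i => (f i : ℂ)) X n =
      -(∑ h ∈ range M \ A, T ((h : ℝ) / M) ^ 2 * eAdd (-(n * ((h : ℝ) / M)))) / M := by
    rw [eq_div_iff (Nat.cast_ne_zero.2 hM0.ne'), sub_mul, div_mul_cancel₀ _ (Nat.cast_ne_zero.2 hM0.ne'),
      mul_comm _ (M : ℂ), ← hfull, ← sum_sdiff hAsub]
    ring
  rw [e, norm_div, norm_neg, Complex.norm_natCast, div_le_iff₀ hM']
  obtain ⟨Z, hZ⟩ : ∃ Z : ℝ, Z = (M : ℝ) / (2 * J) := ⟨_, rfl⟩
  have hZ0 : 0 ≤ Z := by rw [hZ]; positivity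
  refine (norm_sum_le _ _).trans ((sum_le_sum (g := fun h : ℕ => Z * clip Z ((h : ℝ) / M - centre ⟨1, 0⟩))
    fun h hh => ?_).trans ?_)
  · rw [mem_sdiff, mem_range] at hh
    have hd : (J : ℝ) / M ≤ nearDist ((h : ℝ) / M) := by
      by_contra hlt
      rw [not_le, nearDist] at hlt
      obtain ⟨k, hk⟩ : ∃ k : ℤ, k = round ((h : ℝ) / M) := ⟨_, rfl⟩
      rw [← hk] at hlt
      refine hh.2 (hA ▸ mem_image.2 ⟨(h : ℤ) - k * M, mem_Icc.2 ?_, gridPt_natCast hh.1 ⟨k, by ring⟩⟩)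
      have e : (h : ℝ) / M - k = (((h : ℤ) - k * M : ℤ) : ℝ) / M := by
        push_cast
        field_simp
      rw [e, abs_div, abs_of_pos hM', div_lt_div_iff_of_pos_right hM', abs_lt] at hlt
      constructor
      · exact_mod_cast hlt.1.le
      · exact_mod_cast hlt.2.le
    have hd0 : 0 < nearDist ((h : ℝ) / M) := lt_of_lt_of_le (by positivity) hd
    have hT' : ‖T ((h : ℝ) / M)‖ ≤ 1 / (2 * nearDist ((h : ℝ) / M)) := by
      simp only [hT, trigSum]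
      refine norm_sum_antitone_le hf hanti (by positivity) fun k _ => ?_
      have h2 := FA.ThreePrimes.norm_geom_le ((h : ℝ) / M) 0 k
      rw [show Icc 1 k = Ioc 0 k from rfl]
      exact h2.trans (FA.ThreePrimes.clip_le_inv hd0 le_rfl)
    have hle : 1 / (2 * nearDist ((h : ℝ) / M)) ≤ Z := by
      rw [hZ, show (M : ℝ) / (2 * J) = 1 / (2 * ((J : ℝ) / M)) by field_simp]
      exact one_div_le_one_div_of_le (by positivity) (by linarith)
    have hc : clip Z ((h : ℝ) / M - centre ⟨1, 0⟩) = 1 / (2 * nearDist ((h : ℝ) / M)) := by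
      rw [show centre ⟨1, 0⟩ = 0 by simp [centre], sub_zero, clip, if_neg hd0.ne', min_eq_right hle]
    rw [norm_mul, FA.ThreePrimes.norm_eAdd, mul_one, norm_pow, sq, hc]
    exact mul_le_mul (hT'.trans hle) hT' (norm_nonneg _) hZ0
  · rw [← mul_sum, mul_assoc, ← hZ]
    refine mul_le_mul_of_nonneg_left ((sum_le_sum_of_subset_of_nonneg sdiff_subset
      fun i _ _ => FA.ThreePrimes.clip_nonneg hZ0 _).trans
      ((FA.ThreePrimes.sum_clip_grid_le (centre ⟨1, 0⟩) hZ0).trans (le_of_eq ?_))) hZ0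
    rw [hZ]
    ring

end FA.MontgomeryVaughan

end
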