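import Fermat.Agent.MontgomeryVaughan.Formula

/-!
# The exceptional set in Goldbach's problem

All but `C X ^ (1 - δ)` even `n ≤ X` have at least `n ^ (1 - δ)` representations as a sum of two primes.
When the modulus `r` of the exceptional zero is small and shares a prime with `n` the cross terms vanish
and the main term is `n (1 - n ^ (β - 1))`, which the lower bound on `1 - β` keeps above `n Q ^ (-1/16)`.
-/

set_option autoImplicit false
set_option linter.unusedSectionVars false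

noncomputable section

open Finset Complex ArithmeticFunction Filter
open FA.AlmostGoldbach (pairSum pairSeries pairTerm pairW goldbachCount pairConst)
open FA.Gallagher (family mem_family lfun lfun_eq)
open FA.LinnikPrime (lg exists_one_sub_zero_ge clear_of_ne_one)
open scoped Real Classical Topology

namespace FA.MontgomeryVaughan

/-- The real part of the formula. -/
theorem le_of_norm_formula {a x err : ℝ} {P B D I I' : ℂ}
    (h : ‖P - ((a : ℂ) * (x : ℂ) - 2 * B * I + D * I')‖ ≤ err) :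
    a * x - 2 * (‖B‖ * ‖I‖) - ‖D‖ * ‖I'‖ - err ≤ P.re := by
  have h1 := (Complex.abs_re_le_norm _).trans h
  rw [abs_le, Complex.sub_re, Complex.add_re, Complex.sub_re, Complex.re_ofReal_mul, Complex.ofReal_re] at h1
  have h2 := (le_abs_self _).trans (Complex.abs_re_le_norm (2 * B * I))
  have h3 := (neg_le_abs _).trans (Complex.abs_re_le_norm (D * I'))
  rw [norm_mul, norm_mul, Complex.norm_ofNat] at h2
  rw [norm_mul] at h3
  linarith [h1.1]

theorem exp_neg_le {d : ℝ} (hd : 0 ≤ d) (hd1 : d ≤ 1) : Real.exp (-d) ≤ 1 - d / 2 := by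
  rw [Real.exp_neg, inv_le_iff_one_le_mul₀ (Real.exp_pos _)]
  refine le_trans ?_ (mul_le_mul_of_nonneg_left (Real.add_one_le_exp d) (by linarith))
  nlinarith

theorem pairConst_nonneg : 0 ≤ pairConst :=
  mul_nonneg (by norm_num) (tsum_nonneg fun m => Real.rpow_nonneg (Nat.cast_nonneg m) _)

/-- The cut series of the principal pair. -/
theorem exists_main_coef {n Q : ℕ} {D : ℝ} (hn : n ≠ 0) (hQ : 1 ≤ Q)
    (hD : (n.divisors.card : ℝ) ≤ D * (Q : ℝ) ^ (1 / 8 : ℝ)) :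
    ∃ a : ℝ, pairCoef unitChar unitChar Q n = (a : ℂ) ∧
      |pairSeries n - a| ≤ pairConst * D * (Q : ℝ) ^ (-(1 / 8) : ℝ) := by
  have hQ0 : (0 : ℝ) < Q := Nat.cast_pos.2 hQ
  refine ⟨_, pairCoef_unit_unit Q n, (FA.AlmostGoldbach.abs_pairSeries_sub_le hn Q).trans ?_⟩
  refine (mul_le_mul (mul_le_mul_of_nonneg_left hD pairConst_nonneg)
    (Real.rpow_le_rpow_of_nonpos hQ0 (Nat.cast_le.2 (Nat.le_succ Q)) (by norm_num)) (by positivity)
    (mul_nonneg pairConst_nonneg ((Nat.cast_nonneg _).trans hD))).trans (le_of_eq ?_)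
  rw [← mul_assoc pairConst D, mul_assoc (pairConst * D), ← Real.rpow_add hQ0]
  norm_num

/-- The square of the exceptional character, cut at `Q`. -/
theorem norm_exc_cut_le {u : Σ r : ℕ, DirichletCharacter ℂ r} [NeZero u.1] (hu : u.2.IsPrimitive)
    (hsq : u.2 ^ 2 = 1) {n Q : ℕ} {D : ℝ} (hn : n ≠ 0) (heven : Even n) (hQ : 1 ≤ Q)
    (hD : (n.divisors.card : ℝ) ≤ D * (Q : ℝ) ^ (1 / 8 : ℝ))
    (hr : (u.1 : ℝ) ^ (1 / 2 : ℝ) ≤ (Q : ℝ) ^ (1 / 64 : ℝ)) :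
    ‖pairCoef u u Q n‖ ≤ pairSeries n + 2 * pairConst * D * (Q : ℝ) ^ (-(7 / 64) : ℝ) := by
  have hQ0 : (0 : ℝ) < Q := Nat.cast_pos.2 hQ
  have hr0 : (0 : ℝ) < u.1 := Nat.cast_pos.2 (NeZero.pos u.1)
  obtain ⟨ec, hec⟩ : ∃ ec : ℝ, ec = (u.1 : ℝ) * |FA.ThreePrimes.ramanujan n u.1| / (u.1.totient : ℝ) ^ 2 :=
    ⟨_, rfl⟩
  have hec0 : 0 ≤ ec := by rw [hec]; positivity
  refine (norm_pairCoef_exc_le u hu hsq Q n).trans ?_
  rw [← hec]
  have h1 := abs_coprimeSeries_sub_le hn u.1 (Q / u.1)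
  have h2 : |∑ m ∈ Icc 1 (Q / u.1), coprimeTerm n u.1 m| ≤ coprimeSeries n u.1 +
      |coprimeSeries n u.1 - ∑ m ∈ Icc 1 (Q / u.1), coprimeTerm n u.1 m| := by
    have h3 := coprimeSeries_nonneg hn heven u.1
    have := abs_sub_abs_le_abs_sub (∑ m ∈ Icc 1 (Q / u.1), coprimeTerm n u.1 m) (coprimeSeries n u.1)
    rw [abs_sub_comm (∑ m ∈ Icc 1 (Q / u.1), coprimeTerm n u.1 m)] at this
    rw [abs_of_nonneg h3] at this
    linarith
  refine (mul_le_mul_of_nonneg_left (h2.trans (add_le_add le_rfl h1)) hec0).trans ?_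
  rw [mul_add]
  refine add_le_add (hec ▸ exc_series_le hn heven (NeZero.pos u.1)) ?_
  have h4 : ((Q / u.1 + 1 : ℕ) : ℝ) ^ (-(1 / 4) : ℝ) ≤ (u.1 : ℝ) ^ (1 / 4 : ℝ) * (Q : ℝ) ^ (-(1 / 4) : ℝ) := by
    refine (Real.rpow_le_rpow_of_nonpos (show 0 < (Q : ℝ) / u.1 by positivity) ?_ (by norm_num)).trans
      (le_of_eq ?_)
    · rw [← Nat.floor_div_eq_div (K := ℝ) Q u.1]
      push_cast
      exact (Nat.lt_floor_add_one _).le
    · rw [Real.div_rpow hQ0.le hr0.le, div_eq_mul_inv, ← Real.rpow_neg hr0.le, neg_neg, mul_comm]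
  have hD' := mul_le_mul_of_nonneg_left hD pairConst_nonneg
  refine (mul_le_mul (hec ▸ (exc_coef_le hn (NeZero.pos u.1)).2) (mul_le_mul hD' h4 (by positivity)
    (mul_nonneg pairConst_nonneg ((Nat.cast_nonneg _).trans hD)))
    (mul_nonneg (mul_nonneg pairConst_nonneg (Nat.cast_nonneg _)) (by positivity)) (by positivity)).trans ?_
  have e : 2 * (u.1 : ℝ) ^ (1 / 4 : ℝ) * (pairConst * (D * (Q : ℝ) ^ (1 / 8 : ℝ)) *
      ((u.1 : ℝ) ^ (1 / 4 : ℝ) * (Q : ℝ) ^ (-(1 / 4) : ℝ))) =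
      2 * pairConst * D * ((u.1 : ℝ) ^ (1 / 2 : ℝ) * (Q : ℝ) ^ (-(1 / 8) : ℝ)) := by
    rw [show (1 / 2 : ℝ) = 1 / 4 + 1 / 4 by norm_num, Real.rpow_add hr0,
      show (-(1 / 8) : ℝ) = 1 / 8 + -(1 / 4) by norm_num, Real.rpow_add hQ0]
    ring
  rw [e]
  refine (mul_le_mul_of_nonneg_left (mul_le_mul_of_nonneg_right hr (by positivity)) ?_).trans (le_of_eq ?_)
  · refine mul_nonneg (mul_nonneg zero_le_two pairConst_nonneg) ?_
    exact nonneg_of_mul_nonneg_left ((Nat.cast_nonneg _).trans hD) (Real.rpow_pos_of_pos hQ0 _)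
  · rw [← Real.rpow_add hQ0]
    norm_num

/-- The threshold for the cross terms. -/
def crossEta : ℝ := 1 / (600 * pairZ)

theorem crossEta_pos : 0 < crossEta := one_div_pos.2 (mul_pos (by norm_num) (zero_lt_one.trans_le one_le_pairZ))

theorem crossEta_le_one : crossEta ≤ 1 := by
  rw [crossEta, div_le_one (mul_pos (by norm_num) (zero_lt_one.trans_le one_le_pairZ))]
  linarith [one_le_pairZ]

/-- The exceptional square, by the common divisor. -/
theorem norm_exc_le_of_gcd {u : Σ r : ℕ, DirichletCharacter ℂ r} [NeZero u.1] (hu : u.2.IsPrimitive)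
    (hsq : u.2 ^ 2 = 1) {n : ℕ} (hn : n ≠ 0) (Q : ℕ)
    (h : (Nat.gcd n u.1 : ℝ) ^ 2 * (u.1 : ℝ) ^ (-(1 / 2) : ℝ) ≤ crossEta) :
    ‖pairCoef u u Q n‖ ≤ 4 * crossEta * (pairZ * ratio n) := by
  refine (norm_pairCoef_exc_le u hu hsq Q n).trans (mul_le_mul ((exc_coef_le hn (NeZero.pos u.1)).1.trans ?_)
    (abs_partial_coprime_le hn u.1 (Q / u.1)) (abs_nonneg _) (mul_nonneg (by norm_num) crossEta_pos.le))
  rw [mul_assoc]
  exact mul_le_mul_of_nonneg_left h (by norm_num)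

/-- **The arcs give a positive main term.** For every even `n` in `(X / 2, X]` and every `P` near the sum over
pairs of characters, `P` has real part at least `X / 20` if there is no exceptional zero; otherwise at least
`- 20 pairZ n / φ n X`, at least `X / 20` when the exceptional square is small, and at least `X Q ^ (-1/16)`
when `n` shares a prime with a modulus `≤ Q ^ θ`. -/
theorem exists_major_ge (r₁ : ℕ) : ∃ (K : ℕ) (θ : ℝ), 40 ≤ K ∧ 0 < θ ∧ θ ≤ 1 / 32 ∧ ∀ᶠ X : ℕ in atTop,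
    ∀ Q, Q = level K X → ∃ H M J Y : ℕ, Params X Q H M J Y ∧ LevelBounds X Q ∧
      (X : ℝ) * (Q : ℝ) ^ (-(1 / 16) : ℝ) ≤ X / 20 ∧
      ((∀ n ∈ Ioc (X / 2) X, Even n → ∀ P : ℂ, ‖P -
          ∑ u ∈ family Q, ∑ v ∈ family Q, pairCoef u v Q n * arcInt M J (charSum u X) (charSum v X) n‖ ≤
            2 * X * (Q : ℝ) ^ (-(1 / 8) : ℝ) → (X : ℝ) / 20 ≤ P.re) ∨
        ∃ u ∈ family Q, u.2 ≠ 1 ∧ u.2 ^ 2 = 1 ∧ r₁ ≤ u.1 ∧
          (u.1 : ℝ) ^ (-(1 / 4) : ℝ) ≤ crossEta ∧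
          ∀ n ∈ Ioc (X / 2) X, Even n → ∀ P : ℂ, ‖P -
            ∑ u ∈ family Q, ∑ v ∈ family Q, pairCoef u v Q n * arcInt M J (charSum u X) (charSum v X) n‖ ≤
              2 * X * (Q : ℝ) ^ (-(1 / 8) : ℝ) →
            -(20 * pairZ * ratio n * X) ≤ P.re ∧
              (‖pairCoef u u Q n‖ ≤ 4 * crossEta * (pairZ * ratio n) → (X : ℝ) / 20 ≤ P.re) ∧
              (¬n.Coprime u.1 → (u.1 : ℝ) ≤ (Q : ℝ) ^ θ → (X : ℝ) * (Q : ℝ) ^ (-(1 / 16) : ℝ) ≤ P.re)) := by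
  obtain ⟨K, hK, hform⟩ := exists_formula_pairs (show (0 : ℝ) < 1 / 100 by norm_num)
  have hK0 : 0 < K := by omega
  obtain ⟨G, hG, hsieg⟩ := exists_one_sub_zero_ge
  obtain ⟨θ, hθ⟩ : ∃ θ : ℝ, θ = 1 / (32 * G) := ⟨_, rfl⟩
  have hθ0 : 0 < θ := by rw [hθ]; positivity
  have hθG : G * θ = 1 / 32 := by rw [hθ]; field_simp
  have hθ32 : θ ≤ 1 / 32 := by
    rw [hθ]
    exact one_div_le_one_div_of_le (by norm_num) (by linarith)
  obtain ⟨C₁, hC₁, hdiv₁⟩ := FA.RepresentationBound.card_divisors_isBigO (1 / (8 * (K : ℝ))) (by positivity)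
  have hpz := one_le_pairZ
  obtain ⟨η, hη⟩ : ∃ η : ℝ, η = crossEta := ⟨_, rfl⟩
  have hη0 : 0 < η := hη ▸ crossEta_pos
  have hη1 : η ≤ 1 := hη ▸ crossEta_le_one
  obtain ⟨r₀, hr₀⟩ : ∃ r₀ : ℕ, r₀ = max r₁ ⌈η⁻¹ ^ 4⌉₊ := ⟨_, rfl⟩
  obtain ⟨Cp, hCp⟩ : ∃ Cp : ℝ, Cp = pairConst * (2 * C₁) := ⟨_, rfl⟩
  have hCp0 : 0 ≤ Cp := hCp ▸ mul_nonneg pairConst_nonneg (by linarith)
  refine ⟨K, θ, hK, hθ0, hθ32, ?_⟩
  filter_upwards [hform, (tendsto_level hK0).eventually_ge_atTop 3,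
    (Real.tendsto_log_atTop.comp (tendsto_natCast_atTop_atTop.comp (tendsto_level hK0))).eventually_gt_atTop
      (Real.exp (G * (Real.log r₀ + 4))),
    eventually_log_pow_le hK0 0 (100 * (3 * Cp + 1) * Real.exp (4 * G)) (show (0 : ℝ) < 5 / 64 by norm_num),
    eventually_log_pow_le hK0 0 (20 * Real.exp (4 * G)) (show (0 : ℝ) < 1 / 32 by norm_num),
    (Real.tendsto_log_atTop.comp tendsto_natCast_atTop_atTop).eventually_ge_atTop 3,
    eventually_ge_atTop 10] with X hX hQ3 hlQbig hs1 hs2 hl hX10 Q hQeq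
  rw [← hQeq] at hQ3 hs1 hs2
  simp only [Function.comp_apply, ← hQeq] at hlQbig hl
  rw [pow_zero, mul_one] at hs1 hs2
  have hQ0 : (0 : ℝ) < Q := Nat.cast_pos.2 (by omega)
  have hQ1 : (1 : ℝ) ≤ Q := Nat.one_le_cast.2 (by omega)
  have hX0 : (0 : ℝ) < X := Nat.cast_pos.2 (by omega)
  obtain ⟨hQK, hXQ⟩ : (Q : ℝ) ^ K ≤ X ∧ (X : ℝ) ≤ (2 * (Q : ℝ)) ^ K :=
    hQeq ▸ level_bounds hK0 (hQeq ▸ by omega)
  obtain ⟨lQ, hlQ⟩ : ∃ lQ, lQ = Real.log Q := ⟨_, rfl⟩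
  have hlQ1 : 1 ≤ lQ := by
    have h1 : (3 : ℝ) ≤ Q := by exact_mod_cast hQ3
    rw [hlQ, Real.le_log_iff_exp_le hQ0]
    linarith [Real.exp_one_lt_d9]
  have hKl : (K : ℝ) * lQ ≤ Real.log X := by
    rw [hlQ, ← Real.log_pow]
    exact Real.log_le_log (by positivity) hQK
  obtain ⟨U, hU⟩ : ∃ U : ℝ, U = (3 * Cp + 1) * (Q : ℝ) ^ (-(7 / 64) : ℝ) := ⟨_, rfl⟩
  obtain ⟨d₀, hd₀⟩ : ∃ d₀ : ℝ, d₀ = (Real.exp (4 * G))⁻¹ * (Q : ℝ) ^ (-(1 / 32) : ℝ) := ⟨_, rfl⟩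
  have hd₀0 : 0 < d₀ := by rw [hd₀]; positivity
  have hUd : 100 * U ≤ d₀ := by
    rw [hU, hd₀, le_inv_mul_iff₀ (Real.exp_pos _)]
    calc Real.exp (4 * G) * (100 * ((3 * Cp + 1) * (Q : ℝ) ^ (-(7 / 64) : ℝ)))
        = 100 * (3 * Cp + 1) * Real.exp (4 * G) * (Q : ℝ) ^ (-(7 / 64) : ℝ) := by ring
      _ ≤ (Q : ℝ) ^ (5 / 64 : ℝ) * (Q : ℝ) ^ (-(7 / 64) : ℝ) := mul_le_mul_of_nonneg_right hs1 (by positivity)
      _ = _ := by rw [← Real.rpow_add hQ0]; norm_num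
  have hout : (Q : ℝ) ^ (-(1 / 16) : ℝ) ≤ d₀ / 20 := by
    rw [hd₀, le_div_iff₀ (by norm_num), le_inv_mul_iff₀ (Real.exp_pos _)]
    calc Real.exp (4 * G) * ((Q : ℝ) ^ (-(1 / 16) : ℝ) * 20)
        = 20 * Real.exp (4 * G) * (Q : ℝ) ^ (-(1 / 16) : ℝ) := by ring
      _ ≤ (Q : ℝ) ^ (1 / 32 : ℝ) * (Q : ℝ) ^ (-(1 / 16) : ℝ) := mul_le_mul_of_nonneg_right hs2 (by positivity)
      _ = _ := by rw [← Real.rpow_add hQ0]; norm_num
  have hd₀1 : d₀ ≤ 1 := by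
    rw [hd₀]
    exact mul_le_one₀ (inv_le_one_of_one_le₀ (Real.one_le_exp (by linarith))) (by positivity)
      (Real.rpow_le_one_of_one_le_of_nonpos hQ1 (by norm_num))
  have hsmall : Cp * (Q : ℝ) ^ (-(1 / 8) : ℝ) ≤ Cp * (Q : ℝ) ^ (-(7 / 64) : ℝ) ∧
      (Q : ℝ) ^ (-(1 / 9) : ℝ) ≤ (Q : ℝ) ^ (-(7 / 64) : ℝ) :=
    ⟨mul_le_mul_of_nonneg_left (Real.rpow_le_rpow_of_exponent_le hQ1 (by norm_num)) hCp0,
      Real.rpow_le_rpow_of_exponent_le hQ1 (by norm_num)⟩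
  have hU0 : 0 ≤ (Q : ℝ) ^ (-(7 / 64) : ℝ) := by positivity
  have hgood : ∀ n ∈ Ioc (X / 2) X, Even n → n ≠ 0 ∧ (2 / 5 * (X : ℝ) ≤ (n : ℝ) - 1) ∧
      (n : ℝ) - 1 ≤ X ∧ Real.log X / 2 ≤ Real.log ((n : ℝ) / 2) ∧ 1 / 2 * ratio n ≤ pairSeries n ∧
      (n.divisors.card : ℝ) ≤ 2 * C₁ * (Q : ℝ) ^ (1 / 8 : ℝ) ∧ n ∈ Icc 2 X := by
    intro n hn heven
    rw [mem_Ioc] at hn
    have h2n : X < 2 * n := by omega
    have hn0 : n ≠ 0 := by omega
    have h2n' : (X : ℝ) + 1 ≤ 2 * n := by exact_mod_cast h2n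
    have hnX : (n : ℝ) ≤ X := Nat.cast_le.2 hn.2
    have hX10' : (10 : ℝ) ≤ X := by exact_mod_cast hX10
    refine ⟨hn0, by linarith, by linarith, ?_, by linarith [half_ratio_le_pairSeries hn0 heven], ?_,
      mem_Icc.2 ⟨by omega, hn.2⟩⟩
    · have h1 := Real.log_le_log (show 0 < (X : ℝ) / 4 by positivity) (show (X : ℝ) / 4 ≤ (n : ℝ) / 2 by linarith)
      rw [Real.log_div (by positivity) (by norm_num), show (4 : ℝ) = 2 ^ 2 by norm_num, Real.log_pow] at h1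
      push_cast at h1
      linarith [Real.log_two_lt_d9]
    · refine (hdiv₁ n hn0).trans (le_trans (mul_le_mul_of_nonneg_left ?_ (by linarith))
        (le_of_eq (show C₁ * (2 * (Q : ℝ) ^ (1 / 8 : ℝ)) = _ by ring)))
      refine ((Real.rpow_le_rpow (Nat.cast_nonneg n) (hnX.trans hXQ) (by positivity))).trans ?_
      rw [← Real.rpow_natCast_mul (by positivity), show (K : ℝ) * (1 / (8 * K)) = 1 / 8 by field_simp,
        Real.mul_rpow two_pos.le hQ0.le]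
      exact mul_le_mul_of_nonneg_right (Real.rpow_le_self_of_one_le one_le_two (by norm_num)) (by positivity)
  obtain ⟨H, M, J, Y, hPar, hb, hcases⟩ := hX Q hQeq
  have hquot : (X : ℝ) * (Q : ℝ) ^ (-(1 / 16) : ℝ) ≤ X / 20 := by
    exact (mul_le_mul_of_nonneg_left (hout.trans (show d₀ / 20 ≤ 1 / 20 by linarith)) hX0.le).trans
      (le_of_eq (by ring))
  refine ⟨H, M, J, Y, hPar, hb, hquot, ?_⟩
  rcases hcases with hP | ⟨u, hu, hu1, hu2, β, hz, -, hβ1, hd1, hP⟩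
  · refine Or.inl fun n hn heven P hclose => ?_
    obtain ⟨hn0, hn1, hn2, -, hser, hdivn, hn2X⟩ := hgood n hn heven
    obtain ⟨a, ha, ha'⟩ := exists_main_coef hn0 (by omega : 1 ≤ Q) hdivn
    have h := hP n hn2X P hclose
    rw [ha] at h
    have h1 := le_of_norm_formula (P := P) (a := a) (x := (n : ℝ) - 1) (err := 1 / 100 * ratio n * X)
      (B := 0) (D := 0) (I := 0) (I' := 0) (by simpa using h)
    rw [norm_zero, mul_zero, mul_zero, sub_zero, sub_zero] at h1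
    rw [← hCp] at ha'
    have hρ := one_le_ratio n
    have h2 := mul_le_mul hser hn1 (by positivity) (le_trans (by positivity) hser)
    have h3 : -(Cp * (Q : ℝ) ^ (-(1 / 8) : ℝ)) * ((n : ℝ) - 1) ≤ (a - pairSeries n) * ((n : ℝ) - 1) :=
      mul_le_mul_of_nonneg_right (by linarith [(abs_le.1 ha').2]) (le_trans (by positivity) hn1)
    have h4 := mul_le_mul_of_nonneg_left hn2 (mul_nonneg hCp0 (show 0 ≤ (Q : ℝ) ^ (-(1 / 8) : ℝ) by positivity))
    have h5 : Cp * (Q : ℝ) ^ (-(1 / 8) : ℝ) ≤ 1 / 100 := by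
      rw [hU] at hUd
      linarith [hsmall.1, mul_nonneg hCp0 hU0]
    have h6 := mul_le_mul_of_nonneg_right h5 hX0.le
    have h7 := mul_le_mul_of_nonneg_right hρ hX0.le
    linarith
  obtain ⟨hu0, huQ, huprim⟩ := mem_family.1 hu
  have : NeZero u.1 := ⟨by omega⟩
  have hr1 : (1 : ℝ) ≤ u.1 := Nat.one_le_cast.2 hu0
  rw [← hlQ] at hd1
  have hδ0 : 0 < 1 - β := by linarith
  obtain ⟨d, hd⟩ : ∃ d, d = (1 - β) * lQ := ⟨_, rfl⟩
  rw [← hd] at hd1
  have hd0 : 0 ≤ d := hd ▸ mul_nonneg hδ0.le (by linarith)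
  have hlow : Real.exp (-(G * lg u.1)) * lQ ≤ d := by
    rw [lfun_eq, clear_of_ne_one hu1] at hz
    exact hd ▸ mul_le_mul_of_nonneg_right (hsieg u.1 u.2 hu1 hu2 β hz) (by linarith)
  have hbig : r₀ ≤ u.1 := by
    by_contra hlt
    have h1 : Real.log u.1 ≤ Real.log r₀ := Real.log_le_log (by linarith) (Nat.cast_le.2 (not_le.1 hlt).le)
    have h2 : 1 < d := by
      refine lt_of_lt_of_le ?_ hlow
      rw [Real.exp_neg, ← div_eq_inv_mul, one_lt_div (Real.exp_pos _), lg, hlQ]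
      refine lt_of_le_of_lt (Real.exp_le_exp.2 (mul_le_mul_of_nonneg_left ?_ (by linarith))) hlQbig
      linarith
    linarith
  have hr4 : (u.1 : ℝ) ^ (-(1 / 4) : ℝ) ≤ η := by
    refine (Real.rpow_le_rpow_of_nonpos (show 0 < η⁻¹ ^ 4 by positivity)
      ((Nat.le_ceil _).trans (Nat.cast_le.2 ((hr₀ ▸ le_max_right _ _).trans hbig))) (by norm_num)).trans
        (le_of_eq ?_)
    rw [← Real.rpow_natCast_mul (by positivity), show ((4 : ℕ) : ℝ) * -(1 / 4) = -1 by norm_num,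
      Real.rpow_neg_one, inv_inv]
  refine Or.inr ⟨u, hu, hu1, hu2, (hr₀ ▸ le_max_left _ _).trans hbig, hη ▸ hr4, fun n hn heven P hclose => ?_⟩
  obtain ⟨hn0, hn1, hn2, hlog, hser, hdivn, hn2X⟩ := hgood n hn heven
  obtain ⟨a, ha, ha'⟩ := exists_main_coef hn0 (by omega : 1 ≤ Q) hdivn
  rw [← hCp] at ha'
  obtain ⟨I, I', hI, hI', h⟩ := hP n hn2X P hclose
  rw [← hlQ, ha, ← hd] at h
  have hR := le_of_norm_formula h
  have hρ := one_le_ratio n
  have hρX : (X : ℝ) ≤ ratio n * X := le_mul_of_one_le_left hX0.le hρ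
  have hexp1 : Real.exp (-((1 - β) * Real.log ((n : ℝ) / 2))) ≤ Real.exp (-d) := by
    rw [Real.exp_le_exp, neg_le_neg_iff, hd]
    refine mul_le_mul_of_nonneg_left (le_trans ?_ hlog) hδ0.le
    have : (40 : ℝ) ≤ K := by exact_mod_cast hK
    have := mul_le_mul_of_nonneg_right this (show 0 ≤ lQ by linarith)
    linarith
  have hI2 : ‖I'‖ ≤ X := hI'.trans ((mul_le_of_le_one_right (le_trans (by positivity) hn1) (hexp1.trans
    (Real.exp_le_one_iff.2 (by linarith)))).trans hn2)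
  have hB : ‖pairCoef unitChar u Q n‖ ≤ 4 * pairZ * η * ratio n :=
    (norm_pairCoef_unit_le u huprim Q hn0).trans (mul_le_mul_of_nonneg_right
      (mul_le_mul_of_nonneg_left hr4 (by linarith)) (by linarith))
  refine ⟨?_, fun hD => ?_, fun hnc hrθ => ?_⟩
  · have hA : |a| ≤ 4 * pairZ * ratio n := by
      have := norm_pairCoef_le unitChar unitChar unitChar_isPrimitive unitChar_isPrimitive Q hn0
      rwa [ha, Complex.norm_real, Real.norm_eq_abs] at this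
    have hD := norm_pairCoef_le u u huprim huprim Q hn0
    have t1 := mul_le_mul hB hI (norm_nonneg _) ((norm_nonneg _).trans hB)
    have t2 := mul_le_mul hD hI2 (norm_nonneg _) ((norm_nonneg _).trans hD)
    have t3 : -(4 * pairZ * ratio n * X) ≤ a * ((n : ℝ) - 1) := by
      have h1 : |a * ((n : ℝ) - 1)| ≤ 4 * pairZ * ratio n * X := by
        rw [abs_mul, abs_of_nonneg (le_trans (by positivity) hn1)]
        exact mul_le_mul hA hn2 (le_trans (by positivity) hn1) ((abs_nonneg _).trans hA)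
      linarith [neg_abs_le (a * ((n : ℝ) - 1))]
    have t4 := mul_le_mul_of_nonneg_left hη1 (show 0 ≤ pairZ * (ratio n * X) by positivity)
    have t5 := mul_le_mul_of_nonneg_left hd1 (show 0 ≤ ratio n * X by linarith)
    have t6 := mul_le_mul_of_nonneg_left (Real.rpow_le_one_of_one_le_of_nonpos hQ1
      (show (-(1 / 9) : ℝ) ≤ 0 by norm_num)) (show 0 ≤ ratio n * X by linarith)
    have t7 := mul_le_mul_of_nonneg_right hpz (show 0 ≤ ratio n * X by linarith)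
    linarith
  · rw [← hη] at hD
    have t1 := mul_le_mul hB hI (norm_nonneg _) ((norm_nonneg _).trans hB)
    have t2 := mul_le_mul hD hI2 (norm_nonneg _) ((norm_nonneg _).trans hD)
    have t3 : 600 * (pairZ * η) = 1 := by rw [hη, crossEta]; field_simp
    have t4 : pairZ * η * (ratio n * X) = 1 / 600 * (ratio n * X) := by
      congr 1
      linarith
    have t5 := mul_le_mul hser hn1 (by positivity) (le_trans (by positivity) hser)
    have t6 := mul_le_mul_of_nonneg_right (show pairSeries n - Cp * (Q : ℝ) ^ (-(7 / 64) : ℝ) ≤ a by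
      linarith [(abs_le.1 ha').2, hsmall.1]) (le_trans (by positivity) hn1 : 0 ≤ (n : ℝ) - 1)
    have t7 : (3 * Cp + 1) * (Q : ℝ) ^ (-(7 / 64) : ℝ) ≤ 1 / 100 := by
      rw [← hU]; linarith
    have t8 := mul_le_mul_of_nonneg_left hn2 (mul_nonneg hCp0 hU0)
    have t9 := mul_le_mul_of_nonneg_left t7 (show 0 ≤ ratio n * X by linarith)
    have t10 := mul_le_mul_of_nonneg_left hsmall.2 (show 0 ≤ ratio n * X by linarith)
    have t11 := mul_le_mul_of_nonneg_left hd1 (show 0 ≤ ratio n * X by linarith)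
    have t13 := mul_le_mul_of_nonneg_right hρX (mul_nonneg (mul_nonneg (show (0 : ℝ) ≤ 3 by norm_num) hCp0) hU0)
    have t14 := mul_nonneg (show 0 ≤ ratio n * X by linarith) (mul_nonneg hCp0 hU0)
    linarith
  · rw [pairCoef_unit_eq_zero u huprim Q hnc, norm_zero, zero_mul, mul_zero, sub_zero] at hR
    have hr2 : (u.1 : ℝ) ^ (1 / 2 : ℝ) ≤ (Q : ℝ) ^ (1 / 64 : ℝ) := by
      refine (Real.rpow_le_rpow (Nat.cast_nonneg _) hrθ (by norm_num)).trans ?_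
      rw [← Real.rpow_mul hQ0.le]
      exact Real.rpow_le_rpow_of_exponent_le hQ1 (by linarith)
    have hD := norm_exc_cut_le huprim hu2 hn0 heven (by omega : 1 ≤ Q) hdivn hr2
    rw [show 2 * pairConst * (2 * C₁) = 2 * Cp by rw [hCp]; ring] at hD
    have hdd : d₀ ≤ d := by
      refine le_trans ?_ (le_trans (le_mul_of_one_le_right (Real.exp_pos _).le hlQ1) hlow)
      rw [hd₀, ← Real.exp_neg, Real.rpow_def_of_pos hQ0, ← Real.exp_add, Real.exp_le_exp, lg]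
      have h1 := mul_le_mul_of_nonneg_left (Real.log_le_log (by linarith) hrθ) (show 0 ≤ G by linarith)
      rw [Real.log_rpow hQ0, ← mul_assoc, hθG] at h1
      linarith
    have hI3 : ‖I'‖ ≤ ((n : ℝ) - 1) * (1 - d / 2) :=
      hI'.trans (mul_le_mul_of_nonneg_left (hexp1.trans (exp_neg_le hd0 hd1)) (le_trans (by positivity) hn1))
    have t1 := mul_le_mul hD hI3 (norm_nonneg _) ((norm_nonneg _).trans hD)
    have t2 := mul_le_mul_of_nonneg_right (show pairSeries n - Cp * (Q : ℝ) ^ (-(7 / 64) : ℝ) ≤ a by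
      linarith [(abs_le.1 ha').2, hsmall.1]) (le_trans (by positivity) hn1 : 0 ≤ (n : ℝ) - 1)
    have t3 : ((n : ℝ) - 1) * (1 - d / 2) ≤ X :=
      le_trans (mul_le_of_le_one_right (le_trans (by positivity) hn1) (by linarith)) hn2
    have t4 := mul_le_mul_of_nonneg_left t3 (mul_nonneg (mul_nonneg zero_le_two hCp0) hU0)
    have t5 := mul_le_mul_of_nonneg_left hn2 (mul_nonneg hCp0 hU0)
    have t6 : ratio n * X * d / 10 ≤ pairSeries n * ((n : ℝ) - 1) * (d / 2) := by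
      refine le_trans (le_of_eq ?_) (mul_le_mul_of_nonneg_right (mul_le_mul hser hn1 (by positivity)
        (le_trans (by positivity) hser)) (by positivity))
      ring
    have t7 : (3 * Cp + 1) * (Q : ℝ) ^ (-(7 / 64) : ℝ) ≤ d / 100 := by
      rw [← hU]; linarith
    have t8 := mul_le_mul_of_nonneg_left t7 (show 0 ≤ ratio n * X by linarith)
    have t9 := mul_le_mul_of_nonneg_right hρX (mul_nonneg (mul_nonneg (show (0 : ℝ) ≤ 3 by norm_num) hCp0) hU0)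
    have t10 := mul_le_mul_of_nonneg_left hsmall.2 (show 0 ≤ ratio n * X by linarith)
    have t11 := mul_le_mul hρX hdd hd₀0.le (by linarith)
    have t12 := mul_le_mul_of_nonneg_left hout hX0.le
    have t13 : 0 ≤ ratio n * X * d := mul_nonneg (by linarith) hd0
    linarith

/-- **The sum over pairs is large, but for few `n`.** -/
theorem exists_pairW_ge : ∃ (K : ℕ) (θ : ℝ), 40 ≤ K ∧ 0 < θ ∧ ∀ᶠ X : ℕ in atTop, ∀ Q, Q = level K X →
    ∃ E : Finset ℕ, (E.card : ℝ) ≤ X * (Q : ℝ) ^ (-θ) ∧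
      ∀ n ∈ Ioc (X / 2) X, Even n → n ∉ E → (X : ℝ) * (Q : ℝ) ^ (-(1 / 16) : ℝ) ≤ pairW n := by
  obtain ⟨K, θ, hK, hθ0, hθ32, hmain⟩ := exists_major_ge 0
  have hK0 : 0 < K := by omega
  obtain ⟨C₂, hC₂, hdiv₂⟩ := FA.RepresentationBound.card_divisors_isBigO (θ / 16) (by positivity)
  refine ⟨K, θ / 32, hK, by positivity, ?_⟩
  filter_upwards [hmain, eventually_log_pow_le hK0 0 crossEta⁻¹ (show (0 : ℝ) < θ / 4 by positivity),
    eventually_log_pow_le hK0 0 (1 + C₂) (show (0 : ℝ) < θ / 32 by positivity)] with X hX hs3 hs4 Q hQeq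
  rw [← hQeq, pow_zero, mul_one] at hs3 hs4
  obtain ⟨H, M, J, Y, hPar, hb, hquot, hcases⟩ := hX Q hQeq
  obtain ⟨E₁, hE₁, hclose⟩ := exists_major hPar hb.two_le hb.pow_le hb.one_le_log hb.log_nine_le hb.log_four_le
  have hQ0 : (0 : ℝ) < Q := Nat.cast_pos.2 (by linarith [hb.two_le])
  have hQ1 : (1 : ℝ) ≤ Q := Nat.one_le_cast.2 (by linarith [hb.two_le])
  have hX0 : (0 : ℝ) < X := Nat.cast_pos.2 (by linarith [hPar.two_le])
  have hcard : (X : ℝ) * (Q : ℝ) ^ (-(1 / 2) : ℝ) + X * C₂ * (Q : ℝ) ^ (-(θ / 16)) ≤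
      X * (Q : ℝ) ^ (-(θ / 32)) := by
    have h1 := Real.rpow_le_rpow_of_exponent_le hQ1 (show -(1 / 2 : ℝ) ≤ -(θ / 16) by linarith)
    have h2 := mul_le_mul_of_nonneg_right hs4 (show 0 ≤ (Q : ℝ) ^ (-(θ / 16)) by positivity)
    rw [← Real.rpow_add hQ0, show θ / 32 + -(θ / 16) = -(θ / 32) by ring] at h2
    have := mul_le_mul_of_nonneg_left h2 hX0.le
    have := mul_le_mul_of_nonneg_left h1 hX0.le
    linarith
  have hW : ∀ n ∈ Ioc (X / 2) X, pairW n = (pairSum (fun i => (Λ i : ℂ)) X n).re := fun n hn => by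
    rw [FA.AlmostGoldbach.pairSum_cast (mem_Ioc.1 hn).2, Complex.ofReal_re]
  have hn1 : ∀ n ∈ Ioc (X / 2) X, n ∈ Icc 1 X := fun n hn => by
    rw [mem_Ioc] at hn
    exact mem_Icc.2 ⟨by omega, hn.2⟩
  rcases hcases with hP | ⟨u, hu, -, hu2, -, hr4, hP⟩
  · refine ⟨E₁, hE₁.trans (le_trans (le_add_of_nonneg_right ?_) hcard), fun n hn heven hnE => ?_⟩
    · have := (zero_le_one.trans hC₂); positivity
    · rw [hW n hn]
      exact hquot.trans (hP n hn heven _ (hclose n (hn1 n hn) hnE))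
  obtain ⟨hu0, huQ, huprim⟩ := mem_family.1 hu
  have : NeZero u.1 := ⟨by omega⟩
  have hrQ : (u.1 : ℝ) ≤ Q := Nat.cast_le.2 huQ
  obtain ⟨E₂, hE₂⟩ : ∃ E₂, E₂ = (Icc 1 X).filter fun n =>
      (Q : ℝ) ^ θ < u.1 ∧ (Q : ℝ) ^ (θ / 8) < (Nat.gcd n u.1 : ℝ) := ⟨_, rfl⟩
  refine ⟨E₁ ∪ E₂, ?_, fun n hn heven hnE => ?_⟩
  · refine (Nat.cast_le.2 (card_union_le _ _)).trans (le_trans ?_ hcard)
    rw [Nat.cast_add]
    refine add_le_add hE₁ ?_
    have h1 := card_gcd_large_mul_le (NeZero.pos u.1) X (show 0 < (Q : ℝ) ^ (θ / 8) by positivity)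
    have h2 : (E₂.card : ℝ) * (Q : ℝ) ^ (θ / 8) ≤ X * (C₂ * (Q : ℝ) ^ (θ / 16)) := by
      refine le_trans (mul_le_mul_of_nonneg_right (Nat.cast_le.2 (card_le_card fun n hn => ?_)) (by positivity))
        (h1.trans (mul_le_mul_of_nonneg_left ((hdiv₂ u.1 (by omega)).trans (mul_le_mul_of_nonneg_left
          (Real.rpow_le_rpow (Nat.cast_nonneg _) hrQ (by positivity)) (by linarith))) hX0.le))
      rw [hE₂, mem_filter] at hn
      exact mem_filter.2 ⟨hn.1, hn.2.2⟩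
    rw [← le_div_iff₀ (by positivity)] at h2
    refine h2.trans (le_of_eq ?_)
    rw [mul_div_assoc, mul_div_assoc, ← Real.rpow_sub hQ0, show θ / 16 - θ / 8 = -(θ / 16) by ring]
    ring
  rw [mem_union, not_or] at hnE
  obtain ⟨-, hsmallD, hshare⟩ := hP n hn heven _ (hclose n (hn1 n hn) hnE.1)
  rw [hW n hn]
  have hn0 : n ≠ 0 := by have := (mem_Icc.1 (hn1 n hn)).1; omega
  by_cases hcase : ¬n.Coprime u.1 ∧ (u.1 : ℝ) ≤ (Q : ℝ) ^ θ
  · exact hshare hcase.1 hcase.2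
  refine hquot.trans (hsmallD (norm_exc_le_of_gcd huprim hu2 hn0 Q ?_))
  have hr1 : (1 : ℝ) ≤ u.1 := Nat.one_le_cast.2 hu0
  by_cases hc : n.Coprime u.1
  · rw [Nat.coprime_iff_gcd_eq_one.1 hc, Nat.cast_one, one_pow, one_mul]
    exact le_trans (Real.rpow_le_rpow_of_exponent_le hr1 (by norm_num)) hr4
  · have hrθ : (Q : ℝ) ^ θ < u.1 := not_le.1 fun h => hcase ⟨hc, h⟩
    have hg : (Nat.gcd n u.1 : ℝ) ≤ (Q : ℝ) ^ (θ / 8) := not_lt.1 fun h => hnE.2
      (hE₂ ▸ mem_filter.2 ⟨hn1 n hn, hrθ, h⟩)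
    refine le_trans ?_ (inv_le_of_inv_le₀ crossEta_pos hs3)
    rw [← Real.rpow_neg hQ0.le]
    refine (mul_le_mul (pow_le_pow_left₀ (Nat.cast_nonneg _) hg 2)
      (Real.rpow_le_rpow_of_nonpos (by positivity) hrθ.le (show (-(1 / 2) : ℝ) ≤ 0 by norm_num)) (by positivity)
      (by positivity)).trans (le_of_eq ?_)
    rw [← Real.rpow_mul_natCast hQ0.le, ← Real.rpow_mul hQ0.le, ← Real.rpow_add hQ0]
    congr 1
    push_cast
    ring

/-- The even `n ≤ X` with fewer than `n ^ (1 - η)` representations. -/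
def fewPrimePairs (η : ℝ) (X : ℕ) : Finset ℕ :=
  (Icc 1 X).filter fun n : ℕ => Even n ∧ (goldbachCount n : ℝ) < (n : ℝ) ^ (1 - η)

/-- One dyadic block. -/
theorem exists_block : ∃ η δ C : ℝ, 0 < η ∧ η ≤ 1 / 2 ∧ 0 < δ ∧ δ ≤ 1 / 2 ∧ 0 < C ∧ ∀ᶠ X : ℕ in atTop,
    (((Ioc (X / 2) X).filter fun n : ℕ => Even n ∧ (goldbachCount n : ℝ) < (n : ℝ) ^ (1 - η)).card : ℝ) ≤
      C * (X : ℝ) ^ (1 - δ) := by
  obtain ⟨K, θ, hK, hθ, h⟩ := exists_pairW_ge
  have hK0 : 0 < K := by omega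
  have hK' : (1 : ℝ) ≤ K := Nat.one_le_cast.2 hK0
  obtain ⟨η, hη⟩ : ∃ η : ℝ, η = 1 / (8 * (K : ℝ)) := ⟨_, rfl⟩
  have hη0 : 0 < η := by rw [hη]; positivity
  have hη1 : η ≤ 1 / 2 := by
    rw [hη, div_le_div_iff₀ (by positivity) two_pos]
    linarith
  obtain ⟨δ, hδ⟩ : ∃ δ : ℝ, δ = min (θ / K) (1 / 2) := ⟨_, rfl⟩
  have hδθ : δ ≤ θ / K := hδ ▸ min_le_left _ _
  refine ⟨η, δ, 2 ^ θ, hη0, hη1, hδ ▸ lt_min (by positivity) (by norm_num), hδ ▸ min_le_right _ _,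
    by positivity, ?_⟩
  filter_upwards [h, (tendsto_level hK0).eventually_ge_atTop 2,
    eventually_log_pow_le hK0 2 8 (show (0 : ℝ) < 1 by norm_num),
    eventually_log_pow_le hK0 2 2 (show (0 : ℝ) < 1 / 16 by norm_num),
    eventually_ge_atTop 2] with X hX hQ2 hs1 hs2 hX2
  obtain ⟨Q, hQ⟩ : ∃ Q, Q = level K X := ⟨_, rfl⟩
  rw [← hQ, Real.rpow_one] at hs1
  rw [← hQ] at hQ2 hs2
  obtain ⟨E, hE, hgood⟩ := hX Q hQ
  obtain ⟨hQK, hXQ⟩ : (Q : ℝ) ^ K ≤ X ∧ (X : ℝ) ≤ (2 * (Q : ℝ)) ^ K :=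
    hQ ▸ level_bounds hK0 (hQ ▸ by omega)
  have hQ0 : (0 : ℝ) < Q := Nat.cast_pos.2 (by omega)
  have hQ1 : (1 : ℝ) ≤ Q := Nat.one_le_cast.2 (by omega)
  have hX1 : (1 : ℝ) ≤ X := Nat.one_le_cast.2 (by omega)
  have hX0 : (0 : ℝ) < X := by linarith
  obtain ⟨l, hl⟩ : ∃ l, l = Real.log X := ⟨_, rfl⟩
  rw [← hl] at hs1 hs2
  have hl0 : 0 < l := hl ▸ Real.log_pos (by exact_mod_cast (show 1 < X by omega))
  refine (Nat.cast_le.2 (card_le_card (t := E) fun n hn => ?_)).trans (hE.trans ?_)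
  · rw [mem_filter] at hn
    obtain ⟨hn, heven, hfew⟩ := hn
    by_contra hnE
    have h1 := hgood n hn heven hnE
    rw [mem_Ioc] at hn
    have h2 := FA.AlmostGoldbach.pairW_le (show 1 ≤ n by omega) hn.2
    rw [← hl] at h2
    have h3 : 4 * √(X : ℝ) * l ^ 2 ≤ (X : ℝ) * (Q : ℝ) ^ (-(1 / 16) : ℝ) / 2 := by
      rw [Real.rpow_neg hQ0.le, ← div_eq_mul_inv, le_div_iff₀ two_pos, le_div_iff₀ (by positivity)]
      calc 4 * √(X : ℝ) * l ^ 2 * 2 * (Q : ℝ) ^ (1 / 16 : ℝ) = √(X : ℝ) * (8 * l ^ 2) * (Q : ℝ) ^ (1 / 16 : ℝ) := by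
            ring
        _ ≤ √(X : ℝ) * (Q : ℝ) * Q := mul_le_mul (mul_le_mul_of_nonneg_left hs1 (Real.sqrt_nonneg _))
            (Real.rpow_le_self_of_one_le hQ1 (by norm_num)) (by positivity) (by positivity)
        _ ≤ √(X : ℝ) * √(X : ℝ) := by
            rw [mul_assoc]
            refine mul_le_mul_of_nonneg_left (Real.le_sqrt_of_sq_le ?_) (Real.sqrt_nonneg _)
            refine le_trans (le_of_eq (show ((Q : ℝ) * Q) ^ 2 = (Q : ℝ) ^ 4 by ring)) ?_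
            exact (pow_le_pow_right₀ hQ1 (by omega)).trans hQK
        _ = X := Real.mul_self_sqrt hX0.le
    have hlog : 0 < Real.log n := Real.log_pos (by exact_mod_cast (show 1 < n by omega))
    have h4 : (goldbachCount n : ℝ) * Real.log n ^ 2 < (n : ℝ) ^ (1 - η) * l ^ 2 :=
      lt_of_lt_of_le (mul_lt_mul_of_pos_right hfew (by positivity)) (mul_le_mul_of_nonneg_left
        (pow_le_pow_left₀ hlog.le (hl ▸ Real.log_le_log (Nat.cast_pos.2 (by omega)) (Nat.cast_le.2 hn.2)) 2)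
        (by positivity))
    have h5 : (n : ℝ) ^ (1 - η) * (Q : ℝ) ^ (1 / 8 : ℝ) ≤ X := by
      refine (mul_le_mul (Real.rpow_le_rpow (Nat.cast_nonneg n) (Nat.cast_le.2 hn.2) (by linarith))
        (show (Q : ℝ) ^ (1 / 8 : ℝ) ≤ (X : ℝ) ^ η from ?_) (by positivity) (by positivity)).trans ?_
      · refine le_trans (le_of_eq ?_) (Real.rpow_le_rpow (by positivity) hQK hη0.le)
        rw [← Real.rpow_natCast_mul hQ0.le, hη]
        congr 1
        field_simp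
      · rw [← Real.rpow_add hX0, sub_add_cancel, Real.rpow_one]
    have h6 := mul_le_mul_of_nonneg_right h5 (show 0 ≤ (Q : ℝ) ^ (-(1 / 16) : ℝ) by positivity)
    rw [mul_assoc, ← Real.rpow_add hQ0, show (1 / 8 : ℝ) + -(1 / 16) = 1 / 16 by norm_num] at h6
    have h7 := mul_le_mul_of_nonneg_left hs2 (show 0 ≤ (n : ℝ) ^ (1 - η) by positivity)
    linarith
  · refine le_trans (mul_le_mul_of_nonneg_left (Real.rpow_le_rpow_of_nonpos (show 0 < (X : ℝ) ^ (1 / (K : ℝ)) / 2 by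
      positivity) ?_ (by linarith)) hX0.le) ?_
    · rw [div_le_iff₀ two_pos, mul_comm]
      refine (Real.rpow_le_rpow hX0.le hXQ (by positivity)).trans (le_of_eq ?_)
      rw [one_div, Real.pow_rpow_inv_natCast (by positivity) hK0.ne']
    · rw [Real.div_rpow (by positivity) two_pos.le, Real.rpow_neg two_pos.le, div_inv_eq_mul,
        ← Real.rpow_mul hX0.le, ← mul_assoc, mul_comm _ ((2 : ℝ) ^ θ)]
      refine mul_le_mul_of_nonneg_left ?_ (by positivity)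
      rw [show 1 / (K : ℝ) * -θ = -(θ / K) by ring]
      refine le_of_eq_of_le ?_ (Real.rpow_le_rpow_of_exponent_le hX1 (show 1 - θ / K ≤ 1 - δ by linarith))
      rw [Real.rpow_sub hX0, Real.rpow_one, Real.rpow_neg hX0.le]
      exact (div_eq_mul_inv _ _).symm

theorem fewPrimePairs_subset (η : ℝ) (X : ℕ) : fewPrimePairs η X ⊆ fewPrimePairs η (X / 2) ∪
    (Ioc (X / 2) X).filter fun n : ℕ => Even n ∧ (goldbachCount n : ℝ) < (n : ℝ) ^ (1 - η) := fun n hn => by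
  rw [fewPrimePairs, mem_filter, mem_Icc] at hn
  rw [mem_union, fewPrimePairs, mem_filter, mem_Icc, mem_filter, mem_Ioc]
  rcases le_or_gt n (X / 2) with h | h
  · exact Or.inl ⟨⟨hn.1.1, h⟩, hn.2⟩
  · exact Or.inr ⟨⟨h, hn.1.2⟩, hn.2⟩

/-- **Montgomery and Vaughan**: all but `C X ^ (1 - δ)` even `n ≤ X` have at least `n ^ (1 - η)`
representations as a sum of two primes. -/
theorem exists_card_fewPrimePairs_le : ∃ η δ C : ℝ, 0 < η ∧ η ≤ 1 / 2 ∧ 0 < δ ∧ δ ≤ 1 / 2 ∧ 0 < C ∧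
    ∀ X : ℕ, ((fewPrimePairs η X).card : ℝ) ≤ C * (X : ℝ) ^ (1 - δ) := by
  obtain ⟨η, δ, C₀, hη, hη1, hδ, hδ1, hC₀, h⟩ := exists_block
  obtain ⟨X₀, hX₀⟩ := eventually_atTop.1 h
  obtain ⟨C, hC⟩ : ∃ C : ℝ, C = 4 * C₀ + X₀ := ⟨_, rfl⟩
  refine ⟨η, δ, C, hη, hη1, hδ, hδ1, by rw [hC]; positivity, fun X => ?_⟩
  induction X using Nat.strong_induction_on with
  | _ X ih =>
    rcases Nat.eq_zero_or_pos X with rfl | hX
    · simp [fewPrimePairs, Real.zero_rpow (show 1 - δ ≠ 0 by linarith)]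
    have hX1 : (1 : ℝ) ≤ X := Nat.one_le_cast.2 hX
    rcases lt_or_ge X X₀ with hlt | hge
    · refine le_trans ?_ (le_mul_of_one_le_right (by rw [hC]; positivity) (Real.one_le_rpow hX1 (by linarith)))
      refine le_trans (Nat.cast_le.2 ((card_filter_le _ _).trans (Nat.card_Icc 1 X).le)) ?_
      rw [Nat.add_sub_cancel, hC]
      have : (X : ℝ) ≤ X₀ := Nat.cast_le.2 hlt.le
      linarith
    refine (Nat.cast_le.2 ((card_le_card (fewPrimePairs_subset η X)).trans (card_union_le _ _))).trans ?_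
    rw [Nat.cast_add]
    refine (add_le_add (ih (X / 2) (Nat.div_lt_self hX one_lt_two)) (hX₀ X hge)).trans ?_
    have h2 : ((X / 2 : ℕ) : ℝ) ^ (1 - δ) ≤ 3 / 4 * (X : ℝ) ^ (1 - δ) := by
      refine (Real.rpow_le_rpow (Nat.cast_nonneg _) (show ((X / 2 : ℕ) : ℝ) ≤ 1 / 2 * X from ?_)
        (by linarith)).trans ?_
      · refine Nat.cast_div_le.trans (le_of_eq ?_)
        push_cast
        ring
      · rw [Real.mul_rpow (by norm_num) (Nat.cast_nonneg X)]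
        refine mul_le_mul_of_nonneg_right ((Real.rpow_le_rpow_of_exponent_ge (by norm_num) (by norm_num)
          (show (1 : ℝ) / 2 ≤ 1 - δ by linarith)).trans ?_) (by positivity)
        rw [← Real.sqrt_eq_rpow, Real.sqrt_le_left (by norm_num)]
        norm_num
    have h3 := mul_le_mul_of_nonneg_left h2 (show 0 ≤ C by rw [hC]; positivity)
    have h4 := mul_nonneg (show 0 ≤ C - 4 * C₀ by rw [hC]; simp) (show 0 ≤ (X : ℝ) ^ (1 - δ) by positivity)
    linarith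

end FA.MontgomeryVaughan

end
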