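import Fermat.Agent.Gallagher.PNT

/-!
# Gallagher's theorem, uniform in the starting point

One bound `b u` for each character serves every interval `(x, x + h]` with `x₀ ≤ x ≤ X`, when
`X / Q ^ D ≤ h ≤ x₀`; the `b u` add up to `C exp (- c log x₀ / log Q)`, times `(1 - β) log Q` in the
presence of the exceptional zero.
-/

set_option autoImplicit false
set_option linter.unusedSectionVars false

noncomputable section

open Complex Finset
open FA.LinnikPrime (clear lg re_lt_one_of_clear exists_one_sub_zero_ge clear_of_ne_one)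
open FA.Gallagher
open scoped Real Classical ArithmeticFunction.vonMangoldt

namespace FA.MontgomeryVaughan

/-- The smallness at the largest starting point. -/
theorem small_uniform_le (q : ℕ) {Q P D N : ℕ} (hq0 : 0 < q) (hqQ : q ≤ Q) (hQ : 2 ≤ Q) (hN : N = 2 * P + 11)
    {x₀ x X U d T h : ℝ} (hx₀ : 1 ≤ x₀) (hx : x₀ ≤ x) (hxX : x ≤ X) (hX : X ≤ (Q : ℝ) ^ D * h) (hh : h ≤ x₀)
    (hU : U = x₀ ^ (1 / 8 : ℝ)) (hd : d = x₀ / (Q : ℝ) ^ (P + 5)) (hd1 : 1 ≤ d) (hT : T = (Q : ℝ) ^ N)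
    (hlx : Real.log x₀ ≤ (Q : ℝ) ^ 2) (hpow : (Q : ℝ) ^ (2 * P + 13) ≤ x₀ ^ (1 / 32 : ℝ)) :
    (d + 1) * (Real.log (4 * x) + 1) + x ^ 2 * famL q U / (d * T) +
        famL q U ^ 2 / d * (x ^ (33 / 16 : ℝ) / U + x ^ (63 / 32 : ℝ)) ≤
      40 * ((Q : ℝ) ^ (4 * D) * h / (Q : ℝ) ^ (P + 3)) := by
  obtain ⟨Y, hY⟩ : ∃ Y : ℝ, Y = (Q : ℝ) ^ D := ⟨_, rfl⟩
  have hE2 : (2 : ℝ) ≤ Q := by exact_mod_cast hQ
  have hY1 : 1 ≤ Y := hY ▸ one_le_pow₀ (by linarith)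
  have hx0 : 0 < x₀ := by linarith
  have hxY : x ≤ Y * x₀ := by
    rw [hY]
    exact hxX.trans (hX.trans (mul_le_mul_of_nonneg_left hh (by positivity)))
  have hh0 : 0 ≤ h := by
    by_contra hc
    have := mul_neg_of_pos_of_neg (show (0 : ℝ) < (Q : ℝ) ^ D by positivity) (not_le.1 hc)
    linarith
  have hU0 : 0 < U := hU ▸ Real.rpow_pos_of_pos hx0 _
  have hd0 : 0 < d := by linarith
  have hT0 : 0 < T := by rw [hT]; positivity
  have hH := famL_pos q U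
  have e1 : Real.log (4 * x) + 1 ≤ Y ^ 3 * (Real.log (4 * x₀) + 1) := by
    have h1 : Real.log (4 * x) ≤ Real.log (4 * x₀) + Real.log Y := by
      rw [← Real.log_mul (by linarith) (by linarith)]
      exact Real.log_le_log (by linarith) (by linarith)
    have h2 : Real.log Y + 1 ≤ Y := by linarith [Real.log_le_sub_one_of_pos (show 0 < Y by linarith)]
    have h3 : Y ≤ Y ^ 3 := le_self_pow₀ hY1 (by norm_num)
    have h4 : 0 ≤ Real.log (4 * x₀) := Real.log_nonneg (by linarith)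
    have h5 := mul_le_mul (h2.trans h3) (show 1 ≤ Real.log (4 * x₀) + 1 by linarith) zero_le_one (by linarith)
    have h6 := mul_nonneg (show 0 ≤ Y ^ 3 - 1 by linarith) h4
    linarith
  have e2 : x ^ 2 ≤ Y ^ 3 * x₀ ^ 2 := by
    refine (pow_le_pow_left₀ (by linarith) hxY 2).trans ?_
    rw [mul_pow]
    exact mul_le_mul_of_nonneg_right (pow_le_pow_right₀ hY1 (by norm_num)) (sq_nonneg _)
  have e3 : ∀ e : ℝ, 0 ≤ e → e ≤ 3 → x ^ e ≤ Y ^ 3 * x₀ ^ e := fun e he he3 => by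
    refine (Real.rpow_le_rpow (by linarith) hxY he).trans ?_
    rw [Real.mul_rpow (by linarith) hx0.le]
    refine mul_le_mul_of_nonneg_right ((Real.rpow_le_rpow_of_exponent_le hY1 he3).trans (le_of_eq ?_))
      (by positivity)
    rw [show (3 : ℝ) = ((3 : ℕ) : ℝ) by norm_num, Real.rpow_natCast]
  have hbase := small_le q (K := P + 5) (N := N) hq0 hqQ hQ rfl hN hx₀ hU hd hd1 hT hlx hpow
  have h1 := mul_le_mul_of_nonneg_left e1 (show 0 ≤ d + 1 by linarith)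
  have h2 := div_le_div_of_nonneg_right (mul_le_mul_of_nonneg_right e2 hH.le) (show 0 ≤ d * T by positivity)
  have h3 := mul_le_mul_of_nonneg_left (add_le_add
    (div_le_div_of_nonneg_right (e3 (33 / 16) (by norm_num) (by norm_num)) hU0.le)
    (e3 (63 / 32) (by norm_num) (by norm_num))) (show 0 ≤ famL q U ^ 2 / d by positivity)
  refine le_trans (add_le_add (add_le_add h1 h2) h3) (le_trans (le_of_eq ?_)
    ((mul_le_mul_of_nonneg_left hbase (show 0 ≤ Y ^ 3 by positivity)).trans ?_))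
  · ring
  · have h4 : x₀ ≤ Y * h := (hx.trans hxX).trans (hY ▸ hX)
    refine le_trans (le_of_eq ?_) ((mul_le_mul_of_nonneg_left h4
      (show 0 ≤ 40 * Y ^ 3 / (Q : ℝ) ^ (P + 3) by positivity)).trans (le_of_eq ?_))
    · ring
    · rw [hY, ← pow_mul, show 4 * D = D * 3 + D by ring, pow_add (Q : ℝ) (D * 3) D]
      ring

/-- **Gallagher's theorem, uniformly.** -/
theorem exists_gallagher_uniform (D : ℕ) : ∃ C c : ℝ, ∃ M : ℕ, 1 ≤ C ∧ 0 < c ∧ ∀ Q : ℕ, 2 ≤ Q →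
    ∀ x₀ X h : ℝ, (Q : ℝ) ^ M ≤ x₀ → x₀ ≤ X → Real.log X ≤ Real.log Q ^ 2 → X / (Q : ℝ) ^ D ≤ h → h ≤ x₀ →
      ∃ b : (Σ q : ℕ, DirichletCharacter ℂ q) → ℝ, (∀ u, 0 ≤ b u) ∧
        ((∑ u ∈ family Q, b u ≤ C * Real.exp (-(c * (Real.log x₀ / Real.log Q))) ∧
          ∀ u ∈ family Q, ∀ x : ℝ, x₀ ≤ x → x ≤ X → ‖psiInt u x h - mainTerm u h‖ ≤ h * b u) ∨
        ∃ u₁ ∈ family Q, u₁.2 ≠ 1 ∧ u₁.2 ^ 2 = 1 ∧ ∃ β : ℝ, lfun u₁ β = 0 ∧ 1 / 2 < β ∧
          (1 - β) * Real.log Q ≤ 1 ∧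
          ∑ u ∈ family Q, b u ≤ C * ((1 - β) * Real.log Q) * Real.exp (-(c * (Real.log x₀ / Real.log Q))) ∧
          ∀ u ∈ family Q, ∀ x : ℝ, x₀ ≤ x → x ≤ X →
            ‖psiInt u x h - mainTerm u h + (if u = u₁ then (excG x h β : ℂ) else 0)‖ ≤ h * b u) := by
  obtain ⟨C₁, hC₁, hone⟩ := exists_one_char
  obtain ⟨Cl, hCl, hlow⟩ := exists_low_sum
  obtain ⟨Cr, cr, hCr, hcr, hrep⟩ := exists_repulsion
  obtain ⟨G, hG, hsieg⟩ := exists_one_sub_zero_ge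
  obtain ⟨P, hP⟩ : ∃ P : ℕ, P = ⌈G⌉₊ + 1 + 4 * D := ⟨_, rfl⟩
  obtain ⟨N, hN⟩ : ∃ N : ℕ, N = 2 * P + 11 := ⟨_, rfl⟩
  obtain ⟨κ, hκ⟩ : ∃ κ : ℝ, κ = 7 * ((N : ℝ) + 2) := ⟨_, rfl⟩
  have hκ0 : 0 < κ := by rw [hκ]; positivity
  obtain ⟨M, hM⟩ : ∃ M : ℕ, M = 32 * (2 * P + 13) + ⌈κ * (Cl + 4 * Cr)⌉₊ := ⟨_, rfl⟩
  obtain ⟨c, hc⟩ : ∃ c : ℝ, c = min 1 (zoneG / (4 * κ)) := ⟨_, rfl⟩
  have hz := zoneG_pos
  have hc0 : 0 < c := hc ▸ lt_min one_pos (by positivity)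
  obtain ⟨C, hC⟩ : ∃ C : ℝ, C = 40 * C₁ * (2 * Real.exp (4 * G) + 1) + Cl * (1 + κ / cr) := ⟨_, rfl⟩
  have hC1 : 1 ≤ C := by
    have h1 : 1 ≤ Cl * (1 + κ / cr) :=
      one_le_mul_of_one_le_of_one_le hCl (le_add_of_nonneg_right (by positivity))
    have h2 : 0 ≤ 40 * C₁ * (2 * Real.exp (4 * G) + 1) := by positivity
    rw [hC]; linarith
  refine ⟨C, c, M, hC1, hc0, fun Q hQ x₀ X h hQx hxX hlX hhX hhx => ?_⟩
  have hE2 : (2 : ℝ) ≤ Q := by exact_mod_cast hQ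
  have hlQ : 0.69 ≤ Real.log Q := by
    linarith [Real.log_two_gt_d9, Real.log_le_log two_pos hE2]
  obtain ⟨lQ, hlQdef⟩ : ∃ l, l = Real.log Q := ⟨_, rfl⟩
  rw [← hlQdef] at hlX hlQ ⊢
  have hx1 : 1 ≤ x₀ := le_trans (one_le_pow₀ (by linarith)) hQx
  have hx0 : 0 < x₀ := by linarith
  have hlx : Real.log x₀ ≤ lQ ^ 2 := (Real.log_le_log hx0 hxX).trans hlX
  have hXh : X ≤ (Q : ℝ) ^ D * h := by
    rw [div_le_iff₀ (by positivity)] at hhX; linarith
  have hh0 : 0 ≤ h := le_trans (div_nonneg (by linarith) (by positivity)) hhX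
  have hMlx : (M : ℝ) * lQ ≤ Real.log x₀ := by
    rw [hlQdef, ← Real.log_pow]
    exact Real.log_le_log (by positivity) hQx
  have hlQQ : lQ ≤ Q := hlQdef ▸ (Real.log_le_sub_one_of_pos (by linarith)).trans (by linarith)
  -- the parameters
  obtain ⟨U, hU⟩ : ∃ U : ℝ, U = x₀ ^ (1 / 8 : ℝ) := ⟨_, rfl⟩
  obtain ⟨T, hT⟩ : ∃ T : ℝ, T = (Q : ℝ) ^ N := ⟨_, rfl⟩
  obtain ⟨d, hd⟩ : ∃ d : ℝ, d = x₀ / (Q : ℝ) ^ (P + 5) := ⟨_, rfl⟩
  have hT1 : 1 ≤ T := hT ▸ one_le_pow₀ (by linarith)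
  have hU1 : 1 ≤ U := hU ▸ Real.one_le_rpow hx1 (by norm_num)
  have hpowle : ∀ (j : ℕ) (e : ℝ), 0 ≤ e → (j : ℝ) ≤ (M : ℝ) * e → (Q : ℝ) ^ j ≤ x₀ ^ e :=
    fun j e he hje => by
    rw [← Real.rpow_natCast]
    refine (Real.rpow_le_rpow_of_exponent_le (by linarith) hje).trans ?_
    rw [Real.rpow_mul (by linarith), Real.rpow_natCast]
    exact Real.rpow_le_rpow (by positivity) hQx he
  have hM32 : ((32 * (2 * P + 13) : ℕ) : ℝ) ≤ M := Nat.cast_le.2 (by omega)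
  have hMκ : κ * (Cl + 4 * Cr) ≤ M := by
    refine (Nat.le_ceil _).trans (Nat.cast_le.2 ?_)
    omega
  have hd1 : 1 ≤ d := by
    rw [hd, one_le_div (by positivity)]
    refine le_trans (pow_le_pow_right₀ (by linarith) ?_) hQx
    omega
  have hdx : d ≤ x₀ := hd ▸ div_le_self hx0.le (one_le_pow₀ (by linarith))
  obtain ⟨L, hL⟩ : ∃ L, L = famL Q T := ⟨_, rfl⟩
  have hL5 : 5 ≤ L := hL ▸ five_le_famL Q T
  have hLκ : L ≤ κ * lQ := by
    have h1 : Real.log (|T| + 5) ≤ (N : ℝ) * lQ + 3 := by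
      rw [abs_of_pos (by linarith), hlQdef]
      refine (Real.log_le_log (by linarith) (show T + 5 ≤ 8 * T by linarith)).trans ?_
      rw [Real.log_mul (by norm_num) (by linarith), hT, Real.log_pow,
        show (8 : ℝ) = 2 * 2 * 2 by norm_num, Real.log_mul (by norm_num) two_ne_zero,
        Real.log_mul two_ne_zero two_ne_zero]
      linarith [Real.log_two_lt_d9]
    rw [hL, famL, lg, ← hlQdef, hκ]
    have := mul_nonneg (Nat.cast_nonneg N : (0 : ℝ) ≤ N) (show 0 ≤ lQ by linarith)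
    linarith
  have hLlQ : lQ ≤ L := by
    rw [hL, famL, lg, ← hlQdef]
    linarith [Real.log_nonneg (show (1 : ℝ) ≤ |T| + 5 by linarith [abs_nonneg T])]
  obtain ⟨R, hR⟩ : ∃ R, R = Real.log x₀ / L := ⟨_, rfl⟩
  have hRL : R * L = Real.log x₀ := hR ▸ div_mul_cancel₀ _ (by linarith)
  have hRbig : Cl + 4 * Cr ≤ R := by
    rw [hR, le_div_iff₀ (by linarith)]
    refine (mul_le_mul_of_nonneg_left hLκ (by linarith)).trans ?_
    have := mul_le_mul_of_nonneg_right hMκ (show 0 ≤ lQ by linarith)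
    linarith
  have hdecay : Real.exp (-(R * zoneG) / 4) ≤ Real.exp (-(c * (Real.log x₀ / lQ))) := by
    rw [Real.exp_le_exp]
    have h1 : Real.log x₀ / lQ ≤ κ * R := by
      rw [div_le_iff₀ (by linarith), ← hRL]
      calc R * L ≤ R * (κ * lQ) := mul_le_mul_of_nonneg_left hLκ (by linarith)
        _ = _ := by ring
    have h2 := mul_le_mul_of_nonneg_left h1 hc0.le
    have h3 : c * κ ≤ zoneG / 4 := by
      have := mul_le_mul_of_nonneg_right (hc ▸ min_le_right 1 (zoneG / (4 * κ))) hκ0.le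
      refine this.trans (le_of_eq ?_)
      field_simp
    have h4 := mul_le_mul_of_nonneg_right h3 (show 0 ≤ R by linarith)
    linarith
  -- everything but the low zeros
  obtain ⟨ε, hε⟩ : ∃ ε : ℝ, ε = ((Q : ℝ) ^ (⌈G⌉₊ + 1))⁻¹ := ⟨_, rfl⟩
  have hε0 : 0 < ε := by rw [hε]; positivity
  obtain ⟨ν, hν⟩ : ∃ ν : ℝ, ν = 40 * C₁ * ((Q : ℝ) ^ (4 * D) / (Q : ℝ) ^ (P + 3)) := ⟨_, rfl⟩
  have hν0 : 0 ≤ ν := by rw [hν]; positivity
  have hlx2 : Real.log x₀ ≤ (Q : ℝ) ^ 2 := hlx.trans (pow_le_pow_left₀ (by linarith) hlQQ 2)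
  have hsmall : ∀ u ∈ family Q, ∀ x : ℝ, x₀ ≤ x → x ≤ X →
      C₁ * ((d + 1) * (Real.log (4 * x) + 1) + x ^ 2 * famL u.1 U / (d * T) +
        famL u.1 U ^ 2 / d * (x ^ (33 / 16 : ℝ) / U + x ^ (63 / 32 : ℝ))) ≤ h * ν := fun u hu x hx hx' => by
    obtain ⟨hu1, huQ, -⟩ := mem_family.1 hu
    refine (mul_le_mul_of_nonneg_left (small_uniform_le u.1 (N := N) hu1 huQ hQ hN hx1 hx hx' hXh hhx hU hd hd1
      hT hlx2 (hpowle _ _ (by norm_num) (by push_cast at hM32 ⊢; linarith))) (by linarith)).trans (le_of_eq ?_)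
    rw [hν]
    ring
  have hsum : (family Q).card • ν ≤ 40 * C₁ * ε := by
    rw [nsmul_eq_mul]
    refine (mul_le_mul_of_nonneg_right (card_family_le Q) hν0).trans ?_
    have e : (Q : ℝ) ^ 2 * ν = 40 * C₁ * ε * (1 / (Q : ℝ)) := by
      rw [hν, hε, hP, show ⌈G⌉₊ + 1 + 4 * D + 3 = 4 * D + (⌈G⌉₊ + 1) + 3 by ring, pow_add (Q : ℝ) _ 3,
        pow_add (Q : ℝ) (4 * D)]
      field_simp
    rw [e]
    refine mul_le_of_le_one_right (by positivity) ?_
    rw [div_le_one (by linarith)]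
    linarith
  have hεQ : ε ≤ Real.exp (-lQ) := by
    rw [hε, hlQdef, Real.exp_neg, Real.exp_log (by linarith)]
    exact inv_anti₀ (by linarith) (le_self_pow₀ (by linarith) (by omega))
  have hdecay0 : Real.exp (-lQ) ≤ Real.exp (-(c * (Real.log x₀ / lQ))) := by
    rw [Real.exp_le_exp, neg_le_neg_iff]
    have h1 : Real.log x₀ / lQ ≤ lQ := by rw [div_le_iff₀ (by linarith), ← sq]; exact hlx
    have h2 := mul_le_mul_of_nonneg_left h1 hc0.le
    have h3 := mul_le_mul_of_nonneg_right (hc ▸ min_le_left 1 (zoneG / (4 * κ))) (show 0 ≤ lQ by linarith)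
    linarith
  -- the sets of zeros
  have hSex : ∀ u : Σ q : ℕ, DirichletCharacter ℂ q, ∃ S : Finset ℂ, u ∈ family Q →
      (∀ ρ ∈ S, lfun u ρ = 0 ∧ 1 / 2 ≤ ρ.re) ∧
      (∀ ρ : ℂ, lfun u ρ = 0 → 31 / 32 < ρ.re → ρ.im = 0 → ρ ∈ S) ∧
      ∀ E : Finset ℂ, E ⊆ S → E.card ≤ 1 → (∀ ρ ∈ E, ρ.im = 0 ∧ lord u ρ = 1) →
        ∀ x : ℝ, x₀ ≤ x → x ≤ X →
        ‖psiInt u x h - mainTerm u h + ∑ ρ ∈ E, (excG x h ρ.re : ℂ)‖ ≤
          h * (ν + ∑ ρ ∈ (S \ E).filter (fun ρ => |ρ.im| ≤ T), lord u ρ * x₀ ^ (ρ.re - 1)) := fun u => by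
    by_cases hu : u ∈ family Q
    · have : NeZero u.1 := ⟨Nat.one_le_iff_ne_zero.1 (mem_family.1 hu).1⟩
      obtain ⟨S, hS1, hS2, hS3⟩ := hone u.1 u.2 U hU1
      refine ⟨S, fun _ => ⟨fun ρ hρ => ?_, fun ρ h1 h2 h3 => ?_, fun E hE hEc hE1 x hx hx' => ?_⟩⟩
      · rw [lfun_eq]; exact ⟨(hS1 ρ hρ).1, (hS1 ρ hρ).2.1⟩
      · rw [lfun_eq] at h1
        exact hS2 ρ h1 h2 (by rw [h3, abs_zero]; linarith)
      · have h4 := hS3 E hE hEc (fun ρ hρ => ⟨(hE1 ρ hρ).1, by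
          have := (hE1 ρ hρ).2
          rw [lord, lfun_eq] at this
          exact_mod_cast this⟩) x h d T (hx1.trans hx) hh0 (hhx.trans hx) (by linarith) (hdx.trans hx) hT1
        rw [← psiInt_eq u hh0, pol_mul_eq] at h4
        rw [mul_add]
        refine h4.trans (add_le_add (hsmall u hu x hx hx') (mul_le_mul_of_nonneg_left
          (sum_le_sum fun ρ hρ => ?_) hh0))
        simp only [lord, lfun_eq]
        refine mul_le_mul_of_nonneg_left ?_ (Nat.cast_nonneg _)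
        have h5 := re_lt_one_of_clear (hS1 ρ (mem_sdiff.1 (mem_filter.1 hρ).1).1).1
        exact Real.rpow_le_rpow_of_nonpos hx0 hx (by linarith)
    · exact ⟨∅, fun hu' => absurd hu' hu⟩
  choose S hS using hSex
  have hbnn : ∀ (E : Finset ℂ) (u : Σ q : ℕ, DirichletCharacter ℂ q),
      0 ≤ ν + ∑ ρ ∈ (S u \ E).filter (fun ρ => |ρ.im| ≤ T), lord u ρ * x₀ ^ (ρ.re - 1) :=
    fun E u => add_nonneg hν0 (sum_nonneg fun ρ _ => mul_nonneg (lord_nonneg u ρ) (Real.rpow_nonneg hx0.le _))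
  by_cases hexc : ∃ u ∈ family Q, ∃ ρ ∈ S u, |ρ.im| ≤ T ∧ 1 - ρ.re < zoneG / L
  · -- the exceptional zero
    obtain ⟨u₁, hu₁, ρ₁, hρ₁S, hρ₁i, hρ₁d⟩ := hexc
    have : NeZero u₁.1 := ⟨Nat.one_le_iff_ne_zero.1 (mem_family.1 hu₁).1⟩
    have hρ₁0 := ((hS u₁ hu₁).1 ρ₁ hρ₁S).1
    have hz' := hρ₁0
    rw [lfun_eq] at hz'
    obtain ⟨hne1, hsq, him⟩ := zone (Q := Q) (T := T) (mem_family.1 hu₁).2.1 hz' hρ₁i (hL ▸ hρ₁d)
    obtain ⟨β, hβ⟩ : ∃ β : ℝ, β = ρ₁.re := ⟨_, rfl⟩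
    have hρβ : (β : ℂ) = ρ₁ := Complex.ext (by simp [hβ]) (by simp [him])
    have hδ0 : 0 < 1 - β := by rw [hβ]; linarith [re_lt_one_of_clear hz']
    have hzL := zoneG_div_le (show 1 ≤ L by linarith)
    have hδlQ : (1 - β) * lQ ≤ 1 := by
      refine (mul_le_mul_of_nonneg_left hLlQ hδ0.le).trans ?_
      have h1 := mul_le_mul_of_nonneg_right hρ₁d.le (show 0 ≤ L by linarith)
      rw [div_mul_cancel₀ _ (by linarith)] at h1
      rw [hβ]
      linarith [show zoneG ≤ 1 from ((min_le_left _ _).trans (min_le_right _ _)).trans (by norm_num)]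
    obtain ⟨E, hE⟩ : ∃ E : (Σ q : ℕ, DirichletCharacter ℂ q) → Finset ℂ,
        E = fun u => if u = u₁ then {ρ₁} else ∅ := ⟨_, rfl⟩
    refine ⟨fun u => ν + ∑ ρ ∈ (S u \ E u).filter (fun ρ => |ρ.im| ≤ T), lord u ρ * x₀ ^ (ρ.re - 1),
      fun u => hbnn _ u, Or.inr ⟨u₁, hu₁, hne1, hsq, β, hρβ.symm ▸ hρ₁0, by rw [hβ]; linarith [hzL.2], hδlQ,
        ?_, fun u hu x hx hx' => ?_⟩⟩
    swap
    · have h1 := (hS u hu).2.2 (E u) ?_ ?_ ?_ x hx hx'
      · refine le_of_eq_of_le ?_ h1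
        congr 2
        rw [hE]
        simp only
        split_ifs <;> simp [hβ]
      · simp only [hE]
        split_ifs with he
        · subst he; exact Finset.singleton_subset_iff.2 hρ₁S
        · exact Finset.empty_subset _
      · simp only [hE]
        split_ifs <;> simp
      · simp only [hE]
        split_ifs with he
        · subst he
          intro ρ hρ
          rw [Finset.mem_singleton] at hρ
          subst hρ
          exact ⟨him, (zone_unique hu hu hρ₁0 hρ₁i (hL ▸ hρ₁d) hρ₁0 hρ₁i (hL ▸ hρ₁d)).2.2⟩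
        · simp
    rw [Finset.sum_add_distrib, Finset.sum_const]
    have hsieg' : 2⁻¹ * (Real.exp (4 * G))⁻¹ * ε ≤ (1 - β) * lQ * Real.exp (-lQ) := by
      have hlg : lg u₁.1 ≤ lQ + 4 := by
        rw [lg, hlQdef]
        linarith [Real.log_le_log (Nat.cast_pos.2 (NeZero.pos u₁.1))
          (Nat.cast_le.2 (mem_family.1 hu₁).2.1 : (u₁.1 : ℝ) ≤ Q)]
      have h1 : Real.exp (-(G * (lQ + 4))) ≤ 1 - β :=
        (Real.exp_le_exp.2 (neg_le_neg (mul_le_mul_of_nonneg_left hlg (by linarith)))).trans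
          (hsieg u₁.1 u₁.2 hne1 hsq β (by rw [hρβ, ← clear_of_ne_one hne1]; exact hz'))
      have h2 : ε ≤ Real.exp (-((G + 1) * lQ)) := by
        rw [hε, ← Real.exp_log (show (0 : ℝ) < ((Q : ℝ) ^ (⌈G⌉₊ + 1))⁻¹ by positivity), Real.exp_le_exp,
          Real.log_inv, Real.log_pow, ← hlQdef, neg_le_neg_iff]
        refine mul_le_mul_of_nonneg_right ?_ (by linarith)
        push_cast
        linarith [Nat.le_ceil G]
      calc 2⁻¹ * (Real.exp (4 * G))⁻¹ * ε ≤ 2⁻¹ * (Real.exp (4 * G))⁻¹ * Real.exp (-((G + 1) * lQ)) :=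
            mul_le_mul_of_nonneg_left h2 (by positivity)
        _ = Real.exp (-(G * (lQ + 4))) * 2⁻¹ * Real.exp (-lQ) := by
            rw [← Real.exp_neg, mul_assoc, ← Real.exp_add, mul_comm _ (2⁻¹ : ℝ), mul_assoc, ← Real.exp_add]
            ring_nf
        _ ≤ _ := by
            refine mul_le_mul_of_nonneg_right (mul_le_mul h1 ?_ (by norm_num) hδ0.le) (Real.exp_pos _).le
            linarith
    have hlowsum := hlow Q T x₀ R ((1 - β) * L / cr) hx0 (by linarith) (by positivity) (hL ▸ hRL)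
      (fun u => (S u \ E u).filter fun ρ => |ρ.im| ≤ T) fun u hu ρ hρ => by
        obtain ⟨hρ', hρi⟩ := Finset.mem_filter.1 hρ
        obtain ⟨hρS, hρE⟩ := Finset.mem_sdiff.1 hρ'
        obtain ⟨hρ0, hρ12⟩ := (hS u hu).1 ρ hρS
        have : NeZero u.1 := ⟨Nat.one_le_iff_ne_zero.1 (mem_family.1 hu).1⟩
        have hne : u ≠ u₁ ∨ ρ ≠ (β : ℂ) := by
          by_contra hboth
          simp only [not_or, not_not] at hboth
          exact hρE (by simp [hE, hboth.1, hboth.2, hρβ])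
        rw [← hL]
        have hy : zoneG ≤ (1 - ρ.re) * L := by
          by_contra hlt
          have hρz : 1 - ρ.re < zoneG / L := by rw [lt_div_iff₀ (by linarith)]; exact not_le.1 hlt
          obtain ⟨e1, e2, -⟩ := zone_unique hu hu₁ hρ0 hρi (hL ▸ hρz) hρ₁0 hρ₁i (hL ▸ hρ₁d)
          exact hne.elim (fun h' => h' e1) fun h' => h' (e2.trans hρβ.symm)
        refine ⟨hρ0, hρ12, hρi, hy, ?_⟩
        have h1 := hrep Q T u₁ hu₁ hne1 hsq β (hρβ.symm ▸ hρ₁0) u hu ρ hρ0 hρi hne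
        rw [← hL] at h1
        rw [le_div_iff₀ hcr]
        have h2 : Real.exp (-(R * ((1 - ρ.re) * L)) / 4) * Real.exp (Cr * ((1 - ρ.re) * L)) ≤ 1 := by
          rw [← Real.exp_add, Real.exp_le_one_iff]
          have := mul_le_mul_of_nonneg_right (show 4 * Cr ≤ R by linarith) (hz.le.trans hy)
          linarith
        calc Real.exp (-(R * ((1 - ρ.re) * L)) / 4) * cr
            ≤ Real.exp (-(R * ((1 - ρ.re) * L)) / 4) * ((1 - β) * L * Real.exp (Cr * ((1 - ρ.re) * L))) :=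
              mul_le_mul_of_nonneg_left h1 (Real.exp_pos _).le
          _ = (1 - β) * L * (Real.exp (-(R * ((1 - ρ.re) * L)) / 4) * Real.exp (Cr * ((1 - ρ.re) * L))) := by ring
          _ ≤ _ := mul_le_of_le_one_right (by positivity) h2
    refine (add_le_add hsum hlowsum).trans ?_
    obtain ⟨W, hW⟩ : ∃ W, W = (1 - β) * lQ * Real.exp (-(c * (Real.log x₀ / lQ))) := ⟨_, rfl⟩
    have hlQ0 : 0 ≤ (1 - β) * lQ := mul_nonneg hδ0.le (by linarith)
    have hW0 : 0 ≤ W := by rw [hW]; positivity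
    have p1 : ε ≤ 2 * Real.exp (4 * G) * W := by
      have h1 := hsieg'.trans (mul_le_mul_of_nonneg_left hdecay0 hlQ0)
      rw [mul_assoc, inv_mul_le_iff₀ two_pos, inv_mul_le_iff₀ (Real.exp_pos _)] at h1
      rw [hW]
      linarith
    have p2 : Cl * (Real.exp (-(R * zoneG) / 4) * ((1 - β) * L / cr)) ≤ Cl * (κ / cr) * W := by
      have h1 : (1 - β) * L / cr ≤ κ / cr * ((1 - β) * lQ) := by
        rw [div_mul_eq_mul_div]
        refine div_le_div_of_nonneg_right ?_ hcr.le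
        have := mul_le_mul_of_nonneg_left hLκ hδ0.le
        linarith
      refine (mul_le_mul_of_nonneg_left (mul_le_mul hdecay h1 (by positivity)
        (Real.exp_pos _).le) (by linarith)).trans (le_of_eq ?_)
      rw [hW]; ring
    rw [show C * ((1 - β) * lQ) * Real.exp (-(c * (Real.log x₀ / lQ))) = C * W by rw [hW]; ring, hC]
    have p3 : 0 ≤ (40 * C₁ + Cl) * W := by positivity
    have := mul_le_mul_of_nonneg_left p1 (show 0 ≤ 40 * C₁ by linarith)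
    linarith
  · refine ⟨fun u => ν + ∑ ρ ∈ (S u \ ∅).filter (fun ρ => |ρ.im| ≤ T), lord u ρ * x₀ ^ (ρ.re - 1),
      fun u => hbnn _ u, Or.inl ⟨?_, fun u hu x hx hx' => ?_⟩⟩
    swap
    · simpa using (hS u hu).2.2 ∅ (Finset.empty_subset _) (by simp) (by simp) x hx hx'
    rw [Finset.sum_add_distrib, Finset.sum_const]
    have hlowsum := hlow Q T x₀ R 1 hx0 (by linarith) zero_le_one (hL ▸ hRL)
      (fun u => (S u \ ∅).filter fun ρ => |ρ.im| ≤ T) fun u hu ρ hρ => by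
        obtain ⟨hρS, hρi⟩ := Finset.mem_filter.1 hρ
        rw [Finset.sdiff_empty] at hρS
        obtain ⟨hρ0, hρ12⟩ := (hS u hu).1 ρ hρS
        rw [← hL]
        have hy : zoneG ≤ (1 - ρ.re) * L := by
          by_contra hlt
          exact hexc ⟨u, hu, ρ, hρS, hρi, by rw [lt_div_iff₀ (by linarith)]; exact not_le.1 hlt⟩
        refine ⟨hρ0, hρ12, hρi, hy, Real.exp_le_one_iff.2 ?_⟩
        have := mul_nonneg (show 0 ≤ R by linarith) (hz.le.trans hy)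
        linarith
    refine (add_le_add hsum hlowsum).trans ?_
    rw [mul_one, hC]
    obtain ⟨W, hW⟩ : ∃ W, W = Real.exp (-(c * (Real.log x₀ / lQ))) := ⟨_, rfl⟩
    have hW0 : 0 ≤ W := by rw [hW]; positivity
    have p1 : ε ≤ W := hW ▸ hεQ.trans hdecay0
    have p2 : Cl * Real.exp (-(R * zoneG) / 4) ≤ Cl * W :=
      hW ▸ mul_le_mul_of_nonneg_left hdecay (by linarith)
    have p3 : 0 ≤ (80 * C₁ * Real.exp (4 * G) + Cl * (κ / cr)) * W := by positivity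
    have := mul_le_mul_of_nonneg_left p1 (show 0 ≤ 40 * C₁ by linarith)
    rw [← hW]
    linarith

end FA.MontgomeryVaughan

end
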