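import Fermat.Agent.MontgomeryVaughan.Models
import Fermat.Agent.MontgomeryVaughan.UniformPNT
import Fermat.Agent.Forms3.RepresentationBound

/-!
# The main terms and the large greatest common divisors

Bounds on the singular sum of the exceptional pair, the square of its model, and the count of `n` with a
large common divisor with the exceptional modulus.
-/

set_option autoImplicit false
set_option linter.unusedSectionVars false

noncomputable section

open Finset Complex ArithmeticFunction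
open FA.ThreePrimes (eAdd trigSum moebiusR ramanujan)
open FA.AlmostGoldbach (pairSum pairTerm)
open FA.Gallagher (family mem_family)
open scoped Real Classical

namespace FA.MontgomeryVaughan

/-- Only the principal character modulo one is trivial in a family. -/
theorem eq_unitChar {u : Σ r : ℕ, DirichletCharacter ℂ r} (hu1 : 1 ≤ u.1) (hu : u.2.IsPrimitive) (h : u.2 = 1) :
    u = unitChar := by
  obtain ⟨q, χ⟩ := u
  have : NeZero q := ⟨Nat.one_le_iff_ne_zero.1 hu1⟩
  simp only at h hu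
  have hq : q = 1 := by
    rw [← hu, h]
    exact DirichletCharacter.conductor_one
  subst hq
  rw [h]
  rfl

theorem unitChar_mem {Q : ℕ} (hQ : 1 ≤ Q) : unitChar ∈ family Q :=
  mem_family.2 ⟨le_rfl, hQ, unitChar_isPrimitive⟩

/-- The pairs summing to `n`, weighted by `i ^ (β - 1)`. -/
theorem norm_pairSum_rpow_le {β : ℝ} (hβ : β ≤ 1) {X n : ℕ} (hn : 2 ≤ n) (hnX : n ≤ X) :
    ‖pairSum (fun i => (((i : ℝ) ^ (β - 1) : ℝ) : ℂ)) X n‖ ≤
      ((n : ℝ) - 1) * Real.exp (-((1 - β) * Real.log ((n : ℝ) / 2))) := by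
  obtain ⟨E, hE⟩ : ∃ E, E = Real.exp (-((1 - β) * Real.log ((n : ℝ) / 2))) := ⟨_, rfl⟩
  have hE0 : 0 ≤ E := hE ▸ (Real.exp_pos _).le
  rw [← hE]
  have hterm : ∀ i ∈ Icc 1 X, ∀ j ∈ Icc 1 X,
      ‖if i + j = n then (((i : ℝ) ^ (β - 1) : ℝ) : ℂ) * (((j : ℝ) ^ (β - 1) : ℝ) : ℂ) else 0‖ ≤
        if i + j = n then E else 0 := fun i hi j hj => by
    rw [mem_Icc] at hi hj
    split_ifs with h
    · have hi' : (1 : ℝ) ≤ i := Nat.one_le_cast.2 hi.1
      have hj' : (1 : ℝ) ≤ j := Nat.one_le_cast.2 hj.1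
      have hsum : (i : ℝ) + j = n := by exact_mod_cast h
      have hn' : (2 : ℝ) ≤ n := by exact_mod_cast hn
      rw [norm_mul, Complex.norm_real, Complex.norm_real, Real.norm_of_nonneg (by positivity),
        Real.norm_of_nonneg (by positivity), ← Real.mul_rpow (by positivity) (by positivity)]
      refine (Real.rpow_le_rpow_of_nonpos (show 0 < (n : ℝ) / 2 by linarith) ?_ (by linarith)).trans (le_of_eq ?_)
      · nlinarith
      · rw [hE, Real.rpow_def_of_pos (by linarith)]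
        ring_nf
    · simp
  refine (norm_sum_le _ _).trans ((sum_le_sum fun i hi => (norm_sum_le _ _).trans
    (sum_le_sum fun j hj => hterm i hi j hj)).trans (le_of_eq ?_))
  have h := congrArg Complex.re (FA.AlmostGoldbach.pairSum_one (X := X) (show 1 ≤ n by omega) hnX)
  rw [pairSum, Complex.re_sum] at h
  simp only [Complex.re_sum, apply_ite Complex.re, mul_one, one_re, zero_re, ofReal_re] at h
  rw [← h, sum_mul]
  refine sum_congr rfl fun i _ => ?_
  rw [sum_mul]
  refine sum_congr rfl fun j _ => ?_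
  split_ifs <;> simp

theorem abs_partial_coprime_le_prod {n : ℕ} (hn : n ≠ 0) (r P : ℕ) :
    |∑ m ∈ Icc 1 P, coprimeTerm n r m| ≤
      pairZ * ∏ p ∈ n.primeFactors \ r.primeFactors, (1 + 1 / ((p : ℝ) - 1)) := by
  refine (abs_sum_le_sum_abs _ _).trans (le_trans ?_ (sum_ramanujan_div_le hn r
    ((Icc 1 P).filter fun m => m.Coprime r ∧ Squarefree m) fun m hm => (mem_filter.1 hm).2))
  rw [sum_filter]
  refine sum_le_sum fun m _ => ?_
  rw [coprimeTerm_apply, FA.AlmostGoldbach.pairTerm_apply]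
  by_cases hc : m.Coprime r
  · by_cases hs : Squarefree m
    · rw [if_pos hc, if_pos ⟨hc, hs⟩, abs_div, abs_mul, abs_pow, abs_pow, Nat.abs_cast]
      refine div_le_div_of_nonneg_right (mul_le_of_le_one_left (abs_nonneg _) (pow_le_one₀ (abs_nonneg _)
        (FA.ThreePrimes.abs_moebiusR_le m))) (sq_nonneg _)
    · rw [if_pos hc, if_neg fun h => hs h.2, moebiusR, intCoe_apply, moebius_eq_zero_of_not_squarefree hs]
      simp
  · rw [if_neg hc, if_neg fun h => hc h.1, abs_zero]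

theorem abs_partial_coprime_le {n : ℕ} (hn : n ≠ 0) (r P : ℕ) :
    |∑ m ∈ Icc 1 P, coprimeTerm n r m| ≤ pairZ * ratio n :=
  (abs_partial_coprime_le_prod hn r P).trans (mul_le_mul_of_nonneg_left
    (prod_le_prod_of_subset_of_one_le sdiff_subset (fun p hp => zero_le_one.trans
      (one_le_factor (Nat.prime_of_mem_primeFactors (mem_sdiff.1 hp).1)))
      fun p hp _ => one_le_factor (Nat.prime_of_mem_primeFactors hp)) (zero_le_one.trans one_le_pairZ))

/-- A Ramanujan sum is at most the square of the common divisor. -/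
theorem abs_ramanujan_le_gcd {n : ℕ} (hn : n ≠ 0) (r : ℕ) : |ramanujan n r| ≤ (Nat.gcd n r : ℝ) ^ 2 := by
  refine (FA.AlmostGoldbach.abs_ramanujan_le_sum hn r).trans ?_
  rw [← sum_filter, sq]
  refine (sum_le_card_nsmul _ _ (Nat.gcd n r : ℝ) fun d hd => ?_).trans ?_
  · rw [mem_filter, Nat.mem_divisors] at hd
    exact Nat.cast_le.2 (Nat.le_of_dvd (Nat.gcd_pos_of_pos_left r (Nat.pos_of_ne_zero hn))
      (Nat.dvd_gcd hd.1.1 hd.2))
  · rw [nsmul_eq_mul]
    refine mul_le_mul_of_nonneg_right (Nat.cast_le.2 ?_) (Nat.cast_nonneg _)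
    refine (card_le_card (t := Icc 1 (Nat.gcd n r)) fun d hd => ?_).trans (Nat.card_Icc 1 _).le
    rw [mem_filter, Nat.mem_divisors] at hd
    rw [mem_Icc]
    exact ⟨Nat.pos_of_dvd_of_pos hd.1.1 (Nat.pos_of_ne_zero hn),
      Nat.le_of_dvd (Nat.gcd_pos_of_pos_left r (Nat.pos_of_ne_zero hn)) (Nat.dvd_gcd hd.1.1 hd.2)⟩

/-- The exceptional coefficient. -/
theorem exc_coef_le {n : ℕ} (hn : n ≠ 0) {r : ℕ} (hr : 0 < r) :
    (r : ℝ) * |ramanujan n r| / (r.totient : ℝ) ^ 2 ≤ 4 * (Nat.gcd n r : ℝ) ^ 2 * (r : ℝ) ^ (-(1 / 2) : ℝ) ∧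
      (r : ℝ) * |ramanujan n r| / (r.totient : ℝ) ^ 2 ≤ 2 * (r : ℝ) ^ (1 / 4 : ℝ) := by
  have hr' : (0 : ℝ) < r := Nat.cast_pos.2 hr
  constructor
  · rw [show (r : ℝ) * |ramanujan n r| / (r.totient : ℝ) ^ 2 =
      (r : ℝ) * |ramanujan n r| * (1 / (r.totient : ℝ) ^ 2) by ring]
    refine (mul_le_mul (mul_le_mul_of_nonneg_left (abs_ramanujan_le_gcd hn r) hr'.le)
      (FA.ThreePrimes.inv_totient_sq_le hr) (by positivity) (by positivity)).trans (le_of_eq ?_)
    rw [show (-(1 / 2) : ℝ) = 1 + -(3 / 2) by norm_num, Real.rpow_add hr', Real.rpow_one]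
    ring
  · have h1 := mul_le_mul_of_nonneg_left (sqrt_div_totient_le hr) (Real.sqrt_nonneg (r : ℝ))
    refine le_trans ?_ (h1.trans (le_of_eq ?_))
    · rw [mul_div_assoc', Real.mul_self_sqrt hr'.le, sq, ← div_div]
      refine div_le_div_of_nonneg_right ?_ (Nat.cast_nonneg _)
      have hφ : (0 : ℝ) < r.totient := Nat.cast_pos.2 (Nat.totient_pos.2 hr)
      rw [div_le_iff₀ hφ]
      exact mul_le_mul_of_nonneg_left (FA.ThreePrimes.abs_ramanujan_le n r) hr'.le
    · rw [mul_left_comm, Real.sqrt_eq_rpow, ← Real.rpow_add hr']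
      norm_num

/-- The `n` sharing much with `r`. -/
theorem card_gcd_large_mul_le {r : ℕ} (hr : 0 < r) (X : ℕ) {G₀ : ℝ} (hG : 0 < G₀) :
    (((Icc 1 X).filter fun n => G₀ < (Nat.gcd n r : ℝ)).card : ℝ) * G₀ ≤ (X : ℝ) * r.divisors.card := by
  have hsub : (Icc 1 X).filter (fun n => G₀ < (Nat.gcd n r : ℝ)) ⊆
      (r.divisors.filter fun d : ℕ => G₀ < d).biUnion fun d => (Icc 1 X).filter (d ∣ ·) := fun n hn => by
    rw [mem_filter] at hn
    exact mem_biUnion.2 ⟨Nat.gcd n r, mem_filter.2 ⟨Nat.mem_divisors.2 ⟨Nat.gcd_dvd_right _ _, hr.ne'⟩, hn.2⟩,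
      mem_filter.2 ⟨hn.1, Nat.gcd_dvd_left _ _⟩⟩
  refine (mul_le_mul_of_nonneg_right (Nat.cast_le.2 ((card_le_card hsub).trans card_biUnion_le)) hG.le).trans ?_
  rw [Nat.cast_sum, sum_mul]
  refine (sum_le_card_nsmul _ _ (X : ℝ) fun d hd => ?_).trans ?_
  · rw [mem_filter] at hd
    rw [show Icc 1 X = Ioc 0 X from rfl, Nat.Ioc_filter_dvd_card_eq_div]
    refine (mul_le_mul_of_nonneg_left hd.2.le (Nat.cast_nonneg _)).trans ?_
    exact_mod_cast Nat.div_mul_le_self X d
  · rw [nsmul_eq_mul, mul_comm]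
    exact mul_le_mul_of_nonneg_left (Nat.cast_le.2 (card_filter_le _ _)) (Nat.cast_nonneg X)

end FA.MontgomeryVaughan

end
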