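import Fermat.Agent.MontgomeryVaughan.Expansion

/-!
# Models of the character sums and what is left

The model of `χ(i) Λ(i)` is `1` for the principal character, less `i ^ (β - 1)` for the exceptional one.
What is left is small on the arc in mean square when its sums over short intervals are small.
-/

set_option autoImplicit false
set_option linter.unusedSectionVars false

noncomputable section

open Finset Complex ArithmeticFunction
open FA.ThreePrimes (eAdd trigSum)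
open FA.Gallagher (family mem_family psiInt mainTerm excG)
open scoped Real Classical

namespace FA.MontgomeryVaughan

/-- The model, `w` being what is taken out. -/
def model (w : (Σ r : ℕ, DirichletCharacter ℂ r) → ℕ → ℝ) (u : Σ r : ℕ, DirichletCharacter ℂ r) (i : ℕ) : ℂ :=
  (if u.2 = 1 then 1 else 0) - (w u i : ℂ)

/-- What is left. -/
def residual (w : (Σ r : ℕ, DirichletCharacter ℂ r) → ℕ → ℝ) (u : Σ r : ℕ, DirichletCharacter ℂ r) (i : ℕ) : ℂ :=
  u.2 (i : ZMod u.1) * (Λ i : ℂ) - model w u i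

theorem charSum_eq (w : (Σ r : ℕ, DirichletCharacter ℂ r) → ℕ → ℝ) (u : Σ r : ℕ, DirichletCharacter ℂ r) (X : ℕ) :
    charSum u X = fun x => trigSum (model w u) X x + trigSum (residual w u) X x := by
  funext x
  rw [charSum, trigSum, trigSum, trigSum, ← sum_add_distrib]
  refine sum_congr rfl fun i _ => ?_
  rw [residual]
  ring

theorem window_eq_Ioc {X H y : ℕ} (hy : H + 1 ≤ y) (hy' : y ≤ X + 1) :
    (Icc 1 X).filter (fun i => i < y ∧ y ≤ i + H) = Ioc (y - H - 1) (y - H - 1 + H) := by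
  ext i
  simp only [mem_filter, mem_Icc, mem_Ioc]
  omega

theorem norm_residual_le {w : (Σ r : ℕ, DirichletCharacter ℂ r) → ℕ → ℝ} {u : Σ r : ℕ, DirichletCharacter ℂ r}
    {X i : ℕ} (hi : i ∈ Icc 1 X) (hw : |w u i| ≤ 1) (hl : 1 ≤ Real.log X) :
    ‖residual w u i‖ ≤ 3 * Real.log X := by
  rw [mem_Icc] at hi
  have h1 : ‖u.2 (i : ZMod u.1) * (Λ i : ℂ)‖ ≤ Real.log X := by
    rw [norm_mul, Complex.norm_real, Real.norm_of_nonneg vonMangoldt_nonneg]
    exact (mul_le_of_le_one_left vonMangoldt_nonneg (u.2.norm_le_one _)).trans (vonMangoldt_le_log.trans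
      (Real.log_le_log (Nat.cast_pos.2 hi.1) (Nat.cast_le.2 hi.2)))
  have h2 : ‖model w u i‖ ≤ 2 := by
    refine (norm_sub_le _ _).trans ?_
    rw [Complex.norm_real, Real.norm_eq_abs]
    split_ifs <;> simp <;> linarith
  rw [residual]
  linarith [norm_sub_le (u.2 (i : ZMod u.1) * (Λ i : ℂ)) (model w u i)]

/-- **What is left, in mean square on the arc.** -/
theorem arcNorm_residual_le {X H M J Y₀ : ℕ} (hH : 0 < H) (hXM : X + H < M) (hJH : 6 * J * H ≤ M) (hJ : 2 * J < M)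
    (hl : 1 ≤ Real.log X) (w : (Σ r : ℕ, DirichletCharacter ℂ r) → ℕ → ℝ) (u : Σ r : ℕ, DirichletCharacter ℂ r)
    (hw : ∀ i, 1 ≤ i → |w u i| ≤ 1) {b : ℝ} (hb : 0 ≤ b)
    (hwin : ∀ s : ℕ, Y₀ ≤ s → s + H ≤ X →
      ‖psiInt u s H - mainTerm u H + ((∑ i ∈ Ioc s (s + H), w u i : ℝ) : ℂ)‖ ≤ H * b + 1) :
    arcNorm M J (fun x => trigSum (residual w u) X x) ≤
      2 * √(X : ℝ) * (b + 1 / H) + 6 * Real.log X * √((Y₀ + 2 * H : ℕ) : ℝ) := by
  have hH' : (0 : ℝ) < H := Nat.cast_pos.2 hH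
  refine (arcNorm_le_windows (residual w u) hH hXM hJH hJ).trans ?_
  obtain ⟨good, hgood⟩ : ∃ g, g = (Icc 1 (X + H)).filter (fun y => Y₀ + H + 1 ≤ y ∧ y ≤ X + 1) := ⟨_, rfl⟩
  have hg : ∀ y ∈ good, ‖windowSum (residual w u) X H y‖ ^ 2 ≤ ((H : ℝ) * b + 1) ^ 2 := fun y hy => by
    rw [hgood, mem_filter] at hy
    refine pow_le_pow_left₀ (norm_nonneg _) ?_ 2
    obtain ⟨s, hs⟩ : ∃ s, s = y - H - 1 := ⟨_, rfl⟩
    refine le_of_eq_of_le ?_ (hwin s (by omega) (by omega))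
    rw [windowSum, window_eq_Ioc (by omega) hy.2.2, ← hs]
    congr 1
    simp only [residual, model, psiInt, mainTerm, sum_sub_distrib, Complex.ofReal_sum]
    rw [show (s : ℝ) + (H : ℝ) = ((s + H : ℕ) : ℝ) by push_cast; ring, Nat.floor_natCast, Nat.floor_natCast]
    split_ifs
    · rw [sum_const, Nat.card_Ioc, Nat.add_sub_cancel_left, nsmul_eq_mul, mul_one]
      push_cast
      ring
    · simp
  have hbad : ∀ y ∈ (Icc 1 (X + H)).filter (fun y => ¬(Y₀ + H + 1 ≤ y ∧ y ≤ X + 1)),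
      ‖windowSum (residual w u) X H y‖ ^ 2 ≤ ((H : ℝ) * (3 * Real.log X)) ^ 2 := fun y _ => by
    refine pow_le_pow_left₀ (norm_nonneg _) ((norm_sum_le _ _).trans ((sum_le_card_nsmul _ _ (3 * Real.log X)
      fun i hi => ?_).trans ?_)) 2
    · exact norm_residual_le (mem_filter.1 hi).1 (hw i (mem_Icc.1 (mem_filter.1 hi).1).1) hl
    · rw [nsmul_eq_mul]
      refine mul_le_mul_of_nonneg_right (Nat.cast_le.2 ?_) (by linarith)
      refine (card_le_card (t := Ico (y - H) y) fun i hi => ?_).trans ?_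
      · rw [mem_filter] at hi
        rw [mem_Ico]
        omega
      · rw [Nat.card_Ico]
        omega
  have hsum : ∑ y ∈ Icc 1 (X + H), ‖windowSum (residual w u) X H y‖ ^ 2 ≤
      (X : ℝ) * ((H : ℝ) * b + 1) ^ 2 + ((Y₀ + 2 * H : ℕ) : ℝ) * ((H : ℝ) * (3 * Real.log X)) ^ 2 := by
    rw [← sum_filter_add_sum_filter_not (Icc 1 (X + H)) fun y => Y₀ + H + 1 ≤ y ∧ y ≤ X + 1, ← hgood]
    refine add_le_add ((sum_le_card_nsmul _ _ _ hg).trans ?_) ((sum_le_card_nsmul _ _ _ hbad).trans ?_) <;>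
      rw [nsmul_eq_mul] <;> refine mul_le_mul_of_nonneg_right (Nat.cast_le.2 ?_) (sq_nonneg _)
    · refine (card_le_card (t := Icc (Y₀ + H + 1) (X + 1)) fun y hy => ?_).trans ?_
      · rw [hgood, mem_filter] at hy
        exact mem_Icc.2 hy.2
      · rw [Nat.card_Icc]; omega
    · refine (card_le_card (t := Icc 1 (Y₀ + H) ∪ Icc (X + 2) (X + H)) fun y hy => ?_).trans
        ((card_union_le _ _).trans ?_)
      · rw [mem_filter, mem_Icc] at hy
        rw [mem_union, mem_Icc, mem_Icc]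
        omega
      · rw [Nat.card_Icc, Nat.card_Icc]; omega
  refine (mul_le_mul_of_nonneg_left (Real.sqrt_le_sqrt hsum) (by positivity)).trans ?_
  have hadd : ∀ a c : ℝ, 0 ≤ a → 0 ≤ c → √(a + c) ≤ √a + √c := fun a c ha hc => by
    rw [Real.sqrt_le_left (by positivity), add_sq, Real.sq_sqrt ha, Real.sq_sqrt hc]
    linarith [mul_nonneg (Real.sqrt_nonneg a) (Real.sqrt_nonneg c)]
  refine (mul_le_mul_of_nonneg_left (hadd _ _ (by positivity) (by positivity))
    (by positivity)).trans (le_of_eq ?_)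
  rw [Real.sqrt_mul (Nat.cast_nonneg X), Real.sqrt_mul (Nat.cast_nonneg (Y₀ + 2 * H)),
    Real.sqrt_sq (by positivity), Real.sqrt_sq (by positivity)]
  field_simp
  ring

/-- A unit step of `x ^ β / β`. -/
theorem excG_one_ge {β : ℝ} (hβ : 0 < β) (hβ1 : β ≤ 1) {x : ℝ} (hx : 1 ≤ x) :
    (x + 1) ^ (β - 1) ≤ excG x 1 β := by
  have hd : ∀ t ∈ Set.Ioo x (x + 1), HasDerivAt (fun t : ℝ => t ^ β / β) (t ^ (β - 1)) t := fun t ht' => by
    have := (Real.hasDerivAt_rpow_const (x := t) (p := β) (Or.inl (by linarith [ht'.1]))).div_const β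
    rwa [mul_div_cancel_left₀ _ hβ.ne'] at this
  obtain ⟨t, ht', he⟩ := exists_hasDerivAt_eq_slope (fun t : ℝ => t ^ β / β) (fun t => t ^ (β - 1))
    (show x < x + 1 by linarith) (ContinuousOn.div_const
      (continuousOn_id.rpow_const fun t ht' => Or.inl (by simp only [Set.mem_Icc] at ht'; simp only [id]; linarith)) β)
    hd
  rw [excG, sub_div]
  rw [add_sub_cancel_left, div_one] at he
  rw [← he]
  exact Real.rpow_le_rpow_of_nonpos (by linarith [ht'.1]) ht'.2.le (by linarith)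

/-- The exceptional term is the sum of the model to within `1`. -/
theorem abs_excG_sub_sum_le {β : ℝ} (hβ : 0 < β) (hβ1 : β ≤ 1) {s : ℕ} (hs : 1 ≤ s) (H : ℕ) :
    |excG s H β - ∑ i ∈ Ioc s (s + H), (i : ℝ) ^ (β - 1)| ≤ 1 := by
  have key : ∀ k : ℕ, 0 ≤ excG s k β - ∑ i ∈ Ioc s (s + k), (i : ℝ) ^ (β - 1) ∧
      excG s k β - ∑ i ∈ Ioc s (s + k), (i : ℝ) ^ (β - 1) ≤ (s : ℝ) ^ (β - 1) - ((s + k : ℕ) : ℝ) ^ (β - 1) := by
    intro k
    induction k with
    | zero => simp [excG]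
    | succ k ih =>
      have hx : (1 : ℝ) ≤ ((s + k : ℕ) : ℝ) := Nat.one_le_cast.2 (by omega)
      have e : excG s ((k + 1 : ℕ) : ℝ) β = excG s k β + excG ((s + k : ℕ) : ℝ) 1 β := by
        simp only [excG]
        push_cast
        rw [add_assoc]
        ring
      rw [e, show s + (k + 1) = s + k + 1 from rfl, sum_Ioc_succ_top (by omega)]
      have h1 := excG_one_ge hβ hβ1 hx
      have h2 := FA.Gallagher.excG_le hβ hβ1 hx zero_le_one
      rw [one_mul] at h2
      push_cast at h1 h2 ih ⊢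
      constructor <;> linarith [ih.1, ih.2]
  obtain ⟨h1, h2⟩ := key H
  rw [abs_le]
  have h3 : (s : ℝ) ^ (β - 1) ≤ 1 :=
    Real.rpow_le_one_of_one_le_of_nonpos (Nat.one_le_cast.2 hs) (by linarith)
  have h4 : 0 ≤ ((s + H : ℕ) : ℝ) ^ (β - 1) := Real.rpow_nonneg (Nat.cast_nonneg _) _
  constructor <;> linarith

theorem arcInt_add (M J : ℕ) (f g f' g' : ℝ → ℂ) (n : ℕ) :
    arcInt M J (fun x => f x + g x) (fun x => f' x + g' x) n =
      arcInt M J f f' n + (arcInt M J f g' n + arcInt M J g f' n + arcInt M J g g' n) := by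
  simp only [arcInt, ← add_div, ← sum_add_distrib]
  congr 1
  exact sum_congr rfl fun j _ => by ring

/-- **The models carry the sum over pairs.** -/
theorem norm_pairs_sub_le {ι : Type*} (s : Finset ι) (A : ι → ι → ℂ) {K : ℝ}
    (hA : ∀ u ∈ s, ∀ v ∈ s, ‖A u v‖ ≤ K) (T V : ι → ℝ → ℂ) (M J n : ℕ) :
    ‖∑ u ∈ s, ∑ v ∈ s, A u v * arcInt M J (fun x => T u x + V u x) (fun x => T v x + V v x) n -
        ∑ u ∈ s, ∑ v ∈ s, A u v * arcInt M J (T u) (T v) n‖ ≤
      K * (2 * (∑ u ∈ s, arcNorm M J (T u)) * (∑ u ∈ s, arcNorm M J (V u)) +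
        (∑ u ∈ s, arcNorm M J (V u)) ^ 2) := by
  simp only [arcInt_add, mul_add, sum_add_distrib, add_sub_cancel_left]
  have h : ∀ f g : ι → ℝ → ℂ, ‖∑ u ∈ s, ∑ v ∈ s, A u v * arcInt M J (f u) (g v) n‖ ≤
      K * ((∑ u ∈ s, arcNorm M J (f u)) * ∑ u ∈ s, arcNorm M J (g u)) := fun f g => by
    rw [sum_mul_sum, mul_sum]
    refine (norm_sum_le _ _).trans (sum_le_sum fun u hu => ?_)
    rw [mul_sum]
    refine (norm_sum_le _ _).trans (sum_le_sum fun v hv => ?_)
    rw [norm_mul]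
    exact mul_le_mul (hA u hu v hv) (norm_arcInt_le M J _ _ n) (norm_nonneg _)
      ((norm_nonneg _).trans (hA u hu v hv))
  refine ((norm_add_le _ _).trans (add_le_add (norm_add_le _ _) le_rfl)).trans ?_
  linarith [h T V, h V T, h V V]

end FA.MontgomeryVaughan

end
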